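import Fermat.Agent.S31.helper2756_K5
import Fermat.Agent.S29.helper8217_KummerClass
import Fermat.Agent.S16.helper2138_HeckeHom

/-!
# S31, machine fact (K5) on `JZero N`: `Λ / n ↪ J₀(N)[n]`, Hecke-equivariantly

`Λ = parabolicHoms ℤ (Gamma0 N) ℤ` (integral parabolic homomorphisms `Γ₀(N) → ℤ`),
`J = JZero N = Pic⁰` of the `ℚ̄`-function field of `X₀(N)` (Prelude), `T_ℓ = heckeOperatorBar N ℓ`
on `J`, and `t_ℓ = heckeHomT N ℓ` (coset transfer, landed `S16/helper2138_HeckeHom`) on `Λ`.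

The analytic Kummer dictionary enters through ONE relation
`Mult u ψ`  ("the function `u` has an analytic `n`-th root on `ℍ` whose multiplier is
`γ ↦ ζ_n ^ ψ γ`", `ζ_n = exp (2πi/n)`) and five closed properties of it (`MultSpec`), which are the
modulus-`n` forms of (TH2)–(TH5) of the S29 analytic hub:

* `surj`  (TH4ₙ) every `ψ ∈ Λ` is the multiplier of an `n`-Kummer function (twisted Eisenstein);
* `mul`   (TH2ₙ) multipliers multiply;
* `inj`   (TH3ₙ) trivial multiplier `ζ ^ (n • φ) = 1` ⇒ Kummer class `0` (`u = c * w ^ n`);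
* `triv`  (TH2ₙ) Kummer class `0` (`u = c * w ^ n`) ⇒ the multiplier is trivial: `n ∣ ψ γ`;
* `hecke` (TH5ₙ) the multiplier of `Norm (u(q^ℓ))` is the transfer of the multiplier of `u`.

Nothing here depends on `n` being prime.  Output: `kummerCorr_JZero` (a `KummerCorr`, hence the
whole API of `helper2756_K5`), the packaged existence statement `exists_k5`, and the consumer form
`exists_eq_nsmul_of_kills`.
-/

set_option autoImplicit false

namespace Fermat.Agent.S31.helper2756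

open ModularCurve AlgebraicCurve CongruenceSubgroup
open Fermat.Agent.S29.helper8217 Fermat.Agent.S16.helper2138
open scoped MatrixGroups

section Lattice

variable {Γ : Subgroup SL(2, ℤ)}

/-- The lattice of integral parabolic homomorphisms is saturated. -/
theorem exists_eq_nsmul_of_forall_dvd {n : ℕ} (hn : n ≠ 0)
    (ψ : ↥(Period.parabolicHoms ℤ Γ ℤ))
    (hdvd : ∀ γ : Additive Γ, (n : ℤ) ∣ (ψ : Additive Γ →+ ℤ) γ) :
    ∃ φ : ↥(Period.parabolicHoms ℤ Γ ℤ), ψ = n • φ := by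
  have hn' : (n : ℤ) ≠ 0 := Int.natCast_ne_zero.mpr hn
  let φ0 : Additive Γ →+ ℤ :=
    { toFun := fun γ => (ψ : Additive Γ →+ ℤ) γ / (n : ℤ)
      map_zero' := by simp
      map_add' := fun γ δ => by
        rw [map_add]
        exact Int.add_ediv_of_dvd_left (hdvd γ) }
  have hφ0 : ∀ γ, (n : ℤ) * φ0 γ = (ψ : Additive Γ →+ ℤ) γ := fun γ =>
    Int.mul_ediv_cancel' (hdvd γ)
  have hmem : φ0 ∈ Period.parabolicHoms ℤ Γ ℤ := by
    intro γ hγ
    have h1 := hφ0 (Additive.ofMul γ)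
    have h2 : (ψ : Additive Γ →+ ℤ) (Additive.ofMul γ) = 0 := ψ.2 γ hγ
    rw [h2] at h1
    exact (mul_eq_zero.mp h1).resolve_left hn'
  refine ⟨⟨φ0, hmem⟩, Subtype.ext (AddMonoidHom.ext fun γ => ?_)⟩
  rw [Submodule.coe_smul_of_tower, AddMonoidHom.smul_apply, nsmul_eq_mul]
  exact (hφ0 γ).symm

end Lattice

variable (N : ℕ) [NeZero N] (n : ℕ)

/-- The closed interface between the analytic Kummer dictionary at modulus `n` and (K5).
`Mult u ψ` stands for: "`u` has an analytic `n`-th root with multiplier `γ ↦ ζ_n ^ ψ γ`". -/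
structure MultSpec
    [HasPrincipalDivisors (AlgebraicClosure ℚ) (modularFunctionFieldBar N)]
    (Mult : modularFunctionFieldBar N → (Additive (Gamma0 N) →+ ℤ) → Prop) : Prop where
  /-- (TH4ₙ) every integral parabolic hom is a multiplier -/
  surj : ∀ ψ ∈ Period.parabolicHoms ℤ (Gamma0 N) ℤ,
    ∃ u : modularFunctionFieldBar N, IsKummer (AlgebraicClosure ℚ) n u ∧ Mult u ψ
  /-- (TH2ₙ) multipliers multiply -/
  mul : ∀ {u u' : modularFunctionFieldBar N} {ψ ψ' : Additive (Gamma0 N) →+ ℤ},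
    IsKummer (AlgebraicClosure ℚ) n u → IsKummer (AlgebraicClosure ℚ) n u' →
      Mult u ψ → Mult u' ψ' → Mult (u * u') (ψ + ψ')
  /-- (TH3ₙ) a trivial multiplier forces the Kummer class to vanish -/
  inj : ∀ {u : modularFunctionFieldBar N} {φ : Additive (Gamma0 N) →+ ℤ},
    IsKummer (AlgebraicClosure ℚ) n u → Mult u (n • φ) →
      kummerClass (AlgebraicClosure ℚ) n u = 0
  /-- (TH2ₙ) a function with vanishing Kummer class has trivial multiplier -/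
  triv : ∀ {u : modularFunctionFieldBar N} {ψ : Additive (Gamma0 N) →+ ℤ},
    IsKummer (AlgebraicClosure ℚ) n u → Mult u ψ →
      kummerClass (AlgebraicClosure ℚ) n u = 0 → ∀ γ : Additive (Gamma0 N), (n : ℤ) ∣ ψ γ
  /-- (TH5ₙ) Hecke-equivariance of the multiplier -/
  hecke : ∀ (ℓ : ℕ) [Fact ℓ.Prime] [NeZero ℓ] (hℓN : ¬ ℓ ∣ N)
    {u : modularFunctionFieldBar N} {ψ : Additive (Gamma0 N) →+ ℤ},
    IsKummer (AlgebraicClosure ℚ) n u → Mult u ψ →
      Mult (heckeFun (L := AlgebraicClosure ℚ) N ℓ u) (heckeHomT N ℓ hℓN ℤ ψ)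

variable {N n}

/-- Function-level form of `MultSpec.inj`/`MultSpec.triv`: it suffices to know the multiplier of
`c * w ^ n` (for `c` without zeros and poles) and that a trivial multiplier forces this shape. -/
theorem MultSpec.of_fun
    [HasPrincipalDivisors (AlgebraicClosure ℚ) (modularFunctionFieldBar N)] (hn : n ≠ 0)
    {Mult : modularFunctionFieldBar N → (Additive (Gamma0 N) →+ ℤ) → Prop}
    (surj : ∀ ψ ∈ Period.parabolicHoms ℤ (Gamma0 N) ℤ,
      ∃ u : modularFunctionFieldBar N, IsKummer (AlgebraicClosure ℚ) n u ∧ Mult u ψ)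
    (mul : ∀ {u u' : modularFunctionFieldBar N} {ψ ψ' : Additive (Gamma0 N) →+ ℤ},
      IsKummer (AlgebraicClosure ℚ) n u → IsKummer (AlgebraicClosure ℚ) n u' →
        Mult u ψ → Mult u' ψ' → Mult (u * u') (ψ + ψ'))
    (inj : ∀ {u : modularFunctionFieldBar N} {φ : Additive (Gamma0 N) →+ ℤ},
      IsKummer (AlgebraicClosure ℚ) n u → Mult u (n • φ) →
        ∃ w c : modularFunctionFieldBar N, w ≠ 0 ∧ c ≠ 0 ∧
          (∀ v : Place (AlgebraicClosure ℚ) (modularFunctionFieldBar N), v.ord c = 0) ∧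
            u = c * w ^ n)
    (triv : ∀ {w c : modularFunctionFieldBar N} {ψ : Additive (Gamma0 N) →+ ℤ}, w ≠ 0 → c ≠ 0 →
      (∀ v : Place (AlgebraicClosure ℚ) (modularFunctionFieldBar N), v.ord c = 0) →
        Mult (c * w ^ n) ψ → ∀ γ : Additive (Gamma0 N), (n : ℤ) ∣ ψ γ)
    (hecke : ∀ (ℓ : ℕ) [Fact ℓ.Prime] [NeZero ℓ] (hℓN : ¬ ℓ ∣ N)
      {u : modularFunctionFieldBar N} {ψ : Additive (Gamma0 N) →+ ℤ},
      IsKummer (AlgebraicClosure ℚ) n u → Mult u ψ →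
        Mult (heckeFun (L := AlgebraicClosure ℚ) N ℓ u) (heckeHomT N ℓ hℓN ℤ ψ)) :
    MultSpec N n Mult where
  surj := surj
  mul := mul
  inj := fun hu hM => (kummerClass_eq_zero_iff hn hu).2 (inj hu hM)
  triv := fun hu hM h0 => by
    obtain ⟨w, c, hw, hc, hcv, rfl⟩ := (kummerClass_eq_zero_iff hn hu).1 h0
    exact triv hw hc hcv hM
  hecke := hecke

/-- The correspondence relation on `Λ × JZero N` induced by a multiplier relation. -/
def RelJ [HasPrincipalDivisors (AlgebraicClosure ℚ) (modularFunctionFieldBar N)] (n : ℕ)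
    (Mult : modularFunctionFieldBar N → (Additive (Gamma0 N) →+ ℤ) → Prop)
    (ψ : ↥(Period.parabolicHoms ℤ (Gamma0 N) ℤ)) (x : JZero N) : Prop :=
  ∃ u : modularFunctionFieldBar N, IsKummer (AlgebraicClosure ℚ) n u ∧
    Mult u (ψ : Additive (Gamma0 N) →+ ℤ) ∧ kummerClass (AlgebraicClosure ℚ) n u = x

/-- **The Kummer correspondence on `JZero N` at modulus `n`.** -/
theorem kummerCorr_JZero
    [HasPrincipalDivisors (AlgebraicClosure ℚ) (modularFunctionFieldBar N)] (hn : n ≠ 0)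
    {Mult : modularFunctionFieldBar N → (Additive (Gamma0 N) →+ ℤ) → Prop}
    (hM : MultSpec N n Mult) : KummerCorr n (RelJ (N := N) n Mult) where
  total ψ := by
    obtain ⟨u, hu, hMu⟩ := hM.surj ψ ψ.2
    exact ⟨_, u, hu, hMu, rfl⟩
  add := by
    rintro ψ ψ' x x' ⟨u, hu, hMu, rfl⟩ ⟨u', hu', hMu', rfl⟩
    exact ⟨u * u', hu.mul hu', hM.mul hu hu' hMu hMu', kummerClass_mul hu hu'⟩
  zero_of_nsmul := by
    rintro φ x ⟨u, hu, hMu, rfl⟩
    have hMu' : Mult u (n • (φ : Additive (Gamma0 N) →+ ℤ)) := by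
      rwa [Submodule.coe_smul_of_tower] at hMu
    exact hM.inj hu hMu'
  ker := by
    rintro ψ ⟨u, hu, hMu, h0⟩
    exact exists_eq_nsmul_of_forall_dvd hn ψ (hM.triv hu hMu h0)

/-- The Hecke operators respect the correspondence: `(t_ℓ, T_ℓ)` maps `R` to `R`. -/
theorem relJ_hecke
    [HasPrincipalDivisors (AlgebraicClosure ℚ) (modularFunctionFieldBar N)] (hn : n ≠ 0)
    {Mult : modularFunctionFieldBar N → (Additive (Gamma0 N) →+ ℤ) → Prop}
    (hM : MultSpec N n Mult) (ℓ : ℕ) (hℓ : ℓ.Prime) (hℓN : ¬ ℓ ∣ N)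
    (hI : haveI : NeZero ℓ := ⟨hℓ.ne_zero⟩; HeckeInputsAlong (AlgebraicClosure ℚ) N ℓ)
    (ψ ψ' : ↥(Period.parabolicHoms ℤ (Gamma0 N) ℤ))
    (hψ' : (ψ' : Additive (Gamma0 N) →+ ℤ) =
      (haveI : Fact ℓ.Prime := ⟨hℓ⟩; heckeHomT N ℓ hℓN ℤ (ψ : Additive (Gamma0 N) →+ ℤ)))
    (x : JZero N) (hx : RelJ (N := N) n Mult ψ x) :
    RelJ (N := N) n Mult ψ' (heckeOperatorBar N ⟨ℓ, hℓ⟩ x) := by
  haveI : Fact ℓ.Prime := ⟨hℓ⟩
  haveI : NeZero ℓ := ⟨hℓ.ne_zero⟩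
  obtain ⟨u, hu, hMu, rfl⟩ := hx
  obtain ⟨hk, hT⟩ := heckeOperatorBar_kummerClass (N := N) ⟨ℓ, hℓ⟩ hI hn hu
  refine ⟨heckeFun (L := AlgebraicClosure ℚ) N ℓ u, hk, ?_, hT.symm⟩
  rw [hψ']
  exact hM.hecke ℓ hℓN hu hMu

/-- **(K5) on `JZero N`.**  For every `n ≠ 0` there is an additive map
`ι : Λ → JZero N` with `n • ι ψ = 0`, kernel `n • Λ`, and `ι (t_ℓ ψ) = T_ℓ (ι ψ)` for every prime
`ℓ ∤ N` for which the Prelude Hecke inputs hold. -/
theorem exists_k5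
    [HasPrincipalDivisors (AlgebraicClosure ℚ) (modularFunctionFieldBar N)] (hn : n ≠ 0)
    {Mult : modularFunctionFieldBar N → (Additive (Gamma0 N) →+ ℤ) → Prop}
    (hM : MultSpec N n Mult) :
    ∃ ι : ↥(Period.parabolicHoms ℤ (Gamma0 N) ℤ) →+ JZero N,
      (∀ ψ, n • ι ψ = 0) ∧
      (∀ ψ, ι ψ = 0 ↔ ∃ φ : ↥(Period.parabolicHoms ℤ (Gamma0 N) ℤ), ψ = n • φ) ∧
      (∀ (ℓ : ℕ) (hℓ : ℓ.Prime) (hℓN : ¬ ℓ ∣ N),
        (haveI : NeZero ℓ := ⟨hℓ.ne_zero⟩; HeckeInputsAlong (AlgebraicClosure ℚ) N ℓ) →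
        ∀ ψ ψ' : ↥(Period.parabolicHoms ℤ (Gamma0 N) ℤ),
          (ψ' : Additive (Gamma0 N) →+ ℤ) =
            (haveI : Fact ℓ.Prime := ⟨hℓ⟩; heckeHomT N ℓ hℓN ℤ (ψ : Additive (Gamma0 N) →+ ℤ)) →
          ι ψ' = heckeOperatorBar N ⟨ℓ, hℓ⟩ (ι ψ)) := by
  have h := kummerCorr_JZero hn hM
  refine ⟨h.iota, h.nsmul_iota, h.iota_eq_zero_iff, ?_⟩
  intro ℓ hℓ hℓN hI ψ ψ' hψ'
  exact h.iota_eq_of (relJ_hecke hn hM ℓ hℓ hℓN hI ψ ψ' hψ' _ (h.iota_spec ψ))

/-- A lattice operator `t` that restricts `heckeHomT N ℓ` is compatible with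
`heckeOperatorBar N ℓ`. -/
theorem compat_hecke
    [HasPrincipalDivisors (AlgebraicClosure ℚ) (modularFunctionFieldBar N)] (hn : n ≠ 0)
    {Mult : modularFunctionFieldBar N → (Additive (Gamma0 N) →+ ℤ) → Prop}
    (hM : MultSpec N n Mult) (ℓ : ℕ) (hℓ : ℓ.Prime) (hℓN : ¬ ℓ ∣ N)
    (hI : haveI : NeZero ℓ := ⟨hℓ.ne_zero⟩; HeckeInputsAlong (AlgebraicClosure ℚ) N ℓ)
    (t : Module.End ℤ ↥(Period.parabolicHoms ℤ (Gamma0 N) ℤ))
    (ht : ∀ ψ, ((t ψ : ↥(Period.parabolicHoms ℤ (Gamma0 N) ℤ)) : Additive (Gamma0 N) →+ ℤ) =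
      (haveI : Fact ℓ.Prime := ⟨hℓ⟩; heckeHomT N ℓ hℓN ℤ (ψ : Additive (Gamma0 N) →+ ℤ))) :
    (kummerCorr_JZero hn hM).Compat t (heckeOperatorBar N ⟨ℓ, hℓ⟩) :=
  fun ψ => (kummerCorr_JZero hn hM).iota_eq_of
    (relJ_hecke hn hM ℓ hℓ hℓN hI ψ (t ψ) (ht ψ) _ ((kummerCorr_JZero hn hM).iota_spec ψ))

/-- **Consumer form.**  If `(x, X)` is a compatible pair of operators on `Λ` and `JZero N`
(e.g. the same integer polynomial in `t_ℓ`, `t_ℓ'` and in `T_ℓ`, `T_ℓ'`) and `X` kills the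
`n`-torsion of `JZero N`, then `x` maps `Λ` into `n • Λ`. -/
theorem exists_eq_nsmul_of_kills
    [HasPrincipalDivisors (AlgebraicClosure ℚ) (modularFunctionFieldBar N)] (hn : n ≠ 0)
    {Mult : modularFunctionFieldBar N → (Additive (Gamma0 N) →+ ℤ) → Prop}
    (hM : MultSpec N n Mult)
    {x : Module.End ℤ ↥(Period.parabolicHoms ℤ (Gamma0 N) ℤ)} {X : Module.End ℤ (JZero N)}
    (hx : (kummerCorr_JZero hn hM).Compat x X) (hkill : ∀ y : JZero N, n • y = 0 → X y = 0)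
    (ψ : ↥(Period.parabolicHoms ℤ (Gamma0 N) ℤ)) :
    ∃ φ : ↥(Period.parabolicHoms ℤ (Gamma0 N) ℤ), x ψ = n • φ :=
  (kummerCorr_JZero hn hM).exists_eq_nsmul_of_compat hx hkill ψ

/-! ### Weak form: no injectivity of the multiplier map (no (TH3ₙ))

For the consumer statement "`X` kills `J[n]` ⇒ `x` maps `Λ` into `n • Λ`" the hard half of the
injectivity of the multiplier map (`MultSpec.inj`: trivial multiplier ⇒ `u = c * w ^ n` over
`ℚ̄`) is NOT needed: the relation `RelJ` need not be a map.  `MultSpecW` is `MultSpec` without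
`inj` (and with the two trivial closure properties `inv`, `one`). -/

/-- The weak interface: (TH2ₙ) + (TH4ₙ) + (TH5ₙ), no (TH3ₙ). -/
structure MultSpecW (N : ℕ) [NeZero N] (n : ℕ)
    [HasPrincipalDivisors (AlgebraicClosure ℚ) (modularFunctionFieldBar N)]
    (Mult : modularFunctionFieldBar N → (Additive (Gamma0 N) →+ ℤ) → Prop) : Prop where
  /-- (TH4ₙ) every integral parabolic hom is a multiplier -/
  surj : ∀ ψ ∈ Period.parabolicHoms ℤ (Gamma0 N) ℤ,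
    ∃ u : modularFunctionFieldBar N, IsKummer (AlgebraicClosure ℚ) n u ∧ Mult u ψ
  /-- (TH2ₙ) multipliers multiply -/
  mul : ∀ {u u' : modularFunctionFieldBar N} {ψ ψ' : Additive (Gamma0 N) →+ ℤ},
    IsKummer (AlgebraicClosure ℚ) n u → IsKummer (AlgebraicClosure ℚ) n u' →
      Mult u ψ → Mult u' ψ' → Mult (u * u') (ψ + ψ')
  /-- (TH2ₙ) inverses -/
  inv : ∀ {u : modularFunctionFieldBar N} {ψ : Additive (Gamma0 N) →+ ℤ},
    IsKummer (AlgebraicClosure ℚ) n u → Mult u ψ → Mult u⁻¹ (-ψ)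
  /-- (TH2ₙ) the constant function `1` has the trivial multiplier -/
  one : Mult 1 0
  /-- (TH2ₙ) a function with vanishing Kummer class has trivial multiplier -/
  triv : ∀ {u : modularFunctionFieldBar N} {ψ : Additive (Gamma0 N) →+ ℤ},
    IsKummer (AlgebraicClosure ℚ) n u → Mult u ψ →
      kummerClass (AlgebraicClosure ℚ) n u = 0 → ∀ γ : Additive (Gamma0 N), (n : ℤ) ∣ ψ γ
  /-- (TH5ₙ) Hecke-equivariance of the multiplier -/
  hecke : ∀ (ℓ : ℕ) [Fact ℓ.Prime] [NeZero ℓ] (hℓN : ¬ ℓ ∣ N)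
    {u : modularFunctionFieldBar N} {ψ : Additive (Gamma0 N) →+ ℤ},
    IsKummer (AlgebraicClosure ℚ) n u → Mult u ψ →
      Mult (heckeFun (L := AlgebraicClosure ℚ) N ℓ u) (heckeHomT N ℓ hℓN ℤ ψ)

/-- Function-level constructor of `MultSpecW`: `triv` stated for `u = c * w ^ n`. -/
theorem MultSpecW.of_fun
    [HasPrincipalDivisors (AlgebraicClosure ℚ) (modularFunctionFieldBar N)] (hn : n ≠ 0)
    {Mult : modularFunctionFieldBar N → (Additive (Gamma0 N) →+ ℤ) → Prop}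
    (surj : ∀ ψ ∈ Period.parabolicHoms ℤ (Gamma0 N) ℤ,
      ∃ u : modularFunctionFieldBar N, IsKummer (AlgebraicClosure ℚ) n u ∧ Mult u ψ)
    (mul : ∀ {u u' : modularFunctionFieldBar N} {ψ ψ' : Additive (Gamma0 N) →+ ℤ},
      IsKummer (AlgebraicClosure ℚ) n u → IsKummer (AlgebraicClosure ℚ) n u' →
        Mult u ψ → Mult u' ψ' → Mult (u * u') (ψ + ψ'))
    (inv : ∀ {u : modularFunctionFieldBar N} {ψ : Additive (Gamma0 N) →+ ℤ},
      IsKummer (AlgebraicClosure ℚ) n u → Mult u ψ → Mult u⁻¹ (-ψ))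
    (one : Mult 1 0)
    (triv : ∀ {w c : modularFunctionFieldBar N} {ψ : Additive (Gamma0 N) →+ ℤ}, w ≠ 0 → c ≠ 0 →
      (∀ v : Place (AlgebraicClosure ℚ) (modularFunctionFieldBar N), v.ord c = 0) →
        Mult (c * w ^ n) ψ → ∀ γ : Additive (Gamma0 N), (n : ℤ) ∣ ψ γ)
    (hecke : ∀ (ℓ : ℕ) [Fact ℓ.Prime] [NeZero ℓ] (hℓN : ¬ ℓ ∣ N)
      {u : modularFunctionFieldBar N} {ψ : Additive (Gamma0 N) →+ ℤ},
      IsKummer (AlgebraicClosure ℚ) n u → Mult u ψ →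
        Mult (heckeFun (L := AlgebraicClosure ℚ) N ℓ u) (heckeHomT N ℓ hℓN ℤ ψ)) :
    MultSpecW N n Mult where
  surj := surj
  mul := mul
  inv := inv
  one := one
  triv := fun hu hM h0 => by
    obtain ⟨w, c, hw, hc, hcv, rfl⟩ := (kummerClass_eq_zero_iff hn hu).1 h0
    exact triv hw hc hcv hM
  hecke := hecke

/-- **The weak Kummer correspondence on `JZero N` at modulus `n`** (no (TH3ₙ)). -/
theorem kummerRel_JZero
    [HasPrincipalDivisors (AlgebraicClosure ℚ) (modularFunctionFieldBar N)] (hn : n ≠ 0)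
    {Mult : modularFunctionFieldBar N → (Additive (Gamma0 N) →+ ℤ) → Prop}
    (hM : MultSpecW N n Mult) : KummerRel n (RelJ (N := N) n Mult) where
  total ψ := by
    obtain ⟨u, hu, hMu⟩ := hM.surj ψ ψ.2
    exact ⟨_, u, hu, hMu, rfl⟩
  add := by
    rintro ψ ψ' x x' ⟨u, hu, hMu, rfl⟩ ⟨u', hu', hMu', rfl⟩
    exact ⟨u * u', hu.mul hu', hM.mul hu hu' hMu hMu', kummerClass_mul hu hu'⟩
  neg := by
    rintro ψ x ⟨u, hu, hMu, rfl⟩
    exact ⟨u⁻¹, hu.inv, hM.inv hu hMu, kummerClass_inv hu⟩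
  zero := ⟨1, isKummer_one n, hM.one, kummerClass_one n⟩
  tors := by
    rintro ψ x ⟨u, hu, hMu, rfl⟩
    have := zsmul_kummerClass (K := AlgebraicClosure ℚ) n u
    rwa [natCast_zsmul] at this
  ker := by
    rintro ψ ⟨u, hu, hMu, h0⟩
    exact exists_eq_nsmul_of_forall_dvd hn ψ (hM.triv hu hMu h0)

/-- The Hecke operators respect the weak correspondence. -/
theorem relCompat_hecke
    [HasPrincipalDivisors (AlgebraicClosure ℚ) (modularFunctionFieldBar N)] (hn : n ≠ 0)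
    {Mult : modularFunctionFieldBar N → (Additive (Gamma0 N) →+ ℤ) → Prop}
    (hM : MultSpecW N n Mult) (ℓ : ℕ) (hℓ : ℓ.Prime) (hℓN : ¬ ℓ ∣ N)
    (hI : haveI : NeZero ℓ := ⟨hℓ.ne_zero⟩; HeckeInputsAlong (AlgebraicClosure ℚ) N ℓ)
    (t : Module.End ℤ ↥(Period.parabolicHoms ℤ (Gamma0 N) ℤ))
    (ht : ∀ ψ, ((t ψ : ↥(Period.parabolicHoms ℤ (Gamma0 N) ℤ)) : Additive (Gamma0 N) →+ ℤ) =
      (haveI : Fact ℓ.Prime := ⟨hℓ⟩; heckeHomT N ℓ hℓN ℤ (ψ : Additive (Gamma0 N) →+ ℤ))) :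
    RelCompat (RelJ (N := N) n Mult) t (heckeOperatorBar N ⟨ℓ, hℓ⟩) := by
  haveI : Fact ℓ.Prime := ⟨hℓ⟩
  haveI : NeZero ℓ := ⟨hℓ.ne_zero⟩
  rintro ψ x ⟨u, hu, hMu, rfl⟩
  obtain ⟨hk, hT⟩ := heckeOperatorBar_kummerClass (N := N) ⟨ℓ, hℓ⟩ hI hn hu
  refine ⟨heckeFun (L := AlgebraicClosure ℚ) N ℓ u, hk, ?_, hT.symm⟩
  rw [ht ψ]
  exact hM.hecke ℓ hℓN hu hMu

/-- **(K5), weak consumer form with a finite test set.**  There is a FINITE set `F` of
`n`-torsion points of `JZero N` such that: whenever a pair `(x, X)` of operators on `Λ` and on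
`JZero N` respects the correspondence (e.g. the same integer polynomial in `t_ℓ, t_ℓ'` and in
`T_ℓ, T_ℓ'`: use `relCompat_hecke` and `KummerRel.relCompat_aeval/_sub/...`) and `X` vanishes on
`F`, then `x` maps `Λ` into `n • Λ`. -/
theorem exists_finset_test_JZero
    [HasPrincipalDivisors (AlgebraicClosure ℚ) (modularFunctionFieldBar N)]
    [Module.Finite ℤ ↥(Period.parabolicHoms ℤ (Gamma0 N) ℤ)] (hn : n ≠ 0)
    {Mult : modularFunctionFieldBar N → (Additive (Gamma0 N) →+ ℤ) → Prop}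
    (hM : MultSpecW N n Mult) :
    ∃ F : Finset (JZero N), (∀ y ∈ F, n • y = 0) ∧
      ∀ (x : Module.End ℤ ↥(Period.parabolicHoms ℤ (Gamma0 N) ℤ)) (X : Module.End ℤ (JZero N)),
        RelCompat (RelJ (N := N) n Mult) x X → (∀ y ∈ F, X y = 0) →
          ∀ ψ : ↥(Period.parabolicHoms ℤ (Gamma0 N) ℤ),
            ∃ φ : ↥(Period.parabolicHoms ℤ (Gamma0 N) ℤ), x ψ = n • φ :=
  (kummerRel_JZero hn hM).exists_finset_test

/-- Weak consumer form without the test set: `X` kills all of `JZero N [n]`. -/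
theorem exists_eq_nsmul_of_kills_weak
    [HasPrincipalDivisors (AlgebraicClosure ℚ) (modularFunctionFieldBar N)] (hn : n ≠ 0)
    {Mult : modularFunctionFieldBar N → (Additive (Gamma0 N) →+ ℤ) → Prop}
    (hM : MultSpecW N n Mult)
    {x : Module.End ℤ ↥(Period.parabolicHoms ℤ (Gamma0 N) ℤ)} {X : Module.End ℤ (JZero N)}
    (hx : RelCompat (RelJ (N := N) n Mult) x X) (hkill : ∀ y : JZero N, n • y = 0 → X y = 0)
    (ψ : ↥(Period.parabolicHoms ℤ (Gamma0 N) ℤ)) :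
    ∃ φ : ↥(Period.parabolicHoms ℤ (Gamma0 N) ℤ), x ψ = n • φ :=
  (kummerRel_JZero hn hM).exists_eq_nsmul_of_relCompat hx hkill ψ

end Fermat.Agent.S31.helper2756
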