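import Mathlib
import Fermat.Prelude.Def_CuspForm_HeckeGaloisRepDatum
import Fermat.Prelude.Def_HeckeGalois_EichlerShimura

/-!
# S31, middle layer (helper5402): saturation index, cyclotomic action, Dickson identity,
reciprocity statement from abstract machine facts.
-/

set_option autoImplicit false

namespace Fermat.Agent.S31.helper5402

local notation "Qb" => AlgebraicClosure ℚ
local notation "GQ" => (AlgebraicClosure ℚ ≃ₐ[ℚ] AlgebraicClosure ℚ)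

/-! ## (SAT) saturation index -/

section Saturation

variable {Λ : Type*} [AddCommGroup Λ] [Module.Finite ℤ Λ] [Module.Free ℤ Λ]

/-- For a submodule `T₀` of a finitely generated `ℤ`-module `E`, there is a nonzero integer `c₀`
such that `c₀ • e ∈ T₀` whenever some nonzero multiple of `e` lies in `T₀`. -/
theorem exists_saturation_const {E : Type*} [AddCommGroup E] [Module.Finite ℤ E]
    (T₀ : Submodule ℤ E) :
    ∃ c₀ : ℤ, c₀ ≠ 0 ∧ ∀ e : E, (∃ k : ℤ, k ≠ 0 ∧ k • e ∈ T₀) → c₀ • e ∈ T₀ := by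
  classical
  -- the saturation of `T₀`
  let Sat : Submodule ℤ E :=
    { carrier := {e | ∃ k : ℤ, k ≠ 0 ∧ k • e ∈ T₀}
      add_mem' := by
        rintro e₁ e₂ ⟨k₁, hk₁, h₁⟩ ⟨k₂, hk₂, h₂⟩
        refine ⟨k₁ * k₂, mul_ne_zero hk₁ hk₂, ?_⟩
        rw [smul_add]
        refine T₀.add_mem ?_ ?_
        · rw [mul_comm, mul_smul]; exact T₀.smul_mem _ h₁
        · rw [mul_smul]; exact T₀.smul_mem _ h₂
      zero_mem' := ⟨1, one_ne_zero, by simp⟩
      smul_mem' := by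
        rintro c e ⟨k, hk, h⟩
        refine ⟨k, hk, ?_⟩
        rw [smul_comm]; exact T₀.smul_mem _ h }
  have hfg : Sat.FG := IsNoetherian.noetherian Sat
  obtain ⟨s, hs⟩ := hfg
  have hk : ∀ e ∈ s, ∃ k : ℤ, k ≠ 0 ∧ k • e ∈ T₀ := by
    intro e he
    have : e ∈ Sat := hs ▸ Submodule.subset_span he
    exact this
  choose! k hk0 hkT using hk
  refine ⟨∏ e ∈ s, k e, Finset.prod_ne_zero_iff.mpr hk0, ?_⟩
  intro e he
  have heS : e ∈ Sat := he
  rw [← hs] at heS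
  have hle : Submodule.span ℤ (s : Set E) ≤
      T₀.comap (LinearMap.lsmul ℤ E (∏ e ∈ s, k e)) := by
    rw [Submodule.span_le]
    intro e' he'
    have he's : e' ∈ s := he'
    show (∏ e ∈ s, k e) • e' ∈ T₀
    rw [← Finset.prod_erase_mul s k he's, mul_smul]
    exact T₀.smul_mem _ (hkT e' he's)
  exact hle heS

/-- **Saturation-index lemma.** If a ring `R` acts faithfully on a finitely generated free
`ℤ`-module `Λ`, there is `c₀ > 0` such that whenever `x ∈ R` maps `Λ` into `M Λ`,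
`c₀ x ∈ M R`. -/
theorem exists_saturation_index {R : Type*} [Ring R] (Φ : R →+* Module.End ℤ Λ)
    (hΦ : Function.Injective Φ) :
    ∃ c₀ : ℕ, 0 < c₀ ∧ ∀ (x : R) (M : ℤ), (∀ v : Λ, ∃ w : Λ, Φ x v = M • w) →
      ∃ y : R, (c₀ : ℤ) • x = M • y := by
  classical
  let T₀ : Submodule ℤ (Module.End ℤ Λ) := (Φ : R →+ Module.End ℤ Λ).range.toIntSubmodule
  obtain ⟨c, hc0, hc⟩ := exists_saturation_const T₀
  refine ⟨c.natAbs, Int.natAbs_pos.mpr hc0, ?_⟩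
  intro x M hx
  by_cases hM : M = 0
  · subst hM
    refine ⟨0, ?_⟩
    have hx0 : Φ x = 0 := by
      ext v
      obtain ⟨w, hw⟩ := hx v
      simpa using hw
    have : x = 0 := hΦ (by rw [hx0, map_zero])
    simp [this]
  · choose w hw using hx
    have hinj : Function.Injective fun v : Λ => M • v := smul_right_injective Λ hM
    let e : Module.End ℤ Λ :=
      { toFun := w
        map_add' := fun v₁ v₂ => by
          apply hinj
          show M • w (v₁ + v₂) = M • (w v₁ + w v₂)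
          rw [smul_add, ← hw, ← hw, ← hw, map_add]
        map_smul' := fun a v => by
          apply hinj
          show M • w (a • v) = M • (RingHom.id ℤ a • w v)
          rw [RingHom.id_apply, smul_comm, ← hw, ← hw, map_smul] }
    have hMe : M • e = Φ x := by
      ext v
      show M • w v = Φ x v
      rw [hw]
    have he : c • e ∈ T₀ := by
      refine hc e ⟨M, hM, ?_⟩
      rw [hMe]
      exact ⟨x, rfl⟩
    obtain ⟨y, hy⟩ := he
    have hy' : Φ y = c • e := hy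
    -- sign bookkeeping: `c.natAbs = ± c`
    rcases Int.natAbs_eq c with hcabs | hcabs
    · refine ⟨y, hΦ ?_⟩
      rw [← hcabs, map_zsmul, map_zsmul, hy', ← hMe, smul_comm]
    · refine ⟨-y, hΦ ?_⟩
      have : ((c.natAbs : ℕ) : ℤ) = -c := by omega
      rw [this, map_zsmul, map_zsmul, map_neg, hy', ← hMe, neg_smul, smul_neg, smul_comm]

end Saturation

/-! ## (CYC) action of Frobenius lifts and inertia on roots of unity -/

section Cyclotomic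

variable {K L : Type*} [Field K] [Field L] [Algebra K L]

/-- Roots of unity lie in every valuation subring. -/
theorem mem_of_pow_eq_one (A : ValuationSubring L) {x : L} {M : ℕ} (hM : M ≠ 0)
    (hx : x ^ M = 1) : x ∈ A := by
  rcases A.mem_or_inv_mem x with h | h
  · exact h
  · have hx' : x = (x⁻¹) ^ (M - 1) := by
      have h1 : x * x ^ (M - 1) = 1 := by
        rw [← pow_succ', Nat.sub_add_cancel (Nat.one_le_iff_ne_zero.mpr hM), hx]
      rw [inv_pow]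
      exact eq_inv_of_mul_eq_one_left h1
    rw [hx']
    exact A.pow_mem h _

/-- Two `M`-th roots of unity congruent modulo the maximal ideal of a valuation subring of
residue characteristic prime to `M` are equal. -/
theorem eq_of_pow_eq_one_of_sub_mem_nonunits (A : ValuationSubring L) {ℓ M : ℕ}
    (hℓ : (ℓ : L) ∈ A.nonunits) (hcop : Nat.Coprime ℓ M) {x y : L} (hx : x ^ M = 1)
    (hy : y ^ M = 1) (hxy : x - y ∈ A.nonunits) : x = y := by
  have h1 : (1 : L) ∉ A.nonunits := by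
    intro h
    rw [ValuationSubring.mem_nonunits_iff] at h
    simp at h
  have hM : M ≠ 0 := by
    rintro rfl
    rw [Nat.coprime_zero_right] at hcop
    subst hcop
    exact h1 (by simpa using hℓ)
  by_contra hne
  have hxA : x ∈ A := mem_of_pow_eq_one A hM hx
  have hyA : y ∈ A := mem_of_pow_eq_one A hM hy
  have hy0 : y ≠ 0 := by
    rintro rfl
    rw [zero_pow hM] at hy
    exact zero_ne_one hy
  set u : L := x * y ^ (M - 1) with hu
  have hyM : y * y ^ (M - 1) = 1 := by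
    rw [← pow_succ', Nat.sub_add_cancel (Nat.one_le_iff_ne_zero.mpr hM), hy]
  have hu1 : u ≠ 1 := by
    intro h
    apply hne
    have : x * y ^ (M - 1) = y * y ^ (M - 1) := by rw [← hu, h, hyM]
    exact mul_right_cancel₀ (pow_ne_zero _ hy0) this
  have huM : u ^ M = 1 := by
    rw [hu, mul_pow, hx, one_mul, ← pow_mul, mul_comm, pow_mul, hy, one_pow]
  have hsum : ∑ i ∈ Finset.range M, u ^ i = 0 := by
    have h := geom_sum_mul u M
    rw [huM, sub_self] at h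
    rcases mul_eq_zero.mp h with h | h
    · exact h
    · exact absurd (sub_eq_zero.mp h) hu1
  -- pass to the residue field
  let xA : A := ⟨x, hxA⟩
  let yA : A := ⟨y, hyA⟩
  let uA : A := xA * yA ^ (M - 1)
  have hres : IsLocalRing.residue A xA = IsLocalRing.residue A yA := by
    rw [← sub_eq_zero, ← map_sub, IsLocalRing.residue_eq_zero_iff,
      ← ValuationSubring.coe_mem_nonunits_iff]
    exact hxy
  have hyAM : yA * yA ^ (M - 1) = 1 := Subtype.ext hyM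
  have hresu : IsLocalRing.residue A uA = 1 := by
    show IsLocalRing.residue A (xA * yA ^ (M - 1)) = 1
    rw [map_mul, hres, ← map_mul, hyAM, map_one]
  have hsumA : ∑ i ∈ Finset.range M, uA ^ i = 0 := by
    apply Subtype.ext
    have : ((∑ i ∈ Finset.range M, uA ^ i : A) : L) = ∑ i ∈ Finset.range M, u ^ i := by
      push_cast
      rfl
    rw [this, hsum]
    rfl
  have hMk : (M : IsLocalRing.ResidueField A) = 0 := by
    have h := congrArg (IsLocalRing.residue A) hsumA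
    rw [map_sum, map_zero] at h
    simp only [map_pow, hresu, one_pow, Finset.sum_const, Finset.card_range, nsmul_eq_mul,
      mul_one] at h
    exact h
  have hℓk : (ℓ : IsLocalRing.ResidueField A) = 0 := by
    have hℓA : (ℓ : L) ∈ A := A.nonunits_subset hℓ
    have h2 : ((⟨(ℓ : L), hℓA⟩ : A)) ∈ IsLocalRing.maximalIdeal A := by
      rw [← ValuationSubring.coe_mem_nonunits_iff]
      exact hℓ
    have h3 : (⟨(ℓ : L), hℓA⟩ : A) = ((ℓ : ℕ) : A) := Subtype.ext (by simp)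
    rw [h3] at h2
    have := (IsLocalRing.residue_eq_zero_iff _).mpr h2
    simpa using this
  have hbez : ((ℓ : ℤ) * Nat.gcdA ℓ M + (M : ℤ) * Nat.gcdB ℓ M : ℤ) = 1 := by
    rw [← Nat.gcd_eq_gcd_ab, hcop.gcd_eq_one]
    rfl
  have := congrArg (Int.cast : ℤ → IsLocalRing.ResidueField A) hbez
  push_cast at this
  rw [hMk, hℓk, zero_mul, zero_mul, add_zero] at this
  exact zero_ne_one this

/-- A Frobenius lift at `ℓ` raises elements of the valuation ring to the `ℓ`-th power modulo the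
maximal ideal. -/
theorem frob_sub_pow_mem_nonunits {A : ValuationSubring L} {σ : L ≃ₐ[K] L} {ℓ : ℕ}
    (h : A.IsFrobeniusAt σ ℓ) {x : L} (hx : x ∈ A) : σ x - x ^ ℓ ∈ A.nonunits := by
  obtain ⟨hσ, hfrob⟩ := h
  have h1 := hfrob (IsLocalRing.residue A ⟨x, hx⟩)
  rw [← IsLocalRing.ResidueField.residue_smul, ← map_pow, ← sub_eq_zero, ← map_sub,
    IsLocalRing.residue_eq_zero_iff, ← ValuationSubring.coe_mem_nonunits_iff] at h1
  exact h1

/-- Inertia elements act trivially modulo the maximal ideal. -/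
theorem inertia_sub_mem_nonunits {A : ValuationSubring L} {τ : L ≃ₐ[K] L}
    (hτ : τ ∈ A.inertiaSubgroupIn K) {x : L} (hx : x ∈ A) : τ x - x ∈ A.nonunits := by
  obtain ⟨⟨τ', hdec⟩, hin, rfl⟩ := hτ
  have hker : MulSemiringAction.toRingAut (A.decompositionSubgroup K) (IsLocalRing.ResidueField A)
      ⟨τ', hdec⟩ = 1 := hin
  have h1 : (⟨τ', hdec⟩ : A.decompositionSubgroup K) • IsLocalRing.residue A ⟨x, hx⟩
      = IsLocalRing.residue A ⟨x, hx⟩ := by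
    have := congrArg
      (fun f : RingAut (IsLocalRing.ResidueField A) => f (IsLocalRing.residue A ⟨x, hx⟩)) hker
    simpa using this
  rw [← IsLocalRing.ResidueField.residue_smul, ← sub_eq_zero, ← map_sub,
    IsLocalRing.residue_eq_zero_iff, ← ValuationSubring.coe_mem_nonunits_iff] at h1
  exact h1

/-- **Frobenius lifts act on roots of unity of order prime to `ℓ` by `ζ ↦ ζ ^ ℓ`.** -/
theorem frob_apply_of_pow_eq_one {A : ValuationSubring L} {σ : L ≃ₐ[K] L} {ℓ M : ℕ}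
    (hA : A.LiesOverPrime ℓ) (h : A.IsFrobeniusAt σ ℓ) (hcop : Nat.Coprime ℓ M) {ζ : L}
    (hζ : ζ ^ M = 1) : σ ζ = ζ ^ ℓ := by
  have hM : M ≠ 0 := by
    rintro rfl
    rw [Nat.coprime_zero_right] at hcop
    subst hcop
    have h1 : (1 : L) ∈ A.nonunits := by simpa [ValuationSubring.LiesOverPrime] using hA
    rw [ValuationSubring.mem_nonunits_iff] at h1
    simp at h1
  refine eq_of_pow_eq_one_of_sub_mem_nonunits A hA hcop ?_ ?_
    (frob_sub_pow_mem_nonunits h (mem_of_pow_eq_one A hM hζ))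
  · rw [← map_pow, hζ, map_one]
  · rw [← pow_mul, mul_comm, pow_mul, hζ, one_pow]

/-- **Inertia at `q` fixes roots of unity of order prime to `q`.** -/
theorem inertia_apply_of_pow_eq_one {A : ValuationSubring L} {τ : L ≃ₐ[K] L} {q M : ℕ}
    (hA : A.LiesOverPrime q) (hτ : τ ∈ A.inertiaSubgroupIn K) (hcop : Nat.Coprime q M) {ζ : L}
    (hζ : ζ ^ M = 1) : τ ζ = ζ := by
  have hM : M ≠ 0 := by
    rintro rfl
    rw [Nat.coprime_zero_right] at hcop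
    subst hcop
    have h1 : (1 : L) ∈ A.nonunits := by simpa [ValuationSubring.LiesOverPrime] using hA
    rw [ValuationSubring.mem_nonunits_iff] at h1
    simp at h1
  refine eq_of_pow_eq_one_of_sub_mem_nonunits A hA hcop ?_ hζ
    (inertia_sub_mem_nonunits hτ (mem_of_pow_eq_one A hM hζ))
  rw [← map_pow, hζ, map_one]

/-- Iterating: `σ ^ a` acts on such roots of unity by `ζ ↦ ζ ^ (ℓ ^ a)`. -/
theorem frob_pow_apply_of_pow_eq_one {A : ValuationSubring L} {σ : L ≃ₐ[K] L} {ℓ M : ℕ}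
    (hA : A.LiesOverPrime ℓ) (h : A.IsFrobeniusAt σ ℓ) (hcop : Nat.Coprime ℓ M) {ζ : L}
    (hζ : ζ ^ M = 1) (a : ℕ) : (σ ^ a) ζ = ζ ^ (ℓ ^ a) := by
  induction a with
  | zero => simp
  | succ a ih =>
    rw [pow_succ', AlgEquiv.mul_apply, ih, map_pow,
      frob_apply_of_pow_eq_one hA h hcop hζ, ← pow_mul, ← pow_succ']

end Cyclotomic

/-! ## (DICK) Dickson identity on a module -/

section Dickson

variable {G J : Type*} [Group G] [AddCommGroup J] [DistribMulAction G J]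

/-- If `σ² - t σ + ℓ = 0` on a `σ`-stable subgroup `U`, then the `a`-th Dickson polynomial of
`t` acts on `U` as `σ^a + ℓ^a σ^{-a}`. -/
theorem dickson_apply (σ : G) (t : Module.End ℤ J) (ℓ : ℤ) (U : AddSubgroup J)
    (hσU : ∀ x ∈ U, σ • x ∈ U) (hσU' : ∀ x ∈ U, σ⁻¹ • x ∈ U)
    (hrel : ∀ x ∈ U, σ • σ • x - t (σ • x) + ℓ • x = 0) (a : ℕ) :
    ∀ x ∈ U, Polynomial.aeval t (Polynomial.dickson 1 ℓ a) x
      = σ ^ a • x + ℓ ^ a • (σ⁻¹) ^ a • x := by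
  have hpowU : ∀ (n : ℕ), ∀ x ∈ U, σ ^ n • x ∈ U := by
    intro n
    induction n with
    | zero => intro x hx; simpa using hx
    | succ n ih => intro x hx; rw [pow_succ', mul_smul]; exact hσU _ (ih x hx)
  have hpowU' : ∀ (n : ℕ), ∀ x ∈ U, (σ⁻¹) ^ n • x ∈ U := by
    intro n
    induction n with
    | zero => intro x hx; simpa using hx
    | succ n ih => intro x hx; rw [pow_succ', mul_smul]; exact hσU' _ (ih x hx)
  have key : ∀ z ∈ U, t z = σ • z + ℓ • σ⁻¹ • z := by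
    intro z hz
    have h := hrel (σ⁻¹ • z) (hσU' z hz)
    rw [smul_inv_smul] at h
    have h2 : σ • z + ℓ • σ⁻¹ • z - t z = 0 := by
      rw [← h]; abel
    exact (sub_eq_zero.mp h2).symm
  suffices H : ∀ a : ℕ,
      (∀ x ∈ U, Polynomial.aeval t (Polynomial.dickson 1 ℓ a) x
        = σ ^ a • x + ℓ ^ a • (σ⁻¹) ^ a • x) ∧
      (∀ x ∈ U, Polynomial.aeval t (Polynomial.dickson 1 ℓ (a + 1)) x
        = σ ^ (a + 1) • x + ℓ ^ (a + 1) • (σ⁻¹) ^ (a + 1) • x) from (H a).1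
  intro a
  induction a with
  | zero =>
    refine ⟨fun x _ => ?_, fun x hx => ?_⟩
    · rw [Polynomial.dickson_zero]
      simp only [Nat.cast_one, map_sub, map_ofNat, map_one, pow_zero, one_smul]
      have : ((3 : Module.End ℤ J) - 1) = 1 + 1 := by norm_num
      rw [this, LinearMap.add_apply, Module.End.one_apply]
    · rw [Polynomial.dickson_one, Polynomial.aeval_X, zero_add, pow_one, pow_one, pow_one]
      exact key x hx
  | succ a ih =>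
    refine ⟨ih.2, fun x hx => ?_⟩
    rw [Polynomial.dickson_add_two, map_sub, map_mul, map_mul, Polynomial.aeval_X,
      Polynomial.aeval_C, LinearMap.sub_apply, Module.End.mul_apply, Module.End.mul_apply,
      Module.algebraMap_end_apply, ih.1 x hx, ih.2 x hx, map_add, map_zsmul,
      key _ (hpowU (a + 1) x hx), key _ (hpowU' (a + 1) x hx)]
    have e1 : σ • σ ^ (a + 1) • x = σ ^ (a + 1 + 1) • x := by
      rw [← mul_smul, ← pow_succ']
    have e2 : σ⁻¹ • σ ^ (a + 1) • x = σ ^ a • x := by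
      rw [pow_succ', mul_smul, inv_smul_smul]
    have e3 : σ • σ⁻¹ ^ (a + 1) • x = σ⁻¹ ^ a • x := by
      rw [pow_succ', mul_smul, smul_inv_smul]
    have e4 : σ⁻¹ • σ⁻¹ ^ (a + 1) • x = σ⁻¹ ^ (a + 1 + 1) • x := by
      rw [← mul_smul, ← pow_succ']
    rw [e1, e2, e3, e4]
    simp only [smul_add, smul_smul]
    have p1 : ℓ ^ (a + 1) * ℓ = ℓ ^ (a + 1 + 1) := by ring
    have p2 : ℓ * ℓ ^ a = ℓ ^ (a + 1) := by ring
    rw [p1, p2]
    abel

end Dickson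

/-! ## (REC) the reciprocity statement from abstract machine facts -/

section Reciprocity

open CuspForm ModularCurve

/-- **Reciprocity statement, general two-sided form.**  For every `n` there is a finite level
`K` such that, for inertia elements `τ₁`, `τ₂` at `q`, any `g`, and Frobenius lifts `s`, `s'` at
primes `ℓ`, `ℓ'` outside `S ∪ B` with `s ^ a = g` and `s' ^ b = τ₁ g τ₂` on `K`, the
Hecke-algebra element `D_a(T_ℓ, ℓ) - D_b(T_ℓ', ℓ')` (`D` = Dickson polynomials of the first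
kind) is divisible by `p ^ n`.  It mentions no Galois representation of the datum. -/
def Stmt_RecGen (N : ℕ) [NeZero N] (S B : Set ℕ) (p q : ℕ) : Prop :=
  ∀ n : ℕ, ∃ K : IntermediateField ℚ Qb, FiniteDimensional ℚ K ∧
    ∀ P₁ P₂ : ValuationSubring Qb, P₁.LiesOverPrime q → P₂.LiesOverPrime q →
    ∀ τ₁ ∈ P₁.inertiaSubgroupIn ℚ, ∀ τ₂ ∈ P₂.inertiaSubgroupIn ℚ, ∀ g : GQ,
    ∀ (ℓ ℓ' : ℕ) (hℓ : ℓ.Prime) (hℓ' : ℓ'.Prime) (hℓN : ¬ ℓ ∣ N) (hℓ'N : ¬ ℓ' ∣ N)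
      (hℓS : ℓ ∉ S) (hℓ'S : ℓ' ∉ S), ℓ ∉ B → ℓ' ∉ B →
      ∀ (A A' : ValuationSubring Qb) (s s' : GQ),
      A.LiesOverPrime ℓ → A'.LiesOverPrime ℓ' → A.IsFrobeniusAt s ℓ → A'.IsFrobeniusAt s' ℓ' →
      ∀ a b : ℕ, (∀ x ∈ K, (s ^ a) x = g x) → (∀ x ∈ K, (s' ^ b) x = (τ₁ * g * τ₂) x) →
      ∃ y : heckeAlgebra N 2 S,
        (Polynomial.dickson 1 ((ℓ : ℕ) : heckeAlgebra N 2 S) a).eval (heckeAlgebra.T hℓ hℓN hℓS)
          - (Polynomial.dickson 1 ((ℓ' : ℕ) : heckeAlgebra N 2 S) b).eval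
              (heckeAlgebra.T hℓ' hℓ'N hℓ'S)
          = (p : heckeAlgebra N 2 S) ^ n * y

/-- **Reciprocity statement, `(g, τ)`-form** (`s ^ a = g`, `s' ^ b = g τ` on `K`). -/
def Stmt_Rec (N : ℕ) [NeZero N] (S : Set ℕ) (p q : ℕ) : Prop :=
  ∀ n : ℕ, ∃ K : IntermediateField ℚ Qb, FiniteDimensional ℚ K ∧
    ∀ P : ValuationSubring Qb, P.LiesOverPrime q → ∀ τ ∈ P.inertiaSubgroupIn ℚ, ∀ g : GQ,
    ∀ (ℓ ℓ' : ℕ) (hℓ : ℓ.Prime) (hℓ' : ℓ'.Prime) (hℓN : ¬ ℓ ∣ N) (hℓ'N : ¬ ℓ' ∣ N)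
      (hℓS : ℓ ∉ S) (hℓ'S : ℓ' ∉ S) (A A' : ValuationSubring Qb) (s s' : GQ),
      A.LiesOverPrime ℓ → A'.LiesOverPrime ℓ' → A.IsFrobeniusAt s ℓ → A'.IsFrobeniusAt s' ℓ' →
      ∀ a b : ℕ, (∀ x ∈ K, (s ^ a) x = g x) → (∀ x ∈ K, (s' ^ b) x = (g * τ) x) →
      ∃ y : heckeAlgebra N 2 S,
        (Polynomial.dickson 1 ((ℓ : ℕ) : heckeAlgebra N 2 S) a).eval (heckeAlgebra.T hℓ hℓN hℓS)
          - (Polynomial.dickson 1 ((ℓ' : ℕ) : heckeAlgebra N 2 S) b).eval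
              (heckeAlgebra.T hℓ' hℓ'N hℓ'S)
          = (p : heckeAlgebra N 2 S) ^ n * y

/-- **Reciprocity statement, `(τ, g)`-form** (`s ^ a = g`, `s' ^ b = τ g` on `K`), with an
exceptional set `B` of primes. -/
def Stmt_RecLeft (N : ℕ) [NeZero N] (S B : Set ℕ) (p q : ℕ) : Prop :=
  ∀ n : ℕ, ∃ K : IntermediateField ℚ Qb, FiniteDimensional ℚ K ∧
    ∀ P : ValuationSubring Qb, P.LiesOverPrime q → ∀ τ ∈ P.inertiaSubgroupIn ℚ, ∀ g : GQ,
    ∀ (ℓ ℓ' : ℕ) (hℓ : ℓ.Prime) (hℓ' : ℓ'.Prime) (hℓN : ¬ ℓ ∣ N) (hℓ'N : ¬ ℓ' ∣ N)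
      (hℓS : ℓ ∉ S) (hℓ'S : ℓ' ∉ S), ℓ ∉ B → ℓ' ∉ B →
      ∀ (A A' : ValuationSubring Qb) (s s' : GQ),
      A.LiesOverPrime ℓ → A'.LiesOverPrime ℓ' → A.IsFrobeniusAt s ℓ → A'.IsFrobeniusAt s' ℓ' →
      ∀ a b : ℕ, (∀ x ∈ K, (s ^ a) x = g x) → (∀ x ∈ K, (s' ^ b) x = (τ * g) x) →
      ∃ y : heckeAlgebra N 2 S,
        (Polynomial.dickson 1 ((ℓ : ℕ) : heckeAlgebra N 2 S) a).eval (heckeAlgebra.T hℓ hℓN hℓS)
          - (Polynomial.dickson 1 ((ℓ' : ℕ) : heckeAlgebra N 2 S) b).eval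
              (heckeAlgebra.T hℓ' hℓ'N hℓ'S)
          = (p : heckeAlgebra N 2 S) ^ n * y

theorem one_mem_inertiaSubgroupIn (P : ValuationSubring Qb) :
    (1 : GQ) ∈ P.inertiaSubgroupIn ℚ := one_mem _

theorem Stmt_RecGen.stmt_Rec {N : ℕ} [NeZero N] {S : Set ℕ} {p q : ℕ}
    (h : Stmt_RecGen N S ∅ p q) : Stmt_Rec N S p q := by
  intro n
  obtain ⟨K, hK, hrec⟩ := h n
  refine ⟨K, hK, ?_⟩
  intro P hP τ hτ g ℓ ℓ' hℓ hℓ' hℓN hℓ'N hℓS hℓ'S A A' s s' hA hA' hs hs' a b hsa hsb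
  refine hrec P P hP hP 1 (one_mem_inertiaSubgroupIn P) τ hτ g ℓ ℓ' hℓ hℓ' hℓN hℓ'N hℓS hℓ'S
    (Set.notMem_empty _) (Set.notMem_empty _) A A' s s' hA hA' hs hs' a b hsa ?_
  intro x hx
  rw [one_mul]
  exact hsb x hx

theorem Stmt_RecGen.stmt_RecLeft {N : ℕ} [NeZero N] {S B : Set ℕ} {p q : ℕ}
    (h : Stmt_RecGen N S B p q) : Stmt_RecLeft N S B p q := by
  intro n
  obtain ⟨K, hK, hrec⟩ := h n
  refine ⟨K, hK, ?_⟩
  intro P hP τ hτ g ℓ ℓ' hℓ hℓ' hℓN hℓ'N hℓS hℓ'S hℓB hℓ'B A A' s s' hA hA' hs hs' a b hsa hsb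
  refine hrec P P hP hP τ hτ 1 (one_mem_inertiaSubgroupIn P) g ℓ ℓ' hℓ hℓ' hℓN hℓ'N hℓS hℓ'S
    hℓB hℓ'B A A' s s' hA hA' hs hs' a b hsa ?_
  intro x hx
  rw [mul_one]
  exact hsb x hx

/-- Polynomials in intertwined endomorphisms are intertwined. -/
theorem aeval_intertwine {Λ J : Type*} [AddCommGroup Λ] [AddCommGroup J] (ι : Λ →+ J)
    (A : Module.End ℤ Λ) (B : Module.End ℤ J) (h : ∀ v, ι (A v) = B (ι v))
    (P : Polynomial ℤ) (v : Λ) :
    ι (Polynomial.aeval A P v) = Polynomial.aeval B P (ι v) := by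
  have hpow : ∀ (n : ℕ) (v : Λ), ι ((A ^ n) v) = (B ^ n) (ι v) := by
    intro n
    induction n with
    | zero => intro v; simp
    | succ n ih => intro v; rw [pow_succ', pow_succ', Module.End.mul_apply, Module.End.mul_apply,
        h, ih]
  induction P using Polynomial.induction_on' with
  | add P Q hP hQ => rw [map_add, map_add, LinearMap.add_apply, LinearMap.add_apply, map_add, hP, hQ]
  | monomial n c =>
    rw [Polynomial.aeval_monomial, Polynomial.aeval_monomial, Module.End.mul_apply,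
      Module.End.mul_apply, Module.algebraMap_end_apply, Module.algebraMap_end_apply, map_zsmul,
      hpow]

/-- Polynomials in endomorphisms respecting an additive relation respect it. -/
theorem aeval_rel {Λ J : Type*} [AddCommGroup Λ] [AddCommGroup J] (R : Λ → J → Prop)
    (hadd : ∀ v v' y y', R v y → R v' y' → R (v + v') (y + y'))
    (hneg : ∀ v y, R v y → R (-v) (-y)) (hzero : R 0 0)
    (A : Module.End ℤ Λ) (B : Module.End ℤ J) (h : ∀ v y, R v y → R (A v) (B y))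
    (P : Polynomial ℤ) : ∀ v y, R v y → R (Polynomial.aeval A P v) (Polynomial.aeval B P y) := by
  have hpow : ∀ (n : ℕ) (v : Λ) (y : J), R v y → R ((A ^ n) v) ((B ^ n) y) := by
    intro n
    induction n with
    | zero => intro v y hvy; simpa using hvy
    | succ n ih =>
      intro v y hvy
      rw [pow_succ', pow_succ', Module.End.mul_apply, Module.End.mul_apply]
      exact h _ _ (ih v y hvy)
  have hnsmul : ∀ (c : ℕ) (v : Λ) (y : J), R v y → R (c • v) (c • y) := by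
    intro c
    induction c with
    | zero => intro v y _; simpa using hzero
    | succ c ih =>
      intro v y hvy
      rw [succ_nsmul, succ_nsmul]
      exact hadd _ _ _ _ (ih v y hvy) hvy
  have hzsmul : ∀ (c : ℤ) (v : Λ) (y : J), R v y → R (c • v) (c • y) := by
    intro c v y hvy
    obtain ⟨k, rfl | rfl⟩ := Int.eq_nat_or_neg c
    · rw [natCast_zsmul, natCast_zsmul]
      exact hnsmul k v y hvy
    · rw [neg_smul, neg_smul, natCast_zsmul, natCast_zsmul]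
      exact hneg _ _ (hnsmul k v y hvy)
  induction P using Polynomial.induction_on' with
  | add P Q hP hQ =>
    intro v y hvy
    rw [map_add, map_add, LinearMap.add_apply, LinearMap.add_apply]
    exact hadd _ _ _ _ (hP v y hvy) (hQ v y hvy)
  | monomial n c =>
    intro v y hvy
    rw [Polynomial.aeval_monomial, Polynomial.aeval_monomial, Module.End.mul_apply,
      Module.End.mul_apply, Module.algebraMap_end_apply, Module.algebraMap_end_apply]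
    exact hzsmul c _ _ (hpow n v y hvy)

/-- The image under a ring hom into an endomorphism ring of a Dickson value. -/
theorem map_dickson_eval {R : Type*} [CommRing R] {Λ : Type*} [AddCommGroup Λ]
    (Φ : R →+* Module.End ℤ Λ) (ℓ : ℕ) (a : ℕ) (x : R) :
    Φ ((Polynomial.dickson 1 ((ℓ : ℕ) : R) a).eval x)
      = Polynomial.aeval (Φ x) (Polynomial.dickson 1 ((ℓ : ℕ) : ℤ) a) := by
  have h1 : Polynomial.dickson 1 ((ℓ : ℕ) : R) a
      = (Polynomial.dickson 1 ((ℓ : ℕ) : ℤ) a).map (Int.castRingHom R) := by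
    rw [Polynomial.map_dickson]
    simp
  have h2 : Polynomial.eval₂ (Int.castRingHom R) x (Polynomial.dickson 1 ((ℓ : ℕ) : ℤ) a)
      = Polynomial.aeval x (Polynomial.dickson 1 ((ℓ : ℕ) : ℤ) a) := by
    rw [Polynomial.aeval_def]
    rfl
  rw [h1, Polynomial.eval_map, h2]
  exact (Polynomial.aeval_algHom_apply Φ.toIntAlgHom x _).symm

/-- Exponents of equal powers of a primitive root are congruent. -/
theorem modEq_of_pow_eq_pow {F : Type*} [Field F] {ζ : F} {k : ℕ} (hζ : IsPrimitiveRoot ζ k)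
    (hk : 0 < k) {x y : ℕ} (h : ζ ^ x = ζ ^ y) : x ≡ y [MOD k] := by
  wlog hxy : x ≤ y generalizing x y
  · exact (this h.symm (le_of_not_ge hxy)).symm
  have hζ0 : ζ ≠ 0 := hζ.ne_zero hk.ne'
  have h1 : ζ ^ (y - x) = 1 := by
    have : ζ ^ x * ζ ^ (y - x) = ζ ^ x * 1 := by
      rw [← pow_add, Nat.add_sub_cancel' hxy, mul_one, h]
    exact mul_left_cancel₀ (pow_ne_zero _ hζ0) this
  exact (Nat.modEq_iff_dvd' hxy).mpr ((hζ.pow_eq_one_iff_dvd _).mp h1)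

/-- The action of `heckeGen r` on a `HeckeAlg`-module, as a `ℤ`-linear endomorphism. -/
noncomputable def heckeEndInt (J : Type*) [AddCommGroup J] [Module HeckeAlg J] (r : Nat.Primes) :
    Module.End ℤ J :=
  (DistribSMul.toAddMonoidHom J (heckeGen r)).toIntLinearMap

theorem heckeEndInt_apply (J : Type*) [AddCommGroup J] [Module HeckeAlg J] (r : Nat.Primes)
    (x : J) : heckeEndInt J r x = heckeGen r • x := rfl

/-- **The general reciprocity statement from operator-wise machine facts, relation form.**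
`J` is any abelian group with `G_ℚ`-action and operators `TJ ℓ` (in the application: `JZero N`
with `heckeOperatorBar N ℓ`; no commutativity of the `TJ ℓ` and no Galois-equivariance is
needed), `Λ` a lattice with a faithful action of the anemic Hecke algebra (in the application:
integral parabolic homs).  Facts used, for primes `ℓ ∉ S ∪ B` not dividing `N` only:
inertia at `q` acts trivially on `p`-power torsion; the Eichler–Shimura relation on `p`-power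
torsion; `p ^ m`-torsion is defined over a finite level; for every `m` an additive relation
`R ⊆ Λ × J[p ^ m]`, total on `Λ`, respected by `(t ℓ, TJ ℓ)`, with `R v 0 → v ∈ p ^ m Λ`
(the Kummer correspondence; a map `Λ → J` is not needed). -/
theorem stmt_RecGen_of_relFacts {N : ℕ} [NeZero N] {S B : Set ℕ} {p q : ℕ}
    (hp : p.Prime) (hq : q.Prime) (hpS : p ∈ S) (hqS : q ∉ S)
    {J : Type*} [AddCommGroup J] [DistribMulAction GQ J]
    (TJ : Nat.Primes → Module.End ℤ J)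
    (hUnr : ∀ P : ValuationSubring Qb, P.LiesOverPrime q → ∀ τ ∈ P.inertiaSubgroupIn ℚ,
      ∀ x : J, (∃ n : ℕ, p ^ n • x = 0) → τ • x = x)
    (hFrob : ∀ (ℓ : ℕ) (hℓ : ℓ.Prime), ¬ ℓ ∣ N → ℓ ∉ S → ℓ ∉ B →
      ∀ A : ValuationSubring Qb, A.LiesOverPrime ℓ → ∀ σ : GQ, A.IsFrobeniusAt σ ℓ →
      ∀ x : J, (∃ n : ℕ, p ^ n • x = 0) →
        σ • σ • x - TJ (⟨ℓ, hℓ⟩ : Nat.Primes) (σ • x) + ℓ • x = 0)
    (hK1 : ∀ m : ℕ, ∃ L : IntermediateField ℚ Qb, FiniteDimensional ℚ L ∧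
      ∀ σ : GQ, (∀ x ∈ L, σ x = x) → ∀ x : J, p ^ m • x = 0 → σ • x = x)
    {Λ : Type*} [AddCommGroup Λ] [Module.Finite ℤ Λ] [Module.Free ℤ Λ]
    (t : Nat.Primes → Module.End ℤ Λ)
    (Φ : heckeAlgebra N 2 S →+* Module.End ℤ Λ) (hΦ : Function.Injective Φ)
    (hΦT : ∀ (ℓ : ℕ) (hℓ : ℓ.Prime) (hℓN : ¬ ℓ ∣ N) (hℓS : ℓ ∉ S),
      Φ (heckeAlgebra.T hℓ hℓN hℓS) = t (⟨ℓ, hℓ⟩ : Nat.Primes))
    (hK5 : ∀ m : ℕ, ∃ R : Λ → J → Prop, (∀ v, ∃ y, R v y) ∧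
      (∀ v v' y y', R v y → R v' y' → R (v + v') (y + y')) ∧
      (∀ v y, R v y → R (-v) (-y)) ∧ R 0 0 ∧
      (∀ v y, R v y → p ^ m • y = 0) ∧
      (∀ ℓ : Nat.Primes, ¬ (ℓ : ℕ) ∣ N → (ℓ : ℕ) ∉ S → (ℓ : ℕ) ∉ B →
        ∀ v y, R v y → R (t ℓ v) (TJ ℓ y)) ∧
      (∀ v, R v 0 → ∃ w, v = ((p ^ m : ℕ) : ℤ) • w)) :
    Stmt_RecGen N S B p q := by
  classical
  intro n
  obtain ⟨c₀, hc₀pos, hsat⟩ := exists_saturation_index Φ hΦ
  obtain ⟨c, c₁, hc₁, hc₀eq⟩ := Nat.exists_eq_pow_mul_and_not_dvd hc₀pos.ne' p hp.ne_one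
  set m := n + c with hm
  obtain ⟨L, hLfin, hL⟩ := hK1 m
  obtain ⟨R, hRtot, hRadd, hRneg, hRzero, hRtors, hRt, hRker⟩ := hK5 m
  have : NeZero ((p : ℕ) : Qb) := ⟨Nat.cast_ne_zero.mpr hp.ne_zero⟩
  obtain ⟨ζ, hζ⟩ := HasEnoughRootsOfUnity.exists_primitiveRoot Qb (p ^ m)
  have hpm0 : 0 < p ^ m := pow_pos hp.pos m
  have := hLfin
  have : FiniteDimensional ℚ (IntermediateField.adjoin ℚ ({ζ} : Set Qb)) :=
    IntermediateField.adjoin.finiteDimensional ((hζ.isIntegral hpm0).tower_top (R := ℤ))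
  refine ⟨L ⊔ IntermediateField.adjoin ℚ ({ζ} : Set Qb), IntermediateField.finiteDimensional_sup _ _, ?_⟩
  intro P₁ P₂ hP₁ hP₂ τ₁ hτ₁ τ₂ hτ₂ g ℓ ℓ' hℓ hℓ' hℓN hℓ'N hℓS hℓ'S hℓB hℓ'B A A' s s' hA hA' hs hs'
    a b hsa hsb
  have hζK : ζ ∈ L ⊔ IntermediateField.adjoin ℚ ({ζ} : Set Qb) :=
    (le_sup_right : _ ≤ L ⊔ IntermediateField.adjoin ℚ ({ζ} : Set Qb))
      (IntermediateField.mem_adjoin_simple_self ℚ ζ)
  have hLK : ∀ x ∈ L, x ∈ L ⊔ IntermediateField.adjoin ℚ ({ζ} : Set Qb) := fun x hx =>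
    (le_sup_left : L ≤ L ⊔ IntermediateField.adjoin ℚ ({ζ} : Set Qb)) hx
  have hℓp : ℓ ≠ p := fun h => hℓS (h ▸ hpS)
  have hℓ'p : ℓ' ≠ p := fun h => hℓ'S (h ▸ hpS)
  have hqp : q ≠ p := fun h => hqS (h ▸ hpS)
  have hζpow : ζ ^ (p ^ m) = 1 := hζ.pow_eq_one
  have hcopℓ : Nat.Coprime ℓ (p ^ m) := Nat.Coprime.pow_right m ((Nat.coprime_primes hℓ hp).mpr hℓp)
  have hcopℓ' : Nat.Coprime ℓ' (p ^ m) :=
    Nat.Coprime.pow_right m ((Nat.coprime_primes hℓ' hp).mpr hℓ'p)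
  have hcopq : Nat.Coprime q (p ^ m) := Nat.Coprime.pow_right m ((Nat.coprime_primes hq hp).mpr hqp)
  -- cyclotomic congruence `ℓ ^ a ≡ ℓ' ^ b mod p ^ m`
  have e1 : (s ^ a) ζ = ζ ^ (ℓ ^ a) := frob_pow_apply_of_pow_eq_one hA hs hcopℓ hζpow a
  have e2 : (s' ^ b) ζ = ζ ^ (ℓ' ^ b) := frob_pow_apply_of_pow_eq_one hA' hs' hcopℓ' hζpow b
  have e3 : τ₂ ζ = ζ := inertia_apply_of_pow_eq_one hP₂ hτ₂ hcopq hζpow
  have e3' : τ₁ ζ = ζ := inertia_apply_of_pow_eq_one hP₁ hτ₁ hcopq hζpow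
  have e4 : ζ ^ (ℓ ^ a) = ζ ^ (ℓ' ^ b) := by
    rw [← e2, hsb ζ hζK, AlgEquiv.mul_apply, AlgEquiv.mul_apply, e3, ← hsa ζ hζK, e1, map_pow, e3']
  have hmod : ℓ ^ a ≡ ℓ' ^ b [MOD p ^ m] := modEq_of_pow_eq_pow hζ hpm0 e4
  obtain ⟨k, hk⟩ : ∃ k : ℤ, (ℓ : ℤ) ^ a - (ℓ' : ℤ) ^ b = ((p ^ m : ℕ) : ℤ) * k := by
    have h := (Nat.modEq_iff_dvd.mp hmod.symm)
    obtain ⟨k, hk⟩ := h
    exact ⟨k, by push_cast at hk ⊢; linarith⟩
  -- the `p ^ m`-torsion subgroup of `J`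
  let U : AddSubgroup J :=
    { carrier := {x | p ^ m • x = 0}
      add_mem' := fun {x y} (hx : p ^ m • x = 0) (hy : p ^ m • y = 0) =>
        show p ^ m • (x + y) = 0 by rw [smul_add, hx, hy, add_zero]
      zero_mem' := smul_zero _
      neg_mem' := fun {x} (hx : p ^ m • x = 0) =>
        show p ^ m • (-x) = 0 by rw [smul_neg, hx, neg_zero] }
  have hUmem : ∀ x : J, x ∈ U ↔ p ^ m • x = 0 := fun x => Iff.rfl
  have hUstab : ∀ (σ : GQ) (x : J), x ∈ U → σ • x ∈ U := by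
    intro σ x hx
    rw [hUmem] at hx ⊢
    rw [smul_comm, hx, smul_zero]
  -- inertia at `q` acts trivially on `U`
  have hτU : ∀ x ∈ U, τ₂ • x = x := fun x hx => hUnr P₂ hP₂ τ₂ hτ₂ x ⟨m, hx⟩
  have hτU' : ∀ x ∈ U, τ₁ • x = x := fun x hx => hUnr P₁ hP₁ τ₁ hτ₁ x ⟨m, hx⟩
  -- `s ^ a` and `s' ^ b` act as `g` on `U`
  have hfixL : ∀ σ : GQ, (∀ x ∈ L ⊔ IntermediateField.adjoin ℚ ({ζ} : Set Qb), σ x = x) →
      ∀ x ∈ U, σ • x = x := fun σ hσ x hx => hL σ (fun y hy => hσ y (hLK y hy)) x hx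
  have hsaU : ∀ x ∈ U, s ^ a • x = g • x := by
    intro x hx
    have h1 : (g⁻¹ * s ^ a) • x = x := by
      refine hfixL _ (fun y hy => ?_) x hx
      rw [AlgEquiv.mul_apply, hsa y hy, ← AlgEquiv.mul_apply, inv_mul_cancel, AlgEquiv.one_apply]
    rw [mul_smul, inv_smul_eq_iff] at h1
    exact h1
  have hsbU : ∀ x ∈ U, s' ^ b • x = g • x := by
    intro x hx
    have h1 : ((τ₁ * g * τ₂)⁻¹ * s' ^ b) • x = x := by
      refine hfixL _ (fun y hy => ?_) x hx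
      rw [AlgEquiv.mul_apply, hsb y hy, ← AlgEquiv.mul_apply, inv_mul_cancel, AlgEquiv.one_apply]
    rw [mul_smul, inv_smul_eq_iff, mul_smul, mul_smul, hτU x hx, hτU' _ (hUstab g x hx)] at h1
    exact h1
  have hsaU' : ∀ x ∈ U, s⁻¹ ^ a • x = g⁻¹ • x := by
    intro x hx
    have h1 := hsaU (g⁻¹ • x) (hUstab _ x hx)
    rw [smul_inv_smul] at h1
    rw [inv_pow, inv_smul_eq_iff, h1]
  have hsbU' : ∀ x ∈ U, s'⁻¹ ^ b • x = g⁻¹ • x := by
    intro x hx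
    have h1 := hsbU (g⁻¹ • x) (hUstab _ x hx)
    rw [smul_inv_smul] at h1
    rw [inv_pow, inv_smul_eq_iff, h1]
  -- Dickson identities on `U`
  have hD : ∀ x ∈ U, Polynomial.aeval (TJ (⟨ℓ, hℓ⟩ : Nat.Primes))
      (Polynomial.dickson 1 ((ℓ : ℕ) : ℤ) a) x = g • x + ((ℓ : ℕ) : ℤ) ^ a • g⁻¹ • x := by
    intro x hx
    rw [dickson_apply s (TJ (⟨ℓ, hℓ⟩ : Nat.Primes)) ((ℓ : ℕ) : ℤ) U (fun y hy => hUstab s y hy)
      (fun y hy => hUstab s⁻¹ y hy) ?_ a x hx, hsaU x hx, hsaU' x hx]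
    intro y hy
    have := hFrob ℓ hℓ hℓN hℓS hℓB A hA s hs y ⟨m, hy⟩
    rw [natCast_zsmul]
    exact this
  have hD' : ∀ x ∈ U, Polynomial.aeval (TJ (⟨ℓ', hℓ'⟩ : Nat.Primes))
      (Polynomial.dickson 1 ((ℓ' : ℕ) : ℤ) b) x = g • x + ((ℓ' : ℕ) : ℤ) ^ b • g⁻¹ • x := by
    intro x hx
    rw [dickson_apply s' (TJ (⟨ℓ', hℓ'⟩ : Nat.Primes)) ((ℓ' : ℕ) : ℤ) U
      (fun y hy => hUstab s' y hy) (fun y hy => hUstab s'⁻¹ y hy) ?_ b x hx, hsbU x hx,
      hsbU' x hx]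
    intro y hy
    have := hFrob ℓ' hℓ' hℓ'N hℓ'S hℓ'B A' hA' s' hs' y ⟨m, hy⟩
    rw [natCast_zsmul]
    exact this
  have hdiff : ∀ x ∈ U, Polynomial.aeval (TJ (⟨ℓ, hℓ⟩ : Nat.Primes))
      (Polynomial.dickson 1 ((ℓ : ℕ) : ℤ) a) x
      = Polynomial.aeval (TJ (⟨ℓ', hℓ'⟩ : Nat.Primes)) (Polynomial.dickson 1 ((ℓ' : ℕ) : ℤ) b) x := by
    intro x hx
    rw [hD x hx, hD' x hx]
    have hx' : g⁻¹ • x ∈ U := hUstab _ x hx
    have h0 : (((ℓ : ℕ) : ℤ) ^ a - ((ℓ' : ℕ) : ℤ) ^ b) • g⁻¹ • x = 0 := by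
      rw [hk, mul_comm, mul_smul, natCast_zsmul, (hUmem _).mp hx', smul_zero]
    rw [sub_smul, sub_eq_zero] at h0
    rw [h0]
  -- transfer to the lattice
  set X : heckeAlgebra N 2 S :=
    (Polynomial.dickson 1 ((ℓ : ℕ) : heckeAlgebra N 2 S) a).eval (heckeAlgebra.T hℓ hℓN hℓS)
      - (Polynomial.dickson 1 ((ℓ' : ℕ) : heckeAlgebra N 2 S) b).eval
          (heckeAlgebra.T hℓ' hℓ'N hℓ'S) with hX
  have hΦX : Φ X = Polynomial.aeval (t (⟨ℓ, hℓ⟩ : Nat.Primes)) (Polynomial.dickson 1 ((ℓ : ℕ) : ℤ) a)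
      - Polynomial.aeval (t (⟨ℓ', hℓ'⟩ : Nat.Primes)) (Polynomial.dickson 1 ((ℓ' : ℕ) : ℤ) b) := by
    rw [hX, map_sub, map_dickson_eval, map_dickson_eval, hΦT, hΦT]
  have hlat : ∀ v : Λ, ∃ w : Λ, Φ X v = ((p ^ m : ℕ) : ℤ) • w := by
    intro v
    obtain ⟨y, hvy⟩ := hRtot v
    apply hRker
    have h1 := aeval_rel R hRadd hRneg hRzero (t (⟨ℓ, hℓ⟩ : Nat.Primes))
      (TJ (⟨ℓ, hℓ⟩ : Nat.Primes)) (fun v y h => hRt (⟨ℓ, hℓ⟩ : Nat.Primes) hℓN hℓS hℓB v y h)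
      (Polynomial.dickson 1 ((ℓ : ℕ) : ℤ) a) v y hvy
    have h2 := aeval_rel R hRadd hRneg hRzero (t (⟨ℓ', hℓ'⟩ : Nat.Primes))
      (TJ (⟨ℓ', hℓ'⟩ : Nat.Primes))
      (fun v y h => hRt (⟨ℓ', hℓ'⟩ : Nat.Primes) hℓ'N hℓ'S hℓ'B v y h)
      (Polynomial.dickson 1 ((ℓ' : ℕ) : ℤ) b) v y hvy
    have h3 := hRadd _ _ _ _ h1 (hRneg _ _ h2)
    rw [hdiff y (hRtors v y hvy), add_neg_cancel, ← sub_eq_add_neg] at h3
    rw [hΦX, LinearMap.sub_apply]
    exact h3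
  obtain ⟨y, hy⟩ := hsat X ((p ^ m : ℕ) : ℤ) hlat
  -- remove the `p`-part of the saturation index
  have hy2 : (c₁ : ℤ) • X = ((p ^ n : ℕ) : ℤ) • y := by
    have h3 : ((p ^ c : ℕ) : ℤ) • ((c₁ : ℤ) • X) = ((p ^ c : ℕ) : ℤ) • (((p ^ n : ℕ) : ℤ) • y) := by
      rw [smul_smul, smul_smul]
      have e5 : ((p ^ c : ℕ) : ℤ) * (c₁ : ℤ) = (c₀ : ℤ) := by rw [hc₀eq]; push_cast; ring
      have e6 : ((p ^ c : ℕ) : ℤ) * ((p ^ n : ℕ) : ℤ) = ((p ^ m : ℕ) : ℤ) := by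
        rw [hm]; push_cast; ring
      rw [e5, e6, hy]
    have hpc : ((p ^ c : ℕ) : ℤ) ≠ 0 := by exact_mod_cast (pow_pos hp.pos c).ne'
    exact zsmul_right_injective hpc h3
  -- Bezout
  have hcop : IsCoprime (c₁ : ℤ) ((p ^ n : ℕ) : ℤ) := by
    rw [Int.isCoprime_iff_gcd_eq_one, Int.gcd_natCast_natCast]
    exact Nat.Coprime.pow_right n ((Nat.Prime.coprime_iff_not_dvd hp).mpr hc₁).symm
  obtain ⟨u, v, huv⟩ := hcop
  refine ⟨u • y + v • X, ?_⟩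
  have h7 : X = ((p ^ n : ℕ) : ℤ) • (u • y + v • X) := by
    calc X = (u * (c₁ : ℤ) + v * ((p ^ n : ℕ) : ℤ)) • X := by rw [huv, one_smul]
      _ = u • ((c₁ : ℤ) • X) + ((p ^ n : ℕ) : ℤ) • (v • X) := by
          rw [add_smul, mul_smul, mul_comm v, mul_smul]
      _ = ((p ^ n : ℕ) : ℤ) • (u • y + v • X) := by
          rw [hy2, smul_add, smul_comm u]
  rw [zsmul_eq_mul] at h7
  push_cast at h7
  exact h7

/-- **The general reciprocity statement from operator-wise machine facts, map form**: the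
Kummer correspondence is given as an additive map `ι : Λ → J[p ^ m]`, `TJ`-equivariant, with
kernel inside `p ^ m Λ`. -/
theorem stmt_RecGen_of_opFacts {N : ℕ} [NeZero N] {S B : Set ℕ} {p q : ℕ}
    (hp : p.Prime) (hq : q.Prime) (hpS : p ∈ S) (hqS : q ∉ S)
    {J : Type*} [AddCommGroup J] [DistribMulAction GQ J]
    (TJ : Nat.Primes → Module.End ℤ J)
    (hUnr : ∀ P : ValuationSubring Qb, P.LiesOverPrime q → ∀ τ ∈ P.inertiaSubgroupIn ℚ,
      ∀ x : J, (∃ n : ℕ, p ^ n • x = 0) → τ • x = x)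
    (hFrob : ∀ (ℓ : ℕ) (hℓ : ℓ.Prime), ¬ ℓ ∣ N → ℓ ∉ S → ℓ ∉ B →
      ∀ A : ValuationSubring Qb, A.LiesOverPrime ℓ → ∀ σ : GQ, A.IsFrobeniusAt σ ℓ →
      ∀ x : J, (∃ n : ℕ, p ^ n • x = 0) →
        σ • σ • x - TJ (⟨ℓ, hℓ⟩ : Nat.Primes) (σ • x) + ℓ • x = 0)
    (hK1 : ∀ m : ℕ, ∃ L : IntermediateField ℚ Qb, FiniteDimensional ℚ L ∧
      ∀ σ : GQ, (∀ x ∈ L, σ x = x) → ∀ x : J, p ^ m • x = 0 → σ • x = x)
    {Λ : Type*} [AddCommGroup Λ] [Module.Finite ℤ Λ] [Module.Free ℤ Λ]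
    (t : Nat.Primes → Module.End ℤ Λ)
    (Φ : heckeAlgebra N 2 S →+* Module.End ℤ Λ) (hΦ : Function.Injective Φ)
    (hΦT : ∀ (ℓ : ℕ) (hℓ : ℓ.Prime) (hℓN : ¬ ℓ ∣ N) (hℓS : ℓ ∉ S),
      Φ (heckeAlgebra.T hℓ hℓN hℓS) = t (⟨ℓ, hℓ⟩ : Nat.Primes))
    (hK5 : ∀ m : ℕ, ∃ ι : Λ →+ J, (∀ v, p ^ m • ι v = 0) ∧
      (∀ ℓ : Nat.Primes, ¬ (ℓ : ℕ) ∣ N → (ℓ : ℕ) ∉ S → (ℓ : ℕ) ∉ B →
        ∀ v, ι (t ℓ v) = TJ ℓ (ι v)) ∧
      (∀ v, ι v = 0 → ∃ w, v = ((p ^ m : ℕ) : ℤ) • w)) :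
    Stmt_RecGen N S B p q := by
  refine stmt_RecGen_of_relFacts hp hq hpS hqS TJ hUnr hFrob hK1 t Φ hΦ hΦT (fun m => ?_)
  obtain ⟨ι, hιtors, hιt, hιker⟩ := hK5 m
  refine ⟨fun v y => ι v = y, fun v => ⟨ι v, rfl⟩, ?_, ?_, map_zero ι, ?_, ?_, hιker⟩
  · rintro v v' y y' rfl rfl
    exact map_add ι v v'
  · rintro v y rfl
    exact map_neg ι v
  · rintro v y rfl
    exact hιtors v
  · rintro ℓ hℓN hℓS hℓB v y rfl
    exact hιt ℓ hℓN hℓS hℓB v

/-- The general reciprocity statement for a `HeckeAlg`-module `J` (in the application: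
`JZero N` with `heckeModuleBar`), from the Prelude clauses `UnramifiedOutside` and
`FrobeniusQuadratic` (both consequences of the frozen S37 conclusion). -/
theorem stmt_RecGen_of_facts {N : ℕ} [NeZero N] {S : Set ℕ} {p q : ℕ}
    (hp : p.Prime) (hq : q.Prime) (hpS : p ∈ S) (hqS : q ∉ S) (hqN : ¬ q ∣ N)
    {J : Type*} [AddCommGroup J] [Module HeckeAlg J] [DistribMulAction GQ J]
    [SMulCommClass GQ HeckeAlg J]
    (hUnr : UnramifiedOutside (K := ℚ) (L := Qb) N p J)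
    (hFrob : FrobeniusQuadratic (K := ℚ) (L := Qb) N p J)
    (hK1 : ∀ m : ℕ, ∃ L : IntermediateField ℚ Qb, FiniteDimensional ℚ L ∧
      ∀ σ : GQ, (∀ x ∈ L, σ x = x) → ∀ x : J, p ^ m • x = 0 → σ • x = x)
    {Λ : Type*} [AddCommGroup Λ] [Module.Finite ℤ Λ] [Module.Free ℤ Λ]
    (t : Nat.Primes → Module.End ℤ Λ)
    (Φ : heckeAlgebra N 2 S →+* Module.End ℤ Λ) (hΦ : Function.Injective Φ)
    (hΦT : ∀ (ℓ : ℕ) (hℓ : ℓ.Prime) (hℓN : ¬ ℓ ∣ N) (hℓS : ℓ ∉ S),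
      Φ (heckeAlgebra.T hℓ hℓN hℓS) = t (⟨ℓ, hℓ⟩ : Nat.Primes))
    (hK5 : ∀ m : ℕ, ∃ ι : Λ →+ J, (∀ v, p ^ m • ι v = 0) ∧
      (∀ ℓ : Nat.Primes, ¬ (ℓ : ℕ) ∣ N → (ℓ : ℕ) ∉ S → ∀ v, ι (t ℓ v) = heckeGen ℓ • ι v) ∧
      (∀ v, ι v = 0 → ∃ w, v = ((p ^ m : ℕ) : ℤ) • w)) :
    Stmt_RecGen N S ∅ p q := by
  have hqp : q ≠ p := fun h => hqS (h ▸ hpS)
  have hqNp : ¬ q ∣ N * p := fun h => (hq.dvd_mul.mp h).elim hqN
    (fun h' => hqp ((Nat.prime_dvd_prime_iff_eq hq hp).mp h'))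
  refine stmt_RecGen_of_opFacts hp hq hpS hqS (heckeEndInt J)
    (fun P hP τ hτ x hx => hUnr q hq hqNp P hP τ hτ x hx) ?_ hK1 t Φ hΦ hΦT ?_
  · intro ℓ hℓ hℓN hℓS _ A hA σ hσ x hx
    have hℓp : ℓ ≠ p := fun h => hℓS (h ▸ hpS)
    have hℓNp : ¬ ℓ ∣ N * p := fun h => (hℓ.dvd_mul.mp h).elim hℓN
      (fun h' => hℓp ((Nat.prime_dvd_prime_iff_eq hℓ hp).mp h'))
    exact hFrob ℓ hℓ hℓNp A hA σ hσ x hx
  · intro m
    obtain ⟨ι, h1, h2, h3⟩ := hK5 m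
    exact ⟨ι, h1, fun ℓ hℓN hℓS _ v => h2 ℓ hℓN hℓS v, h3⟩

/-- **The reciprocity statement (`(g, τ)`-form) from the machine facts.** -/
theorem stmt_Rec_of_facts {N : ℕ} [NeZero N] {S : Set ℕ} {p q : ℕ}
    (hp : p.Prime) (hq : q.Prime) (hpS : p ∈ S) (hqS : q ∉ S) (hqN : ¬ q ∣ N)
    {J : Type*} [AddCommGroup J] [Module HeckeAlg J] [DistribMulAction GQ J]
    [SMulCommClass GQ HeckeAlg J]
    (hUnr : UnramifiedOutside (K := ℚ) (L := Qb) N p J)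
    (hFrob : FrobeniusQuadratic (K := ℚ) (L := Qb) N p J)
    (hK1 : ∀ m : ℕ, ∃ L : IntermediateField ℚ Qb, FiniteDimensional ℚ L ∧
      ∀ σ : GQ, (∀ x ∈ L, σ x = x) → ∀ x : J, p ^ m • x = 0 → σ • x = x)
    {Λ : Type*} [AddCommGroup Λ] [Module.Finite ℤ Λ] [Module.Free ℤ Λ]
    (t : Nat.Primes → Module.End ℤ Λ)
    (Φ : heckeAlgebra N 2 S →+* Module.End ℤ Λ) (hΦ : Function.Injective Φ)
    (hΦT : ∀ (ℓ : ℕ) (hℓ : ℓ.Prime) (hℓN : ¬ ℓ ∣ N) (hℓS : ℓ ∉ S),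
      Φ (heckeAlgebra.T hℓ hℓN hℓS) = t (⟨ℓ, hℓ⟩ : Nat.Primes))
    (hK5 : ∀ m : ℕ, ∃ ι : Λ →+ J, (∀ v, p ^ m • ι v = 0) ∧
      (∀ ℓ : Nat.Primes, ¬ (ℓ : ℕ) ∣ N → (ℓ : ℕ) ∉ S → ∀ v, ι (t ℓ v) = heckeGen ℓ • ι v) ∧
      (∀ v, ι v = 0 → ∃ w, v = ((p ^ m : ℕ) : ℤ) • w)) :
    Stmt_Rec N S p q :=
  (stmt_RecGen_of_facts hp hq hpS hqS hqN hUnr hFrob hK1 t Φ hΦ hΦT hK5).stmt_Rec

end Reciprocity

end Fermat.Agent.S31.helper5402
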