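import Mathlib
import Fermat.Prelude.Def_CuspForm_HeckeGaloisRepDatum
import Fermat.Agent.S53.helper3173_Burnside

set_option autoImplicit false

/-!
# S31 core (geometry-free ending of the route of findings #2283)

* `span_eq_top_of_residue` : matrix Nakayama (a set of matrices over a local ring whose residues
  span all matrices over the residue field spans all matrices).
* `eq_zero_of_trace_mul_eq_zero` : the trace-kernel lemma for `GaloisRepAdic`.
* `trace_pow_eq_dickson` : `tr (f ^ a) = D_a(t, d)` when `charpoly f = X ^ 2 - t X + d`.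
* `rho_eq_one_of_trace_congr` : adic ending.
* `isUnramifiedAt_of_congr`, `isUnramifiedAt_of_kill`, `isUnramifiedAt_of_latticeKill` :
  the frozen statement S31 from generator-Chebotarev and one Hecke-side congruence statement.
-/

namespace Fermat.Agent.S31.helper8024

open scoped TensorProduct
open Polynomial

section MatrixNakayama

variable {T : Type*} [CommRing T] [IsLocalRing T] {n : Type*} [Fintype n] [DecidableEq n]

omit [IsLocalRing T] in
/-- A matrix all of whose entries lie in an ideal `I` lies in `I • ⊤`. -/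
theorem mem_smul_top_of_entries {I : Ideal T} (M : Matrix n n T) (hM : ∀ i j, M i j ∈ I) :
    M ∈ I • (⊤ : Submodule T (Matrix n n T)) := by
  rw [Matrix.matrix_eq_sum_single M]
  refine Submodule.sum_mem _ fun i _ => Submodule.sum_mem _ fun j _ => ?_
  have : Matrix.single i j (M i j) = M i j • Matrix.single i j (1 : T) := by
    rw [Matrix.smul_single, smul_eq_mul, mul_one]
  rw [this]
  exact Submodule.smul_mem_smul (hM i j) Submodule.mem_top

/-- **Matrix Nakayama**: a set of matrices over a local ring whose residues span the matrix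
algebra over the residue field spans the matrix algebra. -/
theorem span_eq_top_of_residue (X : Set (Matrix n n T))
    (hX : Submodule.span (IsLocalRing.ResidueField T)
      ((fun M : Matrix n n T => M.map (IsLocalRing.residue T)) '' X) = ⊤) :
    Submodule.span T X = ⊤ := by
  rw [eq_top_iff]
  refine Submodule.le_of_le_smul_of_le_jacobson_bot (I := IsLocalRing.maximalIdeal T)
    (Module.Finite.fg_top) (IsLocalRing.maximalIdeal_le_jacobson ⊥) ?_
  intro M _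
  -- find `M₀` in the span with the same residue
  have key : ∀ y ∈ Submodule.span (IsLocalRing.ResidueField T)
      ((fun M : Matrix n n T => M.map (IsLocalRing.residue T)) '' X),
      ∃ M₀ ∈ Submodule.span T X, M₀.map (IsLocalRing.residue T) = y := by
    intro y hy
    induction hy using Submodule.span_induction with
    | mem y hy =>
      obtain ⟨x, hx, rfl⟩ := hy
      exact ⟨x, Submodule.subset_span hx, rfl⟩
    | zero => exact ⟨0, Submodule.zero_mem _, by ext i j; simp⟩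
    | add y z _ _ hy hz =>
      obtain ⟨M₁, hM₁, rfl⟩ := hy
      obtain ⟨M₂, hM₂, rfl⟩ := hz
      exact ⟨M₁ + M₂, Submodule.add_mem _ hM₁ hM₂, by ext i j; simp⟩
    | smul c y _ hy =>
      obtain ⟨M₁, hM₁, rfl⟩ := hy
      obtain ⟨c', rfl⟩ := IsLocalRing.residue_surjective c
      exact ⟨c' • M₁, Submodule.smul_mem _ _ hM₁, by ext i j; simp⟩
  obtain ⟨M₀, hM₀, hres⟩ := key (M.map (IsLocalRing.residue T)) (by rw [hX]; exact Submodule.mem_top)
  have hdiff : M - M₀ ∈ IsLocalRing.maximalIdeal T • (⊤ : Submodule T (Matrix n n T)) := by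
    refine mem_smul_top_of_entries _ fun i j => ?_
    rw [← IsLocalRing.residue_eq_zero_iff, Matrix.sub_apply, map_sub, sub_eq_zero]
    have := congrFun (congrFun hres i) j
    simpa using this.symm
  have : M = M₀ + (M - M₀) := by abel
  rw [this]
  exact Submodule.add_mem_sup hM₀ hdiff

omit [IsLocalRing T] in
/-- Trace-kernel lemma, matrix form. -/
theorem matrix_eq_zero_of_trace_mul (X : Set (Matrix n n T)) (hX : Submodule.span T X = ⊤)
    (Y : Matrix n n T) (hY : ∀ x ∈ X, (Y * x).trace = 0) : Y = 0 := by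
  rw [Matrix.ext_iff_trace_mul_right]
  intro x
  have hx : x ∈ Submodule.span T X := by rw [hX]; exact Submodule.mem_top
  rw [Matrix.zero_mul, Matrix.trace_zero]
  induction hx using Submodule.span_induction with
  | mem x hx => exact hY x hx
  | zero => simp
  | add x y _ _ hx hy => rw [Matrix.mul_add, Matrix.trace_add, hx, hy, add_zero]
  | smul c x _ hx => rw [Matrix.mul_smul, Matrix.trace_smul, hx, smul_zero]

end MatrixNakayama

section TraceKernel

variable {T : Type} [CommRing T] [IsLocalRing T]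

/-- **Trace-kernel lemma**: if the residual representation is absolutely irreducible, an
endomorphism `x` with `tr (x ∘ ρ σ) = 0` for all `σ` is zero. -/
theorem eq_zero_of_trace_mul_eq_zero (ρ : GaloisRepAdic T)
    (habs : ρ.residual.IsAbsolutelyIrreducible) (x : Module.End T ρ.V)
    (hx : ∀ σ, LinearMap.trace T ρ.V (x * ρ.ρ σ) = 0) : x = 0 := by
  classical
  let b : Module.Basis (Fin 2) T ρ.V := Module.finBasisOfFinrankEq T ρ.V ρ.finrank_eq
  let bk : Module.Basis (Fin 2) (IsLocalRing.ResidueField T)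
      (IsLocalRing.ResidueField T ⊗[T] ρ.V) :=
    Algebra.TensorProduct.basis (IsLocalRing.ResidueField T) b
  have h := Fermat.Agent.S53.helper3173.span_range_toMatrix_eq_top ρ.residual habs bk
  have hX : Submodule.span T (Set.range fun σ => LinearMap.toMatrix b b (ρ.ρ σ)) = ⊤ := by
    apply span_eq_top_of_residue
    have hset : (fun M : Matrix (Fin 2) (Fin 2) T => M.map (IsLocalRing.residue T)) ''
        (Set.range fun σ => LinearMap.toMatrix b b (ρ.ρ σ)) =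
        Set.range fun σ => LinearMap.toMatrix bk bk (ρ.residual.ρ σ) := by
      rw [← Set.range_comp]
      congr 1
      funext σ
      exact (LinearMap.toMatrix_baseChange (IsLocalRing.ResidueField T) (ρ.ρ σ) b b).symm
    rw [hset]
    exact h
  have hz : LinearMap.toMatrix b b x = 0 := by
    refine matrix_eq_zero_of_trace_mul _ hX _ ?_
    rintro _ ⟨σ, rfl⟩
    rw [← LinearMap.toMatrix_mul, ← LinearMap.trace_eq_matrix_trace]
    exact hx σ
  exact (LinearMap.toMatrix b b).injective (by rw [hz, map_zero])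

end TraceKernel

section Dickson

variable {T : Type*} [CommRing T] [Nontrivial T] {V : Type*} [AddCommGroup V] [Module T V]
  [Module.Free T V] [Module.Finite T V]

/-- The trace of an endomorphism of a free rank 2 module with characteristic polynomial
`X ^ 2 - t X + d` is `t`. -/
theorem trace_eq_of_charpoly (hV : Module.finrank T V = 2) (f : Module.End T V) (t d : T)
    (hf : f.charpoly = X ^ 2 - C t * X + C d) : LinearMap.trace T V f = t := by
  classical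
  let b : Module.Basis (Fin 2) T V := Module.finBasisOfFinrankEq T V hV
  rw [LinearMap.trace_eq_matrix_trace T b, Matrix.trace_eq_neg_charpoly_coeff,
    LinearMap.charpoly_toMatrix, hf]
  simp [coeff_C]

/-- `tr (f ^ a) = D_a(t, d)` (Dickson polynomial of the first kind) when
`charpoly f = X ^ 2 - t X + d`. -/
theorem trace_pow_eq_dickson (hV : Module.finrank T V = 2) (f : Module.End T V) (t d : T)
    (hf : f.charpoly = X ^ 2 - C t * X + C d) (a : ℕ) :
    LinearMap.trace T V (f ^ a) = (dickson 1 d a).eval t := by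
  have hCH : f ^ 2 = t • f - d • (1 : Module.End T V) := by
    have h := LinearMap.aeval_self_charpoly f
    rw [hf] at h
    simp only [map_sub, map_add, map_mul, map_pow, aeval_X, aeval_C] at h
    rw [Algebra.algebraMap_eq_smul_one, Algebra.algebraMap_eq_smul_one, smul_mul_assoc,
      one_mul] at h
    rw [← sub_eq_zero, ← h]
    abel
  induction a using Nat.twoStepInduction with
  | zero =>
    rw [pow_zero, LinearMap.trace_one, hV, dickson_zero]
    simp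
    norm_num
  | one =>
    rw [pow_one, dickson_one, eval_X]
    exact trace_eq_of_charpoly hV f t d hf
  | more a ih0 ih1 =>
    have hrec : f ^ (a + 2) = t • f ^ (a + 1) - d • f ^ a := by
      rw [pow_add, hCH, mul_sub, mul_smul_comm, mul_smul_comm, mul_one, ← pow_succ]
    rw [hrec, map_sub, map_smul, map_smul, ih0, ih1, dickson_add_two]
    simp [smul_eq_mul]

omit [Nontrivial T] in
/-- A ring hom commutes with evaluation of Dickson polynomials. -/
theorem map_eval_dickson {T' : Type*} [CommRing T'] (φ : T →+* T') (t d : T) (a : ℕ) :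
    φ ((dickson 1 d a).eval t) = (dickson 1 (φ d) a).eval (φ t) := by
  rw [← map_dickson, eval_map, eval₂_at_apply]

omit [Nontrivial T] in
/-- The trace of an endomorphism with image in `I • ⊤` lies in `I`. -/
theorem trace_mem_of_forall_mem_smul {I : Ideal T} (f : Module.End T V)
    (hf : ∀ v, f v ∈ I • (⊤ : Submodule T V)) : LinearMap.trace T V f ∈ I := by
  have h0 : f.baseChange (T ⧸ I) = 0 := by
    refine LinearMap.ext fun w => ?_
    induction w using TensorProduct.induction_on with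
    | zero => simp
    | tmul c v =>
      rw [LinearMap.baseChange_tmul, LinearMap.zero_apply]
      refine Submodule.smul_induction_on (p := fun x => c ⊗ₜ[T] x = (0 : (T ⧸ I) ⊗[T] V))
        (hf v) ?_ ?_
      · intro r hr w _
        rw [TensorProduct.tmul_smul, TensorProduct.smul_tmul', Algebra.smul_def,
          Ideal.Quotient.algebraMap_eq, Ideal.Quotient.eq_zero_iff_mem.mpr hr, zero_mul,
          TensorProduct.zero_tmul]
      · intro x y hx hy
        rw [TensorProduct.tmul_add, hx, hy, add_zero]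
    | add x y hx hy => rw [map_add, hx, hy, map_add]
  have h1 := LinearMap.trace_baseChange f (T ⧸ I)
  rw [h0, map_zero, Ideal.Quotient.algebraMap_eq] at h1
  exact Ideal.Quotient.eq_zero_iff_mem.mp h1.symm

end Dickson

section Adic

variable {T : Type} [CommRing T] [IsLocalRing T]

/-- If `g` and `h` agree on a field through which `ρ mod 𝔪 ^ n` factors, their traces are
congruent modulo `𝔪 ^ n`. -/
theorem trace_sub_trace_mem (ρ : GaloisRepAdic T) (n : ℕ)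
    (L : IntermediateField ℚ (AlgebraicClosure ℚ))
    (hL : ∀ σ : AlgebraicClosure ℚ ≃ₐ[ℚ] AlgebraicClosure ℚ, (∀ x ∈ L, σ x = x) →
      ∀ v : ρ.V, ρ.ρ σ v - v ∈ (IsLocalRing.maximalIdeal T ^ n) • (⊤ : Submodule T ρ.V))
    (g h : AlgebraicClosure ℚ ≃ₐ[ℚ] AlgebraicClosure ℚ) (hgh : ∀ x ∈ L, g x = h x) :
    LinearMap.trace T ρ.V (ρ.ρ g) - LinearMap.trace T ρ.V (ρ.ρ h) ∈
      IsLocalRing.maximalIdeal T ^ n := by
  rw [← map_sub]
  refine trace_mem_of_forall_mem_smul _ fun v => ?_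
  have hu : ∀ x ∈ L, (h⁻¹ * g) x = x := by
    intro x hx
    rw [AlgEquiv.mul_apply, hgh x hx, AlgEquiv.aut_inv, AlgEquiv.symm_apply_apply]
  have hg : g = h * (h⁻¹ * g) := by group
  have h1 := hL _ hu v
  have h2 : (ρ.ρ g - ρ.ρ h) v = ρ.ρ h (ρ.ρ (h⁻¹ * g) v - v) := by
    conv_lhs => rw [hg, map_mul]
    rw [LinearMap.sub_apply, Module.End.mul_apply, map_sub]
  rw [h2]
  refine Submodule.smul_induction_on
    (p := fun w => ρ.ρ h w ∈ (IsLocalRing.maximalIdeal T ^ n) • (⊤ : Submodule T ρ.V)) h1 ?_ ?_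
  · intro r hr w _
    rw [map_smul]
    exact Submodule.smul_mem_smul hr Submodule.mem_top
  · intro x y hx hy
    rw [map_add]
    exact Submodule.add_mem _ hx hy

variable [IsNoetherianRing T]

/-- **Adic ending**: if `tr ρ(τ g) ≡ tr ρ(g)` modulo every power of the maximal ideal, for all
`g`, and the residual representation is absolutely irreducible, then `ρ τ = 1`. -/
theorem rho_eq_one_of_trace_congr (ρ : GaloisRepAdic T)
    (habs : ρ.residual.IsAbsolutelyIrreducible)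
    (τ : AlgebraicClosure ℚ ≃ₐ[ℚ] AlgebraicClosure ℚ)
    (h : ∀ (n : ℕ) (g : AlgebraicClosure ℚ ≃ₐ[ℚ] AlgebraicClosure ℚ),
      LinearMap.trace T ρ.V (ρ.ρ (τ * g)) - LinearMap.trace T ρ.V (ρ.ρ g) ∈
        IsLocalRing.maximalIdeal T ^ n) : ρ.ρ τ = 1 := by
  have hkrull : ⨅ i : ℕ, IsLocalRing.maximalIdeal T ^ i = ⊥ :=
    Ideal.iInf_pow_eq_bot_of_isLocalRing _ (Ideal.IsMaximal.ne_top inferInstance)
  have h0 : ∀ g, LinearMap.trace T ρ.V ((ρ.ρ τ - 1) * ρ.ρ g) = 0 := by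
    intro g
    have hmem : LinearMap.trace T ρ.V (ρ.ρ (τ * g)) - LinearMap.trace T ρ.V (ρ.ρ g) ∈
        (⨅ i : ℕ, IsLocalRing.maximalIdeal T ^ i) := by
      rw [Ideal.mem_iInf]
      exact fun n => h n g
    rw [hkrull, Ideal.mem_bot] at hmem
    rw [sub_mul, one_mul, map_sub, ← map_mul]
    exact hmem
  have := eq_zero_of_trace_mul_eq_zero ρ habs (ρ.ρ τ - 1) h0
  exact sub_eq_zero.mp this

end Adic

section Main

/-- Generator-Chebotarev in the vocabulary of the prelude (shape of board row 717). -/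
def GenCheb : Prop :=
  ∀ (L : IntermediateField ℚ (AlgebraicClosure ℚ)), FiniteDimensional ℚ L →
    ∀ (S : Finset ℕ) (g : AlgebraicClosure ℚ ≃ₐ[ℚ] AlgebraicClosure ℚ),
      ∃ (ℓ : ℕ) (A : ValuationSubring (AlgebraicClosure ℚ))
        (σ : AlgebraicClosure ℚ ≃ₐ[ℚ] AlgebraicClosure ℚ) (n : ℕ),
        ℓ.Prime ∧ ℓ ∉ S ∧ A.LiesOverPrime ℓ ∧ A.IsFrobeniusAt σ ℓ ∧ ∀ x ∈ L, (σ ^ n) x = g x

variable {p : ℕ} {N : ℕ} [NeZero N] {S : Finset ℕ}

/-- The Dickson element `D_a(T_ℓ, ℓ)` of the Hecke algebra: it acts on a rank 2 Frobenius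
module as `Frob ^ a + ℓ ^ a Frob ^ (-a)`. -/
noncomputable def heckeDickson {ℓ : ℕ} (hℓ : ℓ.Prime) (hℓN : ¬ ℓ ∣ N) (hℓS : ℓ ∉ (↑S : Set ℕ))
    (a : ℕ) : CuspForm.heckeAlgebra N 2 (↑S : Set ℕ) :=
  (dickson 1 ((ℓ : ℕ) : CuspForm.heckeAlgebra N 2 (↑S : Set ℕ)) a).eval
    (CuspForm.heckeAlgebra.T hℓ hℓN hℓS)

variable (N S) in
/-- Quantifier block shared by the three Hecke-side statements: for all pairs of Frobenius lifts
`s` at `ℓ`, `s'` at `ℓ'` (good primes outside `S`) and exponents `a`, `b` with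
`s' ^ b = τ ∘ s ^ a` on `L`, the property `P` holds for `D_a(T_ℓ, ℓ) - D_b(T_ℓ', ℓ')`. -/
def ForallFrobPairs (τ : AlgebraicClosure ℚ ≃ₐ[ℚ] AlgebraicClosure ℚ)
    (L : IntermediateField ℚ (AlgebraicClosure ℚ))
    (P : CuspForm.heckeAlgebra N 2 (↑S : Set ℕ) → Prop) : Prop :=
  ∀ (ℓ ℓ' : ℕ) (hℓ : ℓ.Prime) (hℓ' : ℓ'.Prime) (hℓN : ¬ ℓ ∣ N) (hℓ'N : ¬ ℓ' ∣ N)
    (hℓS : ℓ ∉ (↑S : Set ℕ)) (hℓ'S : ℓ' ∉ (↑S : Set ℕ))
    (A A' : ValuationSubring (AlgebraicClosure ℚ))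
    (s s' : AlgebraicClosure ℚ ≃ₐ[ℚ] AlgebraicClosure ℚ) (a b : ℕ),
    A.LiesOverPrime ℓ → A'.LiesOverPrime ℓ' → A.IsFrobeniusAt s ℓ → A'.IsFrobeniusAt s' ℓ' →
    (∀ x ∈ L, (s' ^ b) x = τ ((s ^ a) x)) →
      P (heckeDickson hℓ hℓN hℓS a - heckeDickson hℓ' hℓ'N hℓ'S b)

variable {𝒪 : Type} [CommRing 𝒪] [IsDomain 𝒪] [IsDiscreteValuationRing 𝒪]
  [IsAdicComplete (IsLocalRing.maximalIdeal 𝒪) 𝒪]
  {θ : CuspForm.heckeAlgebra N 2 (↑S : Set ℕ) →+* IsLocalRing.ResidueField 𝒪}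
  {T : Type} [CommRing T] [IsLocalRing T] [IsNoetherianRing T]
  [IsAdicComplete (IsLocalRing.maximalIdeal T) T] [Algebra 𝒪 T] [IsLocalHom (algebraMap 𝒪 T)]
  [Module.Finite 𝒪 T] [Module.Free 𝒪 T]

/-- Hecke-side congruence, in `T`: for every `n` there is a finite level `L` such that
`π (D_a(T_ℓ, ℓ) - D_b(T_ℓ', ℓ')) ∈ 𝔪_T ^ n` for all Frobenius pairs as in `ForallFrobPairs`. -/
def HeckeCongr (H : CuspForm.HeckeGaloisRepDatum N (↑S : Set ℕ) 𝒪 θ T)
    (τ : AlgebraicClosure ℚ ≃ₐ[ℚ] AlgebraicClosure ℚ) : Prop :=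
  ∀ n : ℕ, ∃ L : IntermediateField ℚ (AlgebraicClosure ℚ), FiniteDimensional ℚ L ∧
    ForallFrobPairs N S τ L fun x => H.π x ∈ IsLocalRing.maximalIdeal T ^ n

variable (N S p) in
/-- Hecke-side congruence, in the Hecke algebra itself: a fixed nonzero multiple of
`D_a(T_ℓ, ℓ) - D_b(T_ℓ', ℓ')` is divisible by `p ^ m`. -/
def HeckeKill (τ : AlgebraicClosure ℚ ≃ₐ[ℚ] AlgebraicClosure ℚ) : Prop :=
  ∃ c₀ : ℤ, c₀ ≠ 0 ∧ ∀ m : ℕ, ∃ L : IntermediateField ℚ (AlgebraicClosure ℚ),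
    FiniteDimensional ℚ L ∧
    ForallFrobPairs N S τ L fun x =>
      ∃ r : CuspForm.heckeAlgebra N 2 (↑S : Set ℕ), c₀ • x = ((p : ℤ) ^ m) • r

variable (N S p) in
/-- Hecke-side congruence, on a lattice with a faithful Hecke action:
`D_a(T_ℓ, ℓ) - D_b(T_ℓ', ℓ')` maps `Λ` into `p ^ m Λ`. -/
def LatticeKill {Λ : Type*} [AddCommGroup Λ]
    (Φ : CuspForm.heckeAlgebra N 2 (↑S : Set ℕ) →+* Module.End ℤ Λ)
    (τ : AlgebraicClosure ℚ ≃ₐ[ℚ] AlgebraicClosure ℚ) : Prop :=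
  ∀ m : ℕ, ∃ L : IntermediateField ℚ (AlgebraicClosure ℚ), FiniteDimensional ℚ L ∧
    ForallFrobPairs N S τ L fun x => ∀ v : Λ, ∃ w : Λ, Φ x v = ((p : ℤ) ^ m) • w

/-- The trace of `ρ (s ^ a)` for a Frobenius lift `s` at a good prime `ℓ ∉ S`. -/
theorem trace_frob_pow (H : CuspForm.HeckeGaloisRepDatum N (↑S : Set ℕ) 𝒪 θ T)
    {ℓ : ℕ} (hℓ : ℓ.Prime) (hℓN : ¬ ℓ ∣ N) (hℓS : ℓ ∉ (↑S : Set ℕ))
    (A : ValuationSubring (AlgebraicClosure ℚ)) (hA : A.LiesOverPrime ℓ)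
    (s : AlgebraicClosure ℚ ≃ₐ[ℚ] AlgebraicClosure ℚ) (hs : A.IsFrobeniusAt s ℓ) (a : ℕ) :
    LinearMap.trace T H.ρ.V (H.ρ.ρ (s ^ a)) = H.π (heckeDickson hℓ hℓN hℓS a) := by
  rw [map_pow, trace_pow_eq_dickson H.ρ.finrank_eq _ _ _ (H.charpoly_frob ℓ hℓ hℓN hℓS A hA s hs),
    heckeDickson, map_eval_dickson, map_natCast]

/-- **S31 from generator-Chebotarev and the Hecke-side congruence in `T`.** -/
theorem isUnramifiedAt_of_congr (hCheb : GenCheb)
    (H : CuspForm.HeckeGaloisRepDatum N (↑S : Set ℕ) 𝒪 θ T) (q : ℕ)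
    (hK : ∀ P : ValuationSubring (AlgebraicClosure ℚ), P.LiesOverPrime q →
      ∀ τ ∈ P.inertiaSubgroupIn ℚ, HeckeCongr H τ) :
    H.ρ.IsUnramifiedAt q := by
  intro P hP τ hτ
  refine rho_eq_one_of_trace_congr H.ρ H.residual_absIrr τ fun n g => ?_
  obtain ⟨L₁, hL₁fin, hL₁⟩ := H.ρ.isAdicContinuous n
  obtain ⟨L₂, hL₂fin, hL₂⟩ := hK P hP τ hτ n
  have hLfin : FiniteDimensional ℚ (L₁ ⊔ L₂ : IntermediateField ℚ (AlgebraicClosure ℚ)) :=
    IntermediateField.finiteDimensional_sup L₁ L₂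
  have hN0 : N ≠ 0 := NeZero.ne N
  obtain ⟨ℓ, A, s, a, hℓ, hℓS', hA, hs, hsg⟩ := hCheb _ hLfin (S ∪ N.primeFactors) g
  obtain ⟨ℓ', A', s', b, hℓ', hℓ'S', hA', hs', hs'g⟩ :=
    hCheb _ hLfin (S ∪ N.primeFactors) (τ * g)
  rw [Finset.mem_union, not_or] at hℓS' hℓ'S'
  have hℓS : ℓ ∉ (↑S : Set ℕ) := fun h => hℓS'.1 (Finset.mem_coe.mp h)
  have hℓ'S : ℓ' ∉ (↑S : Set ℕ) := fun h => hℓ'S'.1 (Finset.mem_coe.mp h)
  have hℓN : ¬ ℓ ∣ N := fun h => hℓS'.2 (Nat.mem_primeFactors.mpr ⟨hℓ, h, hN0⟩)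
  have hℓ'N : ¬ ℓ' ∣ N := fun h => hℓ'S'.2 (Nat.mem_primeFactors.mpr ⟨hℓ', h, hN0⟩)
  have hle₁ : L₁ ≤ L₁ ⊔ L₂ := le_sup_left
  have hle₂ : L₂ ≤ L₁ ⊔ L₂ := le_sup_right
  have t1 := trace_sub_trace_mem H.ρ n L₁ hL₁ g (s ^ a) fun x hx => (hsg x (hle₁ hx)).symm
  have t2 := trace_sub_trace_mem H.ρ n L₁ hL₁ (τ * g) (s' ^ b)
    fun x hx => (hs'g x (hle₁ hx)).symm
  rw [trace_frob_pow H hℓ hℓN hℓS A hA s hs a] at t1
  rw [trace_frob_pow H hℓ' hℓ'N hℓ'S A' hA' s' hs' b] at t2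
  have t3 : H.π (heckeDickson hℓ hℓN hℓS a - heckeDickson hℓ' hℓ'N hℓ'S b) ∈
      IsLocalRing.maximalIdeal T ^ n :=
    hL₂ ℓ ℓ' hℓ hℓ' hℓN hℓ'N hℓS hℓ'S A A' s s' a b hA hA' hs hs' (fun x hx => by
      rw [hs'g x (hle₂ hx), AlgEquiv.mul_apply, hsg x (hle₂ hx)])
  rw [map_sub] at t3
  have := Ideal.sub_mem _ (Ideal.sub_mem _ t2 t1) t3
  convert this using 1
  ring

end Main

section Saturation

/-- **Saturation-index lemma**: a ring acting faithfully on a finite free `ℤ`-lattice `Λ` has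
finite index in its saturation inside `End Λ`: there is `c₀ ≠ 0` such that whenever `x` maps `Λ`
into `M Λ`, the element `c₀ x` is divisible by `M` in the ring. -/
theorem exists_saturation_index {R : Type*} [Ring R] {Λ : Type*} [AddCommGroup Λ]
    [Module.Free ℤ Λ] [Module.Finite ℤ Λ] (Φ : R →+* Module.End ℤ Λ)
    (hΦ : Function.Injective Φ) :
    ∃ c₀ : ℤ, c₀ ≠ 0 ∧ ∀ (x : R) (M : ℤ), (∀ v : Λ, ∃ w : Λ, Φ x v = M • w) →
      ∃ r : R, c₀ • x = M • r := by
  classical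
  let Sat : Submodule ℤ (Module.End ℤ Λ) :=
    { carrier := {e | ∃ k : ℤ, k ≠ 0 ∧ ∃ r : R, Φ r = k • e}
      add_mem' := by
        rintro e₁ e₂ ⟨k₁, hk₁, r₁, h₁⟩ ⟨k₂, hk₂, r₂, h₂⟩
        refine ⟨k₁ * k₂, mul_ne_zero hk₁ hk₂, k₂ • r₁ + k₁ • r₂, ?_⟩
        rw [map_add, map_zsmul, map_zsmul, h₁, h₂, smul_add, smul_smul, smul_smul,
          mul_comm k₂ k₁]
      zero_mem' := ⟨1, one_ne_zero, 0, by simp⟩
      smul_mem' := by
        rintro j e ⟨k, hk, r, h⟩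
        exact ⟨k, hk, j • r, by rw [map_zsmul, h, smul_comm]⟩ }
  have hfg : Sat.FG := IsNoetherian.noetherian Sat
  obtain ⟨s, hs⟩ := hfg
  have hk : ∀ e ∈ s, ∃ k : ℤ, k ≠ 0 ∧ ∃ r : R, Φ r = k • e := fun e he => by
    have : e ∈ Sat := hs ▸ Submodule.subset_span he
    exact this
  choose! k hk0 rr hrr using hk
  refine ⟨∏ e ∈ s, k e, Finset.prod_ne_zero_iff.mpr hk0, ?_⟩
  have hsat : ∀ e ∈ Sat, ∃ r : R, Φ r = (∏ e ∈ s, k e) • e := by
    intro e he
    rw [← hs] at he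
    induction he using Submodule.span_induction with
    | mem e he =>
      obtain ⟨d, hd⟩ := Finset.dvd_prod_of_mem k he
      exact ⟨d • rr e, by rw [map_zsmul, hrr e he, smul_smul, hd, mul_comm]⟩
    | zero => exact ⟨0, by simp⟩
    | add e₁ e₂ _ _ h₁ h₂ =>
      obtain ⟨r₁, h₁⟩ := h₁
      obtain ⟨r₂, h₂⟩ := h₂
      exact ⟨r₁ + r₂, by rw [map_add, h₁, h₂, smul_add]⟩
    | smul j e _ h =>
      obtain ⟨r, h⟩ := h
      exact ⟨j • r, by rw [map_zsmul, h, smul_comm]⟩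
  intro x M hx
  by_cases hM : M = 0
  · subst hM
    refine ⟨0, ?_⟩
    have h0 : Φ x = 0 := LinearMap.ext fun v => by
      obtain ⟨w, hw⟩ := hx v
      rw [hw, zero_smul, LinearMap.zero_apply]
    have hx0 : x = 0 := hΦ (by rw [h0, map_zero])
    rw [hx0, smul_zero, smul_zero]
  · let b := Module.Free.chooseBasis ℤ Λ
    choose w hw using fun i => hx (b i)
    let e : Module.End ℤ Λ := b.constr ℤ w
    have he : Φ x = M • e := b.ext fun i => by
      rw [hw i, LinearMap.smul_apply, Module.Basis.constr_basis]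
    obtain ⟨r, hr⟩ := hsat e ⟨M, hM, x, he⟩
    refine ⟨r, hΦ ?_⟩
    rw [map_zsmul, map_zsmul, he, hr, smul_comm]

end Saturation

section Descent

variable {p : ℕ} {N : ℕ} [NeZero N] {S : Finset ℕ}
  {𝒪 : Type} [CommRing 𝒪] [IsDomain 𝒪] [IsDiscreteValuationRing 𝒪]
  [IsAdicComplete (IsLocalRing.maximalIdeal 𝒪) 𝒪]
  {θ : CuspForm.heckeAlgebra N 2 (↑S : Set ℕ) →+* IsLocalRing.ResidueField 𝒪}
  {T : Type} [CommRing T] [IsLocalRing T] [IsNoetherianRing T]
  [IsAdicComplete (IsLocalRing.maximalIdeal T) T] [Algebra 𝒪 T] [IsLocalHom (algebraMap 𝒪 T)]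
  [Module.Finite 𝒪 T] [Module.Free 𝒪 T]

omit [IsDomain 𝒪] [IsDiscreteValuationRing 𝒪] [IsAdicComplete (IsLocalRing.maximalIdeal 𝒪) 𝒪]
  [IsNoetherianRing T] [IsAdicComplete (IsLocalRing.maximalIdeal T) T] [Module.Finite 𝒪 T]
  [Module.Free 𝒪 T] in
/-- `p` lies in the maximal ideal of `T` as soon as it lies in that of `𝒪`. -/
theorem natCast_mem_maximalIdeal [IsLocalRing 𝒪] (hp𝒪 : (p : 𝒪) ∈ IsLocalRing.maximalIdeal 𝒪) :
    (p : T) ∈ IsLocalRing.maximalIdeal T := by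
  rw [IsLocalRing.mem_maximalIdeal, mem_nonunits_iff] at hp𝒪 ⊢
  intro hu
  apply hp𝒪
  have : (p : T) = algebraMap 𝒪 T (p : 𝒪) := (map_natCast _ _).symm
  rw [this] at hu
  exact isUnit_of_map_unit (algebraMap 𝒪 T) _ hu

/-- Descent from the Hecke algebra to `T`: `c₀ x = p ^ m r` in the (torsion-free) Hecke algebra
gives `π x ∈ 𝔪_T ^ (m - v_p(c₀))`. -/
theorem heckeCongr_of_heckeKill (hp : p.Prime) (hpT : (p : T) ∈ IsLocalRing.maximalIdeal T)
    (H : CuspForm.HeckeGaloisRepDatum N (↑S : Set ℕ) 𝒪 θ T)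
    (τ : AlgebraicClosure ℚ ≃ₐ[ℚ] AlgebraicClosure ℚ) (hkill : HeckeKill p N S τ) :
    HeckeCongr H τ := by
  obtain ⟨c₀, hc₀, h⟩ := hkill
  have hfin : FiniteMultiplicity (p : ℤ) c₀ :=
    Int.finiteMultiplicity_iff.mpr ⟨by simpa using hp.ne_one, hc₀⟩
  obtain ⟨c₁, hc, hc₁⟩ := hfin.exists_eq_pow_mul_and_not_dvd
  set c := multiplicity (p : ℤ) c₀ with hcdef
  have hunit : IsUnit ((c₁ : ℤ) : T) := by
    have hcop : IsCoprime (p : ℤ) c₁ :=
      (Nat.prime_iff_prime_int.mp hp).irreducible.coprime_iff_not_dvd.mpr hc₁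
    obtain ⟨u, v, huv⟩ := hcop
    have hT : (u : T) * (p : T) + (v : T) * (c₁ : T) = 1 := by
      have := congrArg (Int.cast : ℤ → T) huv
      push_cast at this
      exact this
    have hmem : (u : T) * (p : T) ∈ IsLocalRing.maximalIdeal T := Ideal.mul_mem_left _ _ hpT
    have h1 : (v : T) * (c₁ : T) = 1 - (u : T) * (p : T) := by rw [← hT]; ring
    have h2 : IsUnit ((v : T) * (c₁ : T)) := by
      rw [h1]
      exact IsLocalRing.isUnit_one_sub_self_of_mem_nonunits _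
        ((IsLocalRing.mem_maximalIdeal _).mp hmem)
    exact isUnit_of_mul_isUnit_right h2
  intro n
  obtain ⟨L, hLfin, hL⟩ := h (n + c)
  refine ⟨L, hLfin, ?_⟩
  intro ℓ ℓ' hℓ hℓ' hℓN hℓ'N hℓS hℓ'S A A' s s' a b hA hA' hs hs' hss
  obtain ⟨r, hr⟩ := hL ℓ ℓ' hℓ hℓ' hℓN hℓ'N hℓS hℓ'S A A' s s' a b hA hA' hs hs' hss
  have hpc : ((p : ℤ) ^ c) ≠ 0 := pow_ne_zero _ (by exact_mod_cast hp.ne_zero)
  have h2 : c₁ • (heckeDickson hℓ hℓN hℓS a - heckeDickson hℓ' hℓ'N hℓ'S b) =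
      ((p : ℤ) ^ n) • r := by
    apply zsmul_right_injective hpc
    show (p : ℤ) ^ c • c₁ • (heckeDickson hℓ hℓN hℓS a - heckeDickson hℓ' hℓ'N hℓ'S b) =
      (p : ℤ) ^ c • (p : ℤ) ^ n • r
    rw [smul_smul, smul_smul, ← hc, hr, pow_add, mul_comm]
  have h3 := congrArg H.π h2
  rw [map_zsmul, map_zsmul, zsmul_eq_mul, zsmul_eq_mul] at h3
  have h4 : ((c₁ : ℤ) : T) * H.π (heckeDickson hℓ hℓN hℓS a - heckeDickson hℓ' hℓ'N hℓ'S b) ∈
      IsLocalRing.maximalIdeal T ^ n := by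
    rw [h3]
    push_cast
    exact Ideal.mul_mem_right _ _ (Ideal.pow_mem_pow hpT n)
  exact (Ideal.unit_mul_mem_iff_mem _ hunit).mp h4

/-- From the lattice form to the Hecke-algebra form, by the saturation-index lemma. -/
theorem heckeKill_of_latticeKill {Λ : Type*} [AddCommGroup Λ] [Module.Free ℤ Λ]
    [Module.Finite ℤ Λ] (Φ : CuspForm.heckeAlgebra N 2 (↑S : Set ℕ) →+* Module.End ℤ Λ)
    (hΦ : Function.Injective Φ) (τ : AlgebraicClosure ℚ ≃ₐ[ℚ] AlgebraicClosure ℚ)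
    (h : LatticeKill p N S Φ τ) : HeckeKill p N S τ := by
  obtain ⟨c₀, hc₀, hsat⟩ := exists_saturation_index Φ hΦ
  refine ⟨c₀, hc₀, fun m => ?_⟩
  obtain ⟨L, hLfin, hL⟩ := h m
  exact ⟨L, hLfin, fun ℓ ℓ' hℓ hℓ' hℓN hℓ'N hℓS hℓ'S A A' s s' a b hA hA' hs hs' hss =>
    hsat _ _ (hL ℓ ℓ' hℓ hℓ' hℓN hℓ'N hℓS hℓ'S A A' s s' a b hA hA' hs hs' hss)⟩

/-- **S31 from generator-Chebotarev and the Hecke-algebra form of the congruence.** -/
theorem isUnramifiedAt_of_kill (hp : p.Prime)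
    (hp𝒪 : (p : 𝒪) ∈ IsLocalRing.maximalIdeal 𝒪) (hCheb : GenCheb)
    (H : CuspForm.HeckeGaloisRepDatum N (↑S : Set ℕ) 𝒪 θ T) (q : ℕ)
    (hK : ∀ P : ValuationSubring (AlgebraicClosure ℚ), P.LiesOverPrime q →
      ∀ τ ∈ P.inertiaSubgroupIn ℚ, HeckeKill p N S τ) :
    H.ρ.IsUnramifiedAt q :=
  isUnramifiedAt_of_congr hCheb H q fun P hP τ hτ =>
    heckeCongr_of_heckeKill hp (natCast_mem_maximalIdeal hp𝒪) H τ (hK P hP τ hτ)

/-- **S31 from generator-Chebotarev and the lattice form of the congruence.** -/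
theorem isUnramifiedAt_of_latticeKill (hp : p.Prime)
    (hp𝒪 : (p : 𝒪) ∈ IsLocalRing.maximalIdeal 𝒪) (hCheb : GenCheb)
    (H : CuspForm.HeckeGaloisRepDatum N (↑S : Set ℕ) 𝒪 θ T) (q : ℕ)
    {Λ : Type*} [AddCommGroup Λ] [Module.Free ℤ Λ] [Module.Finite ℤ Λ]
    (Φ : CuspForm.heckeAlgebra N 2 (↑S : Set ℕ) →+* Module.End ℤ Λ)
    (hΦ : Function.Injective Φ)
    (hK : ∀ P : ValuationSubring (AlgebraicClosure ℚ), P.LiesOverPrime q →
      ∀ τ ∈ P.inertiaSubgroupIn ℚ, LatticeKill p N S Φ τ) :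
    H.ρ.IsUnramifiedAt q :=
  isUnramifiedAt_of_kill hp hp𝒪 hCheb H q fun P hP τ hτ =>
    heckeKill_of_latticeKill Φ hΦ τ (hK P hP τ hτ)

/-- Exact-form Chebotarev (a Frobenius lift equal to `g` on `L`) implies the generator form. -/
theorem genCheb_of_exact
    (h : ∀ (L : IntermediateField ℚ (AlgebraicClosure ℚ)), FiniteDimensional ℚ L →
      ∀ (S : Finset ℕ) (g : AlgebraicClosure ℚ ≃ₐ[ℚ] AlgebraicClosure ℚ),
        ∃ (ℓ : ℕ) (A : ValuationSubring (AlgebraicClosure ℚ))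
          (σ : AlgebraicClosure ℚ ≃ₐ[ℚ] AlgebraicClosure ℚ),
          ℓ.Prime ∧ ℓ ∉ S ∧ A.LiesOverPrime ℓ ∧ A.IsFrobeniusAt σ ℓ ∧ ∀ x ∈ L, σ x = g x) :
    GenCheb := by
  intro L hL S g
  obtain ⟨ℓ, A, σ, h1, h2, h3, h4, h5⟩ := h L hL S g
  exact ⟨ℓ, A, σ, 1, h1, h2, h3, h4, fun x hx => by rw [pow_one]; exact h5 x hx⟩

end Descent

end Fermat.Agent.S31.helper8024
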