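/-
S31-GLUE, abstract half (helper5307, captain S31).

`latticeKill_of_machine` : the lattice form `helper8024.LatticeKill` of the Hecke-side congruence
from OPERATOR-WISE machine facts on an abelian group `J` with `G_ℚ`-action (in the application:
`J = JZero N`, `T ℓ = heckeOperatorBar N ℓ`):

* (FL) every point of `J` is fixed by an open subgroup (pointwise finite level);
* (UN) inertia at primes `ℓ ∤ N p` fixes the `p`-power torsion of `J`;
* (FQ) `σ² - T_ℓ σ + ℓ = 0` on the `p`-power torsion for every Frobenius lift `σ` at `ℓ ∤ N p`;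
* (K5) for every `m` an additive map `ι : Λ → J[p^m]` with kernel inside `p^m Λ`, intertwining
  `Φ (T_ℓ)` with `T ℓ`.

No commutativity of the `T ℓ`, no `HeckeAlg`-module structure, no finiteness of `J[p^m]` and no
uniform level are needed: the argument runs on the subgroup of `p^m`-torsion points fixed by the
absolute Galois group of a finite NORMAL extension containing the levels of `ι` of a finite
generating set of `Λ` and a primitive `p^m`-th root of unity.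
-/
import Mathlib
import Fermat.Agent.S31.helper8024_Core
import Fermat.Agent.S31.helper5402_RecGen

set_option autoImplicit false

namespace Fermat.Agent.S31.helper5307

open CuspForm ModularCurve Polynomial

local notation "Qb" => AlgebraicClosure ℚ
local notation "GQ" => (AlgebraicClosure ℚ ≃ₐ[ℚ] AlgebraicClosure ℚ)

/-- `ℚ̄/ℚ` is normal (for the `Algebra ℚ ℚ̄` instance found by unification). -/
theorem normal_Qb : Normal ℚ Qb :=
  normal_iff.mpr fun x =>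
    ⟨((AlgebraicClosure.isAlgebraic ℚ).isAlgebraic x).isIntegral, IsAlgClosed.splits _⟩

/-- A finite family of points of finite level has a common finite NORMAL level. -/
theorem exists_normal_level {J : Type*} [AddCommGroup J] [DistribMulAction GQ J]
    (hFL : ∀ x : J, ∃ L : IntermediateField ℚ Qb, FiniteDimensional ℚ L ∧
      ∀ σ : GQ, (∀ y ∈ L, σ y = y) → σ • x = x)
    (s : Finset J) (K₀ : IntermediateField ℚ Qb) [FiniteDimensional ℚ K₀] :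
    ∃ L : IntermediateField ℚ Qb, FiniteDimensional ℚ L ∧ Normal ℚ L ∧ K₀ ≤ L ∧
      ∀ x ∈ s, ∀ σ : GQ, (∀ y ∈ L, σ y = y) → σ • x = x := by
  classical
  -- a common (not yet normal) level
  have h1 : ∃ L : IntermediateField ℚ Qb, FiniteDimensional ℚ L ∧ K₀ ≤ L ∧
      ∀ x ∈ s, ∀ σ : GQ, (∀ y ∈ L, σ y = y) → σ • x = x := by
    induction s using Finset.induction_on with
    | empty => exact ⟨K₀, inferInstance, le_rfl, fun x hx => absurd hx (Finset.notMem_empty x)⟩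
    | insert a s _ ih =>
      obtain ⟨L₁, hL₁, hK₁, h₁⟩ := ih
      obtain ⟨L₂, hL₂, h₂⟩ := hFL a
      refine ⟨L₁ ⊔ L₂, IntermediateField.finiteDimensional_sup L₁ L₂,
        hK₁.trans le_sup_left, fun x hx σ hσ => ?_⟩
      rcases Finset.mem_insert.mp hx with rfl | hx
      · exact h₂ σ fun y hy => hσ y ((le_sup_right : L₂ ≤ L₁ ⊔ L₂) hy)
      · exact h₁ x hx σ fun y hy => hσ y ((le_sup_left : L₁ ≤ L₁ ⊔ L₂) hy)
  obtain ⟨L, hL, hK, h⟩ := h1
  haveI := normal_Qb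
  refine ⟨IntermediateField.normalClosure ℚ L Qb,
    normalClosure.is_finiteDimensional ℚ L Qb,
    normalClosure.normal ℚ L Qb,
    hK.trans (IntermediateField.le_normalClosure L), fun x hx σ hσ => ?_⟩
  exact h x hx σ fun y hy => hσ y (IntermediateField.le_normalClosure L hy)

/-- Conjugates of an automorphism fixing a normal intermediate field pointwise fix it
pointwise. -/
theorem conj_fixes_of_normal (L : IntermediateField ℚ Qb) [Normal ℚ L] (g σ : GQ)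
    (hσ : ∀ y ∈ L, σ y = y) : ∀ y ∈ L, (g⁻¹ * σ * g) y = y := by
  intro y hy
  haveI := normal_Qb
  have hgy : g y ∈ L := by
    have h := (IntermediateField.normal_iff_forall_map_le'.mp (inferInstance : Normal ℚ L)) g
    exact h ⟨y, hy, rfl⟩
  rw [AlgEquiv.mul_apply, AlgEquiv.mul_apply, hσ _ hgy, ← AlgEquiv.mul_apply, inv_mul_cancel,
    AlgEquiv.one_apply]

/-- **The lattice form of the Hecke-side congruence from the operator-wise machine facts.**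
`J` is any abelian group with `G_ℚ`-action and additive operators `T ℓ` (in the application
`JZero N` with `heckeOperatorBar N ℓ`), `Λ` any finitely generated abelian group on which the
Hecke algebra acts through `Φ` (in the application the integral parabolic homs). -/
theorem latticeKill_of_machine {N : ℕ} [NeZero N] {S : Finset ℕ} {p q : ℕ}
    (hp : p.Prime) (hq : q.Prime) (hpS : p ∈ S) (hqS : q ∉ S) (hqN : ¬ q ∣ N)
    {J : Type*} [AddCommGroup J] [DistribMulAction GQ J]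
    (T : Nat.Primes → Module.End ℤ J)
    (hFL : ∀ x : J, ∃ L : IntermediateField ℚ Qb, FiniteDimensional ℚ L ∧
      ∀ σ : GQ, (∀ y ∈ L, σ y = y) → σ • x = x)
    (hUN : ∀ ℓ : ℕ, ℓ.Prime → ¬ ℓ ∣ N * p →
      ∀ A : ValuationSubring Qb, A.LiesOverPrime ℓ →
        ∀ σ ∈ A.inertiaSubgroupIn ℚ, ∀ x : J, (∃ k : ℕ, p ^ k • x = 0) → σ • x = x)
    (hFQ : ∀ ℓ : ℕ, (hℓ : ℓ.Prime) → ¬ ℓ ∣ N * p →
      ∀ A : ValuationSubring Qb, A.LiesOverPrime ℓ →
        ∀ σ : GQ, A.IsFrobeniusAt σ ℓ → ∀ x : J, (∃ k : ℕ, p ^ k • x = 0) →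
          σ • σ • x - T ⟨ℓ, hℓ⟩ (σ • x) + ℓ • x = 0)
    {Λ : Type*} [AddCommGroup Λ] [Module.Finite ℤ Λ]
    (Φ : heckeAlgebra N 2 (↑S : Set ℕ) →+* Module.End ℤ Λ)
    (hK5 : ∀ m : ℕ, ∃ ι : Λ →+ J, (∀ v, p ^ m • ι v = 0) ∧
      (∀ (ℓ : ℕ) (hℓ : ℓ.Prime) (hℓN : ¬ ℓ ∣ N) (hℓS : ℓ ∉ (↑S : Set ℕ)) (v : Λ),
        ι (Φ (heckeAlgebra.T hℓ hℓN hℓS) v) = T ⟨ℓ, hℓ⟩ (ι v)) ∧
      (∀ v, ι v = 0 → ∃ w, v = ((p : ℤ) ^ m) • w))
    (P : ValuationSubring Qb) (hP : P.LiesOverPrime q) (τ : GQ)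
    (hτ : τ ∈ P.inertiaSubgroupIn ℚ) :
    helper8024.LatticeKill p N S Φ τ := by
  classical
  intro m
  obtain ⟨ι, hιtors, hιT, hιker⟩ := hK5 m
  obtain ⟨gens, hgens⟩ := (Module.Finite.fg_top : (⊤ : Submodule ℤ Λ).FG)
  have : NeZero ((p : ℕ) : Qb) := ⟨Nat.cast_ne_zero.mpr hp.ne_zero⟩
  obtain ⟨ζ, hζ⟩ := HasEnoughRootsOfUnity.exists_primitiveRoot Qb (p ^ m)
  have hpm0 : 0 < p ^ m := pow_pos hp.pos m
  haveI : FiniteDimensional ℚ (IntermediateField.adjoin ℚ ({ζ} : Set Qb)) :=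
    IntermediateField.adjoin.finiteDimensional ((hζ.isIntegral hpm0).tower_top (R := ℤ))
  obtain ⟨L, hLfin, hLnorm, hζL', hLfix⟩ :=
    exists_normal_level hFL (gens.image ι) (IntermediateField.adjoin ℚ ({ζ} : Set Qb))
  haveI := hLnorm
  have hζL : ζ ∈ L := hζL' (IntermediateField.mem_adjoin_simple_self ℚ ζ)
  refine ⟨L, hLfin, ?_⟩
  intro ℓ ℓ' hℓ hℓ' hℓN hℓ'N hℓS hℓ'S A A' s s' a b hA hA' hs hs' hss
  have hpS' : p ∈ (↑S : Set ℕ) := Finset.mem_coe.mpr hpS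
  have hℓp : ℓ ≠ p := fun h => hℓS (h ▸ hpS')
  have hℓ'p : ℓ' ≠ p := fun h => hℓ'S (h ▸ hpS')
  have hqp : q ≠ p := fun h => hqS (h ▸ hpS)
  have hζpow : ζ ^ (p ^ m) = 1 := hζ.pow_eq_one
  have hcopℓ : Nat.Coprime ℓ (p ^ m) :=
    Nat.Coprime.pow_right m ((Nat.coprime_primes hℓ hp).mpr hℓp)
  have hcopℓ' : Nat.Coprime ℓ' (p ^ m) :=
    Nat.Coprime.pow_right m ((Nat.coprime_primes hℓ' hp).mpr hℓ'p)
  have hcopq : Nat.Coprime q (p ^ m) :=
    Nat.Coprime.pow_right m ((Nat.coprime_primes hq hp).mpr hqp)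
  have hℓNp : ¬ ℓ ∣ N * p := fun h => (hℓ.dvd_mul.mp h).elim hℓN
    (fun h' => hℓp ((Nat.prime_dvd_prime_iff_eq hℓ hp).mp h'))
  have hℓ'Np : ¬ ℓ' ∣ N * p := fun h => (hℓ'.dvd_mul.mp h).elim hℓ'N
    (fun h' => hℓ'p ((Nat.prime_dvd_prime_iff_eq hℓ' hp).mp h'))
  have hqNp : ¬ q ∣ N * p := fun h => (hq.dvd_mul.mp h).elim hqN
    (fun h' => hqp ((Nat.prime_dvd_prime_iff_eq hq hp).mp h'))
  -- the cyclotomic congruence `ℓ ^ a ≡ ℓ' ^ b mod p ^ m`
  have e1 : (s ^ a) ζ = ζ ^ (ℓ ^ a) :=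
    helper5402.frob_pow_apply_of_pow_eq_one hA hs hcopℓ hζpow a
  have e2 : (s' ^ b) ζ = ζ ^ (ℓ' ^ b) :=
    helper5402.frob_pow_apply_of_pow_eq_one hA' hs' hcopℓ' hζpow b
  have e3 : τ (ζ ^ (ℓ ^ a)) = ζ ^ (ℓ ^ a) :=
    helper5402.inertia_apply_of_pow_eq_one hP hτ hcopq
      (by rw [← pow_mul, mul_comm, pow_mul, hζpow, one_pow])
  have e4 : ζ ^ (ℓ ^ a) = ζ ^ (ℓ' ^ b) := by rw [← e2, hss ζ hζL, e1, e3]
  have hmod : ℓ ^ a ≡ ℓ' ^ b [MOD p ^ m] := helper5402.modEq_of_pow_eq_pow hζ hpm0 e4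
  obtain ⟨k, hk⟩ : ∃ k : ℤ, (ℓ : ℤ) ^ a - (ℓ' : ℤ) ^ b = ((p ^ m : ℕ) : ℤ) * k := by
    obtain ⟨k, hk⟩ := Nat.modEq_iff_dvd.mp hmod.symm
    exact ⟨k, by push_cast at hk ⊢; linarith⟩
  -- the subgroup of `p ^ m`-torsion points of level `L`
  let U : AddSubgroup J :=
    { carrier := {x | p ^ m • x = 0 ∧ ∀ σ : GQ, (∀ y ∈ L, σ y = y) → σ • x = x}
      add_mem' := fun {x y} hx hy =>
        ⟨by rw [smul_add, hx.1, hy.1, add_zero],
          fun σ hσ => by rw [smul_add, hx.2 σ hσ, hy.2 σ hσ]⟩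
      zero_mem' := ⟨smul_zero _, fun σ _ => smul_zero σ⟩
      neg_mem' := fun {x} hx =>
        ⟨by rw [smul_neg, hx.1, neg_zero], fun σ hσ => by rw [smul_neg, hx.2 σ hσ]⟩ }
  have hUmem : ∀ x : J, x ∈ U ↔
      (p ^ m • x = 0 ∧ ∀ σ : GQ, (∀ y ∈ L, σ y = y) → σ • x = x) := fun x => Iff.rfl
  have hUstab : ∀ (g : GQ) (x : J), x ∈ U → g • x ∈ U := by
    intro g x hx
    obtain ⟨hx1, hx2⟩ := (hUmem x).mp hx
    refine (hUmem _).mpr ⟨by rw [smul_comm, hx1, smul_zero], fun σ hσ => ?_⟩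
    have h1 := hx2 (g⁻¹ * σ * g) (conj_fixes_of_normal L g σ hσ)
    rw [mul_smul, mul_smul, inv_smul_eq_iff] at h1
    exact h1
  have hιU : ∀ v : Λ, ι v ∈ U := by
    intro v
    have hv : v ∈ Submodule.span ℤ (gens : Set Λ) := by rw [hgens]; exact Submodule.mem_top
    induction hv using Submodule.span_induction with
    | mem v hv =>
      exact (hUmem _).mpr ⟨hιtors v, hLfix (ι v) (Finset.mem_image_of_mem ι hv)⟩
    | zero => rw [map_zero]; exact U.zero_mem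
    | add v w _ _ hv hw => rw [map_add]; exact U.add_mem hv hw
    | smul c v _ hv => rw [map_zsmul]; exact U.zsmul_mem hv c
  -- `τ` acts trivially on `U`
  have hτU : ∀ x ∈ U, τ • x = x := fun x hx =>
    hUN q hq hqNp P hP τ hτ x ⟨m, ((hUmem x).mp hx).1⟩
  -- `s' ^ b` and `s ^ a` agree on `U`
  have hpow : ∀ x ∈ U, s' ^ b • x = s ^ a • x := by
    intro x hx
    have h1 : ((s ^ a)⁻¹ * τ⁻¹ * s' ^ b) • x = x := by
      refine ((hUmem x).mp hx).2 _ (fun y hy => ?_)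
      rw [AlgEquiv.mul_apply, AlgEquiv.mul_apply, hss y hy, ← AlgEquiv.mul_apply τ⁻¹ τ,
        inv_mul_cancel, AlgEquiv.one_apply, ← AlgEquiv.mul_apply, inv_mul_cancel,
        AlgEquiv.one_apply]
    rw [mul_smul, mul_smul, inv_smul_eq_iff, inv_smul_eq_iff] at h1
    rw [h1, hτU _ (hUstab _ x hx)]
  have hinvpow : ∀ x ∈ U, (s'⁻¹) ^ b • x = (s⁻¹) ^ a • x := by
    intro x hx
    rw [inv_pow, inv_pow, inv_smul_eq_iff, hpow _ (hUstab _ x hx), smul_inv_smul]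
  -- Dickson identities on `U`
  have hD : ∀ x ∈ U, aeval (T ⟨ℓ, hℓ⟩) (dickson 1 ((ℓ : ℕ) : ℤ) a) x
      = s ^ a • x + ((ℓ : ℕ) : ℤ) ^ a • (s⁻¹) ^ a • x := by
    intro x hx
    refine helper5402.dickson_apply s (T ⟨ℓ, hℓ⟩) ((ℓ : ℕ) : ℤ) U (fun y hy => hUstab s y hy)
      (fun y hy => hUstab s⁻¹ y hy) ?_ a x hx
    intro y hy
    have := hFQ ℓ hℓ hℓNp A hA s hs y ⟨m, ((hUmem y).mp hy).1⟩
    rw [natCast_zsmul]
    exact this
  have hD' : ∀ x ∈ U, aeval (T ⟨ℓ', hℓ'⟩) (dickson 1 ((ℓ' : ℕ) : ℤ) b) x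
      = s' ^ b • x + ((ℓ' : ℕ) : ℤ) ^ b • (s'⁻¹) ^ b • x := by
    intro x hx
    refine helper5402.dickson_apply s' (T ⟨ℓ', hℓ'⟩) ((ℓ' : ℕ) : ℤ) U
      (fun y hy => hUstab s' y hy) (fun y hy => hUstab s'⁻¹ y hy) ?_ b x hx
    intro y hy
    have := hFQ ℓ' hℓ' hℓ'Np A' hA' s' hs' y ⟨m, ((hUmem y).mp hy).1⟩
    rw [natCast_zsmul]
    exact this
  have hdiff : ∀ x ∈ U, aeval (T ⟨ℓ, hℓ⟩) (dickson 1 ((ℓ : ℕ) : ℤ) a) x
      = aeval (T ⟨ℓ', hℓ'⟩) (dickson 1 ((ℓ' : ℕ) : ℤ) b) x := by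
    intro x hx
    rw [hD x hx, hD' x hx, hpow x hx, hinvpow x hx]
    have hx' : (s⁻¹) ^ a • x ∈ U := by rw [inv_pow]; exact hUstab _ x hx
    have h0 : (((ℓ : ℕ) : ℤ) ^ a - ((ℓ' : ℕ) : ℤ) ^ b) • (s⁻¹) ^ a • x = 0 := by
      rw [hk, mul_comm, mul_smul, natCast_zsmul, ((hUmem _).mp hx').1, smul_zero]
    rw [sub_smul, sub_eq_zero] at h0
    rw [h0]
  -- transfer to the lattice
  intro v
  apply hιker
  have hΦX : Φ (helper8024.heckeDickson hℓ hℓN hℓS a - helper8024.heckeDickson hℓ' hℓ'N hℓ'S b)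
      = aeval (Φ (heckeAlgebra.T hℓ hℓN hℓS)) (dickson 1 ((ℓ : ℕ) : ℤ) a)
        - aeval (Φ (heckeAlgebra.T hℓ' hℓ'N hℓ'S)) (dickson 1 ((ℓ' : ℕ) : ℤ) b) := by
    rw [map_sub]
    unfold helper8024.heckeDickson
    rw [helper5402.map_dickson_eval, helper5402.map_dickson_eval]
  rw [hΦX, LinearMap.sub_apply, map_sub,
    helper5402.aeval_intertwine ι _ (T ⟨ℓ, hℓ⟩) (fun v => hιT ℓ hℓ hℓN hℓS v),
    helper5402.aeval_intertwine ι _ (T ⟨ℓ', hℓ'⟩) (fun v => hιT ℓ' hℓ' hℓ'N hℓ'S v),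
    hdiff (ι v) (hιU v), sub_self]

end Fermat.Agent.S31.helper5307
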