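/-
helper6356 — S31, leaf K6 (route #2283): the Hecke algebra acts faithfully on the lattice of
integral parabolic homomorphisms.

`Lam N := parabolicHoms ℤ (Gamma0 N) ℤ` (integral parabolic homs `Γ₀(N) → ℤ`).

* `latT N l hlN`, `latU N q hqN : Module.End ℤ (Lam N)` : restrictions of the landed coset-transfer
  operators `heckeHomT`, `heckeHomU` (S16/helper2138_HeckeHom) to the lattice.
* `heckeLatticeHom N S : heckeAlgebra N 2 S →+* Module.End ℤ (Lam N)` : the action of the Hecke
  algebra transported through the Eichler–Shimura isomorphism (landed S21).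
* `heckeLatticeHom_injective`, `heckeLatticeHom_T`, `heckeLatticeHom_U`.
* `Lam N` is a finitely generated free `ℤ`-module.

Everything is proved from landed material: S21 (`periodHomPair` is an isomorphism onto the
complex parabolic homs), S16 (`periodMap_heckeT/U`, commutation with the involution) and
finite generation of `Γ₀(N)`.
-/
import Fermat.Agent.S21
import Fermat.Agent.S16.helper2138_PeriodEquiv
import Fermat.Agent.S21.helper2438_ParabolicFinite
import Fermat.Prelude.Def_CuspForm_HeckeAlgebra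

set_option autoImplicit false

open CongruenceSubgroup ModularCurve ModularCurve.Period
open scoped MatrixGroups

namespace Fermat.Agent.S31.helper6356

open Fermat.Agent.S16.helper2138

noncomputable section

/-! ### Part A: the integral structure on parabolic homs (any subgroup `Γ`) -/

section General

variable {Γ : Subgroup SL(2, ℤ)}

/-- Extension of coefficients `ℤ → ℂ` on additive characters. -/
def toC (Γ : Subgroup SL(2, ℤ)) : (Additive Γ →+ ℤ) →+ (Additive Γ →+ ℂ) where
  toFun ψ := (Int.castAddHom ℂ).comp ψ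
  map_zero' := AddMonoidHom.ext fun _ => by simp
  map_add' a b := AddMonoidHom.ext fun _ => by simp

@[simp] theorem toC_apply (ψ : Additive Γ →+ ℤ) (γ : Additive Γ) :
    toC Γ ψ γ = ((ψ γ : ℤ) : ℂ) := rfl

theorem toC_injective : Function.Injective (toC Γ) := by
  intro a b h
  refine AddMonoidHom.ext fun γ => ?_
  have := DFunLike.congr_fun h γ
  simpa using this

theorem toC_mem_parabolicHoms_iff {ψ : Additive Γ →+ ℤ} :
    toC Γ ψ ∈ parabolicHoms ℂ Γ ℂ ↔ ψ ∈ parabolicHoms ℤ Γ ℤ := by
  rw [mem_parabolicHoms_iff, mem_parabolicHoms_iff]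
  constructor
  · intro h γ hγ
    have := h γ hγ
    rw [toC_apply] at this
    exact_mod_cast this
  · intro h γ hγ
    rw [toC_apply, h γ hγ]
    simp

/-- Every complex parabolic hom of a finitely generated group is a finite complex combination
of integral parabolic homs. -/
theorem exists_int_decomposition [Group.FG Γ] {φ : Additive Γ →+ ℂ}
    (hφ : φ ∈ parabolicHoms ℂ Γ ℂ) :
    ∃ (ι : Type) (_ : Fintype ι) (c : ι → ℂ) (ψ : ι → Additive Γ →+ ℤ),
      (∀ i, ψ i ∈ parabolicHoms ℤ Γ ℤ) ∧ φ = ∑ i, c i • toC Γ (ψ i) := by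
  classical
  have : AddGroup.FG φ.range := inferInstance
  have : Module.Finite ℤ φ.range := Module.Finite.iff_addGroup_fg.mpr inferInstance
  have : Module.Free ℤ φ.range := inferInstance
  let b := Module.Free.chooseBasis ℤ φ.range
  refine ⟨Module.Free.ChooseBasisIndex ℤ φ.range, inferInstance, fun i => ((b i : φ.range) : ℂ),
    fun i => (b.coord i).toAddMonoidHom.comp φ.rangeRestrict, ?_, ?_⟩
  · intro i
    rw [mem_parabolicHoms_iff]
    intro γ hγ
    have h0 : φ (Additive.ofMul γ) = 0 := hφ γ hγ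
    have h1 : φ.rangeRestrict (Additive.ofMul γ) = 0 := Subtype.ext h0
    show b.coord i (φ.rangeRestrict (Additive.ofMul γ)) = 0
    rw [h1, map_zero]
  · refine AddMonoidHom.ext fun γ => ?_
    have h := b.sum_repr (φ.rangeRestrict γ)
    have h2 : ((∑ i, b.repr (φ.rangeRestrict γ) i • b i : φ.range) : ℂ) = φ γ := by
      rw [h]; rfl
    rw [← h2]
    simp only [AddSubgroup.val_finsetSum, AddMonoidHom.finsetSum_apply, AddMonoidHom.smul_apply,
      toC_apply, smul_eq_mul, AddSubgroup.coe_zsmul, zsmul_eq_mul]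
    refine Finset.sum_congr rfl fun i _ => ?_
    rw [mul_comm]
    rfl

/-- Integral characters of a finitely generated group form a finitely generated `ℤ`-module. -/
theorem finite_int_addHom (G : Type*) [Group G] [Group.FG G] :
    Module.Finite ℤ (Additive G →+ ℤ) := by
  classical
  obtain ⟨S, hS⟩ := Group.fg_def.mp (inferInstance : Group.FG G)
  let ev : (Additive G →+ ℤ) →ₗ[ℤ] ({x // x ∈ S} → ℤ) :=
    { toFun := fun φ s => φ (Additive.ofMul (s : G))
      map_add' := fun _ _ => rfl
      map_smul' := fun _ _ => rfl }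
  have hinj : Function.Injective ev := by
    intro φ ψ h
    refine AddMonoidHom.ext fun g => ?_
    have hg : Additive.toMul g ∈ Subgroup.closure (S : Set G) := by rw [hS]; trivial
    have key : ∀ x ∈ Subgroup.closure (S : Set G),
        φ (Additive.ofMul x) = ψ (Additive.ofMul x) := by
      intro x hx
      induction hx using Subgroup.closure_induction with
      | mem x hx => exact congrFun h ⟨x, Finset.mem_coe.mp hx⟩
      | one => rw [ofMul_one, map_zero, map_zero]
      | mul x y _ _ hx hy => rw [ofMul_mul, map_add, map_add, hx, hy]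
      | inv x _ hx => rw [ofMul_inv, map_neg, map_neg, hx]
    exact key _ hg
  exact Module.Finite.of_injective ev hinj

end General

/-! ### Part B: the Eichler–Shimura isomorphism and transport of endomorphisms -/

section Period

variable (N : ℕ) [NeZero N]

/-- The cusp forms of weight 2 on `Γ₀(N)`. -/
abbrev S2 : Type := CuspForm (Gamma0 N) 2

/-- The lattice of integral parabolic homs `Γ₀(N) → ℤ`. -/
abbrev Lam : Type := ↥(parabolicHoms ℤ (Gamma0 N) ℤ)

/-- The complex parabolic homs `Γ₀(N) → ℂ`. -/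
abbrev Wpar : Type := ↥(parabolicHoms ℂ (Gamma0 N) ℂ)

theorem existsPML : ExistsPeriodMapLinear N :=
  Fermat.Agent.S21.helper921.existsPeriodMapLinear_of_A (Fermat.Agent.S21.helper21.stmtA N)

theorem periodHomPair_apply' (v : S2 N × S2 N) :
    periodHomPair N v = (periodMap N v.1 + charInvolution N ℂ ℂ (periodMap N v.1))
        + (periodMap N v.2 - charInvolution N ℂ ℂ (periodMap N v.2)) := by
  obtain ⟨pml, hpml, hdef⟩ := periodHomPair_def N (existsPML N)
  rw [hdef]
  simp [LinearMap.coprod_apply, hpml]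

/-- Equivariance of `periodHomPair` for an operator on forms and an operator on characters that
correspond under the period map and commute with the involution. -/
theorem periodHomPair_equivariant (t : Module.End ℂ (S2 N))
    (τ : (Additive (Gamma0 N) →+ ℂ) →ₗ[ℂ] (Additive (Gamma0 N) →+ ℂ))
    (hP : ∀ f, periodMap N (t f) = τ (periodMap N f))
    (hι : ∀ φ, τ (charInvolution N ℂ ℂ φ) = charInvolution N ℂ ℂ (τ φ))
    (v : S2 N × S2 N) : periodHomPair N (t v.1, t v.2) = τ (periodHomPair N v) := by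
  rw [periodHomPair_apply', periodHomPair_apply']
  simp only [map_add, map_sub, hP, hι]

/-- The Eichler–Shimura isomorphism (landed S21) as a linear equivalence. -/
def esEquiv : (S2 N × S2 N) ≃ₗ[ℂ] Wpar N :=
  (LinearEquiv.ofInjective (periodHomPair N) (Fermat.Agent.S21.result N).1).trans
    (LinearEquiv.ofEq _ _ (Fermat.Agent.S21.result N).2)

@[simp] theorem coe_esEquiv (v : S2 N × S2 N) :
    ((esEquiv N v : Wpar N) : Additive (Gamma0 N) →+ ℂ) = periodHomPair N v := rfl

/-- Transport of an endomorphism of `S₂` (acting diagonally on `S₂ × S₂`) to the complex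
parabolic homs. -/
def conjEnd : Module.End ℂ (S2 N) →+* Module.End ℂ (Wpar N) :=
  ((esEquiv N).conjRingEquiv : Module.End ℂ (S2 N × S2 N) ≃+* Module.End ℂ (Wpar N)).toRingHom.comp
    ((LinearMap.prodMapRingHom ℂ (S2 N) (S2 N)).comp
      (RingHom.prod (RingHom.id _) (RingHom.id _)))

theorem conjEnd_apply (t : Module.End ℂ (S2 N)) (w : Wpar N) :
    conjEnd N t w = esEquiv N (t ((esEquiv N).symm w).1, t ((esEquiv N).symm w).2) := rfl

theorem conjEnd_esEquiv (t : Module.End ℂ (S2 N)) (v : S2 N × S2 N) :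
    conjEnd N t (esEquiv N v) = esEquiv N (t v.1, t v.2) := by
  rw [conjEnd_apply, LinearEquiv.symm_apply_apply]

theorem conjEnd_injective : Function.Injective (conjEnd N) := by
  intro s t h
  refine LinearMap.ext fun f => ?_
  have h1 := LinearMap.congr_fun h (esEquiv N (f, 0))
  rw [conjEnd_esEquiv, conjEnd_esEquiv] at h1
  have h2 := (esEquiv N).injective h1
  exact congrArg Prod.fst h2

/-- If `t` corresponds to `τ` under the period map and `τ` commutes with the involution, then
the transported endomorphism is the restriction of `τ`. -/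
theorem coe_conjEnd_of (t : Module.End ℂ (S2 N))
    (τ : (Additive (Gamma0 N) →+ ℂ) →ₗ[ℂ] (Additive (Gamma0 N) →+ ℂ))
    (hP : ∀ f, periodMap N (t f) = τ (periodMap N f))
    (hι : ∀ φ, τ (charInvolution N ℂ ℂ φ) = charInvolution N ℂ ℂ (τ φ))
    (w : Wpar N) : ((conjEnd N t w : Wpar N) : Additive (Gamma0 N) →+ ℂ) = τ w := by
  obtain ⟨v, rfl⟩ := (esEquiv N).surjective w
  rw [conjEnd_esEquiv, coe_esEquiv, coe_esEquiv, periodHomPair_equivariant N t τ hP hι]

/-- `T_l` transported to the complex parabolic homs is the coset-transfer operator. -/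
theorem coe_conjEnd_heckeT {l : ℕ} [Fact l.Prime] (hlN : ¬ l ∣ N) (w : Wpar N) :
    ((conjEnd N (CuspForm.heckeTLin 2 (Fact.out : l.Prime) hlN) w : Wpar N) :
      Additive (Gamma0 N) →+ ℂ) = heckeHomT N l hlN ℂ w :=
  coe_conjEnd_of N _ ((corrT N l hlN).opLin ℂ ℂ)
    (fun f => periodMap_heckeT N l Fact.out hlN f)
    (fun φ => heckeHomT_charInvolution N l hlN ℂ ℂ φ) w

/-- `U_q` transported to the complex parabolic homs is the coset-transfer operator. -/
theorem coe_conjEnd_heckeU {q : ℕ} [Fact q.Prime] (hqN : q ∣ N) (w : Wpar N) :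
    ((conjEnd N (CuspForm.heckeULin 2 hqN) w : Wpar N) :
      Additive (Gamma0 N) →+ ℂ) = heckeHomU N q hqN ℂ w :=
  coe_conjEnd_of N _ ((corrU N q hqN).opLin ℂ ℂ)
    (fun f => periodMap_heckeU N q hqN f)
    (fun φ => heckeHomU_charInvolution N q hqN ℂ ℂ φ) w

end Period

/-! ### Part C: the lattice and its Hecke operators -/

section Lattice

variable (N : ℕ) [NeZero N]

/-- The inclusion of the integral lattice into the complex parabolic homs. -/
def jLam : Lam N →+ Wpar N where
  toFun ψ := ⟨toC (Gamma0 N) ψ, toC_mem_parabolicHoms_iff.mpr ψ.2⟩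
  map_zero' := Subtype.ext (map_zero _)
  map_add' _ _ := Subtype.ext (map_add _ _ _)

@[simp] theorem coe_jLam (ψ : Lam N) :
    ((jLam N ψ : Wpar N) : Additive (Gamma0 N) →+ ℂ) = toC (Gamma0 N) ψ := rfl

theorem jLam_injective : Function.Injective (jLam N) := by
  intro a b h
  exact Subtype.ext (toC_injective (congrArg Subtype.val h))

/-- The complex span of the lattice is everything. -/
theorem span_range_jLam : Submodule.span ℂ (Set.range (jLam N)) = ⊤ := by
  have : Group.FG (Gamma0 N) := Fermat.Agent.S21.helper2438.fg_Gamma0 N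
  rw [eq_top_iff]
  rintro ⟨φ, hφ⟩ -
  obtain ⟨ι, _, c, ψ, hψ, rfl⟩ := exists_int_decomposition hφ
  have key : (⟨∑ i, c i • toC (Gamma0 N) (ψ i), hφ⟩ : Wpar N) =
      ∑ i, c i • jLam N ⟨ψ i, hψ i⟩ := by
    apply Subtype.ext
    simp only [Submodule.coe_sum, Submodule.coe_smul, coe_jLam]
  rw [key]
  exact Submodule.sum_mem _ fun i _ =>
    Submodule.smul_mem _ _ (Submodule.subset_span ⟨_, rfl⟩)

/-- `T_l` preserves the complex parabolic homs. -/
theorem heckeHomT_mem_parabolicHoms_complex {l : ℕ} [Fact l.Prime] (hlN : ¬ l ∣ N)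
    {φ : Additive (Gamma0 N) →+ ℂ} (hφ : φ ∈ parabolicHoms ℂ (Gamma0 N) ℂ) :
    heckeHomT N l hlN ℂ φ ∈ parabolicHoms ℂ (Gamma0 N) ℂ := by
  have h := coe_conjEnd_heckeT N hlN ⟨φ, hφ⟩
  rw [← h]
  exact Subtype.property _

/-- `U_q` preserves the complex parabolic homs. -/
theorem heckeHomU_mem_parabolicHoms_complex {q : ℕ} [Fact q.Prime] (hqN : q ∣ N)
    {φ : Additive (Gamma0 N) →+ ℂ} (hφ : φ ∈ parabolicHoms ℂ (Gamma0 N) ℂ) :
    heckeHomU N q hqN ℂ φ ∈ parabolicHoms ℂ (Gamma0 N) ℂ := by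
  have h := coe_conjEnd_heckeU N hqN ⟨φ, hφ⟩
  rw [← h]
  exact Subtype.property _

theorem toC_heckeHomT {l : ℕ} [Fact l.Prime] (hlN : ¬ l ∣ N) (ψ : Additive (Gamma0 N) →+ ℤ) :
    toC (Gamma0 N) (heckeHomT N l hlN ℤ ψ) = heckeHomT N l hlN ℂ (toC (Gamma0 N) ψ) :=
  (heckeHomT_comp N l hlN (Int.castAddHom ℂ) ψ).symm

theorem toC_heckeHomU {q : ℕ} [Fact q.Prime] (hqN : q ∣ N) (ψ : Additive (Gamma0 N) →+ ℤ) :
    toC (Gamma0 N) (heckeHomU N q hqN ℤ ψ) = heckeHomU N q hqN ℂ (toC (Gamma0 N) ψ) :=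
  (heckeHomU_comp N q hqN (Int.castAddHom ℂ) ψ).symm

/-- `T_l` preserves the integral parabolic homs. -/
theorem heckeHomT_mem_parabolicHoms {l : ℕ} [Fact l.Prime] (hlN : ¬ l ∣ N)
    {ψ : Additive (Gamma0 N) →+ ℤ} (hψ : ψ ∈ parabolicHoms ℤ (Gamma0 N) ℤ) :
    heckeHomT N l hlN ℤ ψ ∈ parabolicHoms ℤ (Gamma0 N) ℤ := by
  rw [← toC_mem_parabolicHoms_iff, toC_heckeHomT]
  exact heckeHomT_mem_parabolicHoms_complex N hlN (toC_mem_parabolicHoms_iff.mpr hψ)

/-- `U_q` preserves the integral parabolic homs. -/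
theorem heckeHomU_mem_parabolicHoms {q : ℕ} [Fact q.Prime] (hqN : q ∣ N)
    {ψ : Additive (Gamma0 N) →+ ℤ} (hψ : ψ ∈ parabolicHoms ℤ (Gamma0 N) ℤ) :
    heckeHomU N q hqN ℤ ψ ∈ parabolicHoms ℤ (Gamma0 N) ℤ := by
  rw [← toC_mem_parabolicHoms_iff, toC_heckeHomU]
  exact heckeHomU_mem_parabolicHoms_complex N hqN (toC_mem_parabolicHoms_iff.mpr hψ)

/-- The Hecke operator `T_l` on the lattice of integral parabolic homs: the restriction of the
coset-transfer operator `heckeHomT N l hlN ℤ`. -/
def latT (l : ℕ) [Fact l.Prime] (hlN : ¬ l ∣ N) : Module.End ℤ (Lam N) :=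
  ((corrT N l hlN).opLin ℤ ℤ).restrict
    (fun _ hψ => heckeHomT_mem_parabolicHoms N hlN hψ)

/-- The Hecke operator `U_q` on the lattice of integral parabolic homs. -/
def latU (q : ℕ) [Fact q.Prime] (hqN : q ∣ N) : Module.End ℤ (Lam N) :=
  ((corrU N q hqN).opLin ℤ ℤ).restrict
    (fun _ hψ => heckeHomU_mem_parabolicHoms N hqN hψ)

@[simp] theorem coe_latT (l : ℕ) [Fact l.Prime] (hlN : ¬ l ∣ N) (ψ : Lam N) :
    ((latT N l hlN ψ : Lam N) : Additive (Gamma0 N) →+ ℤ) = heckeHomT N l hlN ℤ ψ := rfl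

@[simp] theorem coe_latU (q : ℕ) [Fact q.Prime] (hqN : q ∣ N) (ψ : Lam N) :
    ((latU N q hqN ψ : Lam N) : Additive (Gamma0 N) →+ ℤ) = heckeHomU N q hqN ℤ ψ := rfl

theorem latT_apply_apply (l : ℕ) [Fact l.Prime] (hlN : ¬ l ∣ N) (ψ : Lam N) (γ : Gamma0 N) :
    (latT N l hlN ψ : Additive (Gamma0 N) →+ ℤ) (Additive.ofMul γ) =
      ∑ x, (ψ : Additive (Gamma0 N) →+ ℤ) (Additive.ofMul ((corrT N l hlN).g x γ)) := rfl

theorem jLam_latT (l : ℕ) [Fact l.Prime] (hlN : ¬ l ∣ N) (ψ : Lam N) :
    jLam N (latT N l hlN ψ) = conjEnd N (CuspForm.heckeTLin 2 (Fact.out : l.Prime) hlN) (jLam N ψ) := by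
  apply Subtype.ext
  rw [coe_conjEnd_heckeT, coe_jLam, coe_jLam, coe_latT, toC_heckeHomT]

theorem jLam_latU (q : ℕ) [Fact q.Prime] (hqN : q ∣ N) (ψ : Lam N) :
    jLam N (latU N q hqN ψ) = conjEnd N (CuspForm.heckeULin 2 hqN) (jLam N ψ) := by
  apply Subtype.ext
  rw [coe_conjEnd_heckeU, coe_jLam, coe_jLam, coe_latU, toC_heckeHomU]

instance instFiniteLam : Module.Finite ℤ (Lam N) := by
  have : Group.FG (Gamma0 N) := Fermat.Agent.S21.helper2438.fg_Gamma0 N
  have : Module.Finite ℤ (Additive (Gamma0 N) →+ ℤ) := finite_int_addHom (Gamma0 N)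
  infer_instance

instance instTorsionFreeLam : Module.IsTorsionFree ℤ (Lam N) :=
  Module.IsTorsionFree.of_smul_eq_zero fun r ψ h => by
    by_cases hr : r = 0
    · exact Or.inl hr
    · right
      apply Subtype.ext
      refine AddMonoidHom.ext fun γ => ?_
      have h1 : r • (ψ : Additive (Gamma0 N) →+ ℤ) γ = 0 := by
        have := congrArg (fun x : Lam N => (x : Additive (Gamma0 N) →+ ℤ) γ) h
        simpa using this
      rcases smul_eq_zero.mp h1 with h2 | h2
      · exact absurd h2 hr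
      · simpa using h2

instance instFreeLam : Module.Free ℤ (Lam N) := inferInstance

end Lattice

/-! ### Part D: the Hecke algebra acts faithfully on the lattice -/

section HeckeHom

variable (N : ℕ) [NeZero N] (S : Set ℕ)

/-- The transported action of every element of the Hecke algebra preserves the lattice. -/
theorem conjEnd_mem_range_jLam (t : Module.End ℂ (S2 N)) (ht : t ∈ CuspForm.heckeAlgebra N 2 S)
    (ψ : Lam N) : ∃ ψ' : Lam N, jLam N ψ' = conjEnd N t (jLam N ψ) := by
  revert ψ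
  refine Algebra.adjoin_induction
    (p := fun t _ => ∀ ψ : Lam N, ∃ ψ' : Lam N, jLam N ψ' = conjEnd N t (jLam N ψ))
    ?_ ?_ ?_ ?_ ht
  · intro t ht ψ
    rcases ht with ⟨l, hl, hlN, -, rfl⟩ | ⟨q, hqN, hq, -, rfl⟩
    · haveI : Fact l.Prime := ⟨hl⟩
      exact ⟨latT N l hlN ψ, jLam_latT N l hlN ψ⟩
    · haveI : Fact q.Prime := ⟨hq⟩
      exact ⟨latU N q hqN ψ, jLam_latU N q hqN ψ⟩
  · intro r ψ
    refine ⟨r • ψ, ?_⟩
    rw [eq_intCast, map_intCast, Module.End.intCast_apply, map_zsmul]
  · intro s t _ _ hs ht ψ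
    obtain ⟨a, ha⟩ := hs ψ
    obtain ⟨b, hb⟩ := ht ψ
    exact ⟨a + b, by rw [map_add, map_add, LinearMap.add_apply, ha, hb]⟩
  · intro s t _ _ hs ht ψ
    obtain ⟨b, hb⟩ := ht ψ
    obtain ⟨a, ha⟩ := hs b
    exact ⟨a, by rw [map_mul, Module.End.mul_apply, ← hb, ha]⟩

/-- The action of a Hecke operator on the lattice, as a function. -/
def latOpFun (t : CuspForm.heckeAlgebra N 2 S) (ψ : Lam N) : Lam N :=
  (conjEnd_mem_range_jLam N S t.1 t.2 ψ).choose

theorem jLam_latOpFun (t : CuspForm.heckeAlgebra N 2 S) (ψ : Lam N) :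
    jLam N (latOpFun N S t ψ) = conjEnd N t.1 (jLam N ψ) :=
  (conjEnd_mem_range_jLam N S t.1 t.2 ψ).choose_spec

/-- The action of a Hecke operator on the lattice. -/
def latOp (t : CuspForm.heckeAlgebra N 2 S) : Module.End ℤ (Lam N) :=
  AddMonoidHom.toIntLinearMap
    { toFun := latOpFun N S t
      map_zero' := jLam_injective N (by rw [jLam_latOpFun, map_zero, map_zero])
      map_add' := fun a b => jLam_injective N (by
        rw [jLam_latOpFun, map_add, map_add, map_add, jLam_latOpFun, jLam_latOpFun]) }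

theorem jLam_latOp (t : CuspForm.heckeAlgebra N 2 S) (ψ : Lam N) :
    jLam N (latOp N S t ψ) = conjEnd N t.1 (jLam N ψ) :=
  jLam_latOpFun N S t ψ

/-- **K6**: the ring homomorphism from the Hecke algebra to the endomorphisms of the lattice of
integral parabolic homs (the Hecke action transported through the Eichler–Shimura
isomorphism). -/
def heckeLatticeHom : CuspForm.heckeAlgebra N 2 S →+* Module.End ℤ (Lam N) where
  toFun := latOp N S
  map_one' := LinearMap.ext fun ψ => jLam_injective N (by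
    rw [jLam_latOp]
    show conjEnd N 1 (jLam N ψ) = _
    rw [map_one]; rfl)
  map_mul' s t := LinearMap.ext fun ψ => jLam_injective N (by
    rw [jLam_latOp, Module.End.mul_apply, jLam_latOp, jLam_latOp]
    show conjEnd N (s.1 * t.1) (jLam N ψ) = _
    rw [map_mul]; rfl)
  map_zero' := LinearMap.ext fun ψ => jLam_injective N (by
    rw [jLam_latOp]
    show conjEnd N 0 (jLam N ψ) = _
    rw [map_zero]; simp)
  map_add' s t := LinearMap.ext fun ψ => jLam_injective N (by
    rw [jLam_latOp, LinearMap.add_apply, map_add, jLam_latOp, jLam_latOp]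
    show conjEnd N (s.1 + t.1) (jLam N ψ) = _
    rw [map_add]; rfl)

/-- Defining property: `Φ(t)` is the action of `t` transported to the lattice. -/
theorem jLam_heckeLatticeHom (t : CuspForm.heckeAlgebra N 2 S) (ψ : Lam N) :
    jLam N (heckeLatticeHom N S t ψ) = conjEnd N t.1 (jLam N ψ) :=
  jLam_latOp N S t ψ

/-- Period form of the defining property: if `(f, g)` has period pair `ψ ⊗ 1`, then
`(t f, t g)` has period pair `Φ(t) ψ ⊗ 1`. -/
theorem periodHomPair_heckeLatticeHom (t : CuspForm.heckeAlgebra N 2 S) (ψ : Lam N)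
    (v : S2 N × S2 N) (hv : periodHomPair N v = toC (Gamma0 N) ψ) :
    periodHomPair N ((t : Module.End ℂ (S2 N)) v.1, (t : Module.End ℂ (S2 N)) v.2) =
      toC (Gamma0 N) (heckeLatticeHom N S t ψ) := by
  have h1 : esEquiv N v = jLam N ψ := Subtype.ext hv
  have h2 := jLam_heckeLatticeHom N S t ψ
  rw [← h1, conjEnd_esEquiv] at h2
  exact (congrArg Subtype.val h2).symm

/-- **K6**: the Hecke algebra acts faithfully on the lattice of integral parabolic homs. -/
theorem heckeLatticeHom_injective : Function.Injective (heckeLatticeHom N S) := by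
  rw [injective_iff_map_eq_zero]
  intro t ht
  have h0 : ∀ ψ : Lam N, conjEnd N t.1 (jLam N ψ) = 0 := by
    intro ψ
    rw [← jLam_heckeLatticeHom, ht]
    simp
  have h1 : conjEnd N t.1 = 0 := by
    refine LinearMap.ext_on (span_range_jLam N) ?_
    rintro _ ⟨ψ, rfl⟩
    rw [h0, LinearMap.zero_apply]
  have h2 : t.1 = 0 := conjEnd_injective N (by rw [h1, map_zero])
  exact Subtype.ext h2

/-- **K6**: `Φ(T_l)` is the coset-transfer operator `T_l` on the lattice. -/
theorem heckeLatticeHom_T {l : ℕ} [Fact l.Prime] (hlN : ¬ l ∣ N) (hlS : l ∉ S) :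
    heckeLatticeHom N S (CuspForm.heckeAlgebra.T (Fact.out : l.Prime) hlN hlS) = latT N l hlN :=
  LinearMap.ext fun ψ => jLam_injective N (by
    rw [jLam_latT]
    exact jLam_heckeLatticeHom N S _ ψ)

/-- **K6**: `Φ(U_q)` is the coset-transfer operator `U_q` on the lattice. -/
theorem heckeLatticeHom_U {q : ℕ} [Fact q.Prime] (hqN : q ∣ N) (hqS : q ∉ S) :
    heckeLatticeHom N S (CuspForm.heckeAlgebra.U (Fact.out : q.Prime) hqN hqS) = latU N q hqN :=
  LinearMap.ext fun ψ => jLam_injective N (by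
    rw [jLam_latU]
    exact jLam_heckeLatticeHom N S _ ψ)

/-- Pointwise form of `heckeLatticeHom_T` with an explicit primality proof. -/
theorem coe_heckeLatticeHom_T {l : ℕ} (hl : l.Prime) (hlN : ¬ l ∣ N) (hlS : l ∉ S) (ψ : Lam N) :
    ((heckeLatticeHom N S (CuspForm.heckeAlgebra.T hl hlN hlS) ψ : Lam N) :
      Additive (Gamma0 N) →+ ℤ) = @heckeHomT N l ⟨hl⟩ hlN ℤ _ ψ := by
  haveI : Fact l.Prime := ⟨hl⟩
  rw [show CuspForm.heckeAlgebra.T hl hlN hlS =
    (CuspForm.heckeAlgebra.T (Fact.out : l.Prime) hlN hlS : CuspForm.heckeAlgebra N 2 S) from rfl,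
    heckeLatticeHom_T]
  rfl

/-- Faithfulness in kernel form. -/
theorem heckeLatticeHom_eq_zero_iff (t : CuspForm.heckeAlgebra N 2 S) :
    heckeLatticeHom N S t = 0 ↔ t = 0 :=
  map_eq_zero_iff _ (heckeLatticeHom_injective N S)

/-- Faithfulness, elementwise: an element of the Hecke algebra killing every integral parabolic
hom is zero. -/
theorem eq_zero_of_forall_heckeLatticeHom_eq_zero (t : CuspForm.heckeAlgebra N 2 S)
    (h : ∀ ψ : Lam N, heckeLatticeHom N S t ψ = 0) : t = 0 :=
  (heckeLatticeHom_eq_zero_iff N S t).mp (LinearMap.ext h)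

end HeckeHom

end

end Fermat.Agent.S31.helper6356
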