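import Mathlib
import Fermat.Prelude.Def_CuspForm_HeckeGaloisRepDatum
import Fermat.Agent.S53.helper3173_Burnside

/-!
# S31, top level (helper8458): trace-kernel lemma, Dickson traces, reduction of the statement

* `eq_one_of_trace_mul`: for a residually absolutely irreducible `ρ : GaloisRepAdic T`, an element
  `τ` with `tr ρ(τ g) = tr ρ(g)` for all `g` satisfies `ρ τ = 1`.
* `dick`, `trace_pow_eq_dick`: in rank two, `tr (f ^ a) = D_a(tr f, det f)`.
* `sub_trace_mem_of_agree`: adic continuity gives trace congruences.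
-/

set_option autoImplicit false

namespace Fermat.Agent.S31.helper8458

open scoped TensorProduct
open Polynomial

local notation "Gal" => AlgebraicClosure ℚ ≃ₐ[ℚ] AlgebraicClosure ℚ

section Algebra

variable {R : Type*} [CommRing R] {V : Type*} [AddCommGroup V] [Module R V]

/-- The trace form on the endomorphisms of a finite free module is nondegenerate. -/
theorem eq_zero_of_trace_mul_eq_zero [Module.Free R V] [Module.Finite R V]
    (X : Module.End R V) (h : ∀ Y : Module.End R V, LinearMap.trace R V (X * Y) = 0) : X = 0 := by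
  refine LinearMap.ext fun w => ?_
  rw [LinearMap.zero_apply, ← Module.forall_dual_apply_eq_zero_iff R]
  intro φ
  have h1 := h (φ.smulRight w)
  have h2 : X * φ.smulRight w = φ.smulRight (X w) := by
    ext v
    simp [LinearMap.smulRight_apply]
  rw [h2, LinearMap.trace_smulRight] at h1
  exact h1

/-- A linear map sends `I • ⊤` into `I • ⊤`. -/
theorem map_mem_smul_top (I : Ideal R) (f : Module.End R V) {x : V}
    (hx : x ∈ I • (⊤ : Submodule R V)) : f x ∈ I • (⊤ : Submodule R V) := by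
  refine Submodule.smul_induction_on (p := fun x => f x ∈ I • (⊤ : Submodule R V)) hx ?_ ?_
  · intro a ha w _
    rw [map_smul]
    exact Submodule.smul_mem_smul ha Submodule.mem_top
  · intro x y hx hy
    rw [map_add]
    exact Submodule.add_mem _ hx hy

/-- Coordinates of an element of `I • ⊤` lie in `I`. -/
theorem repr_mem_of_mem_smul_top {ι : Type*} (b : Module.Basis ι R V) (I : Ideal R) {x : V}
    (hx : x ∈ I • (⊤ : Submodule R V)) (i : ι) : b.repr x i ∈ I := by
  refine Submodule.smul_induction_on (p := fun x => b.repr x i ∈ I) hx ?_ ?_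
  · intro a ha w _
    rw [map_smul, Finsupp.smul_apply, smul_eq_mul]
    exact I.mul_mem_right _ ha
  · intro x y hx hy
    rw [map_add, Finsupp.add_apply]
    exact I.add_mem hx hy

/-- The trace of an endomorphism with values in `I • ⊤` lies in `I`. -/
theorem trace_mem_of_forall_mem_smul_top [Module.Free R V] [Module.Finite R V] (I : Ideal R)
    (f : Module.End R V) (hf : ∀ v, f v ∈ I • (⊤ : Submodule R V)) :
    LinearMap.trace R V f ∈ I := by
  classical
  rw [LinearMap.trace_eq_matrix_trace R (Module.Free.chooseBasis R V), Matrix.trace]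
  refine Ideal.sum_mem _ fun i _ => ?_
  rw [Matrix.diag_apply, LinearMap.toMatrix_apply]
  exact repr_mem_of_mem_smul_top _ I (hf _) i

end Algebra

section Nakayama

variable {R : Type*} [CommRing R] [IsLocalRing R] {V : Type*} [AddCommGroup V] [Module R V]
  [Module.Free R V] [Module.Finite R V]

/-- An endomorphism that vanishes modulo the maximal ideal lies in `𝔪 • End V`. -/
theorem mem_smul_top_of_baseChange_eq_zero (h : Module.End R V)
    (h0 : h.baseChange (IsLocalRing.ResidueField R) = 0) :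
    h ∈ IsLocalRing.maximalIdeal R • (⊤ : Submodule R (Module.End R V)) := by
  classical
  set b := Module.Free.chooseBasis R V with hb
  set ι := Module.Free.ChooseBasisIndex R V
  have hM : ∀ i j, LinearMap.toMatrix b b h i j ∈ IsLocalRing.maximalIdeal R := by
    intro i j
    rw [LinearMap.toMatrix_apply, ← IsLocalRing.residue_eq_zero_iff]
    have h1 : (b.baseChange (IsLocalRing.ResidueField R)).repr
        ((1 : IsLocalRing.ResidueField R) ⊗ₜ[R] h (b j)) i =
          IsLocalRing.residue R (b.repr (h (b j)) i) := by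
      rw [Module.Basis.baseChange_repr_tmul]
      rw [Algebra.smul_def, mul_one, IsLocalRing.ResidueField.algebraMap_eq]
    rw [← h1, ← LinearMap.baseChange_tmul, h0]
    rw [LinearMap.zero_apply, map_zero, Finsupp.zero_apply]
  have hsum : h = ∑ i, ∑ j, LinearMap.toMatrix b b h i j •
      Matrix.toLin b b (Matrix.single i j (1 : R)) := by
    apply (LinearMap.toMatrix b b).injective
    rw [map_sum]
    conv_lhs => rw [Matrix.matrix_eq_sum_single (LinearMap.toMatrix b b h)]
    refine Finset.sum_congr rfl fun i _ => ?_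
    rw [map_sum]
    refine Finset.sum_congr rfl fun j _ => ?_
    rw [map_smul, LinearMap.toMatrix_toLin, Matrix.smul_single, smul_eq_mul, mul_one]
  rw [hsum]
  refine Submodule.sum_mem _ fun i _ => Submodule.sum_mem _ fun j _ => ?_
  exact Submodule.smul_mem_smul (hM i j) Submodule.mem_top

/-- **Nakayama for endomorphism algebras**: if the reductions of a set of endomorphisms span
`End (k ⊗ V)` over the residue field, then the set spans `End V`. -/
theorem span_eq_top_of_residual (s : Set (Module.End R V))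
    (hs : Submodule.span (IsLocalRing.ResidueField R)
      ((fun f : Module.End R V => f.baseChange (IsLocalRing.ResidueField R)) '' s) = ⊤) :
    Submodule.span R s = ⊤ := by
  rw [eq_top_iff]
  refine Submodule.le_of_le_smul_of_le_jacobson_bot (I := IsLocalRing.maximalIdeal R)
    (Module.Finite.fg_top) (IsLocalRing.maximalIdeal_le_jacobson ⊥) ?_
  intro f _
  -- every element of the residual span lifts to the span
  have key : ∀ F ∈ Submodule.span (IsLocalRing.ResidueField R)
      ((fun f : Module.End R V => f.baseChange (IsLocalRing.ResidueField R)) '' s),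
      ∃ g ∈ Submodule.span R s, g.baseChange (IsLocalRing.ResidueField R) = F := by
    intro F hF
    induction hF using Submodule.span_induction with
    | mem x hx =>
      obtain ⟨g, hg, rfl⟩ := hx
      exact ⟨g, Submodule.subset_span hg, rfl⟩
    | zero => exact ⟨0, Submodule.zero_mem _, LinearMap.baseChange_zero⟩
    | add x y _ _ hx hy =>
      obtain ⟨g₁, hg₁, rfl⟩ := hx
      obtain ⟨g₂, hg₂, rfl⟩ := hy
      exact ⟨g₁ + g₂, Submodule.add_mem _ hg₁ hg₂, LinearMap.baseChange_add _ _⟩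
    | smul a x _ hx =>
      obtain ⟨g, hg, rfl⟩ := hx
      obtain ⟨c, rfl⟩ := IsLocalRing.residue_surjective a
      refine ⟨c • g, Submodule.smul_mem _ c hg, ?_⟩
      rw [LinearMap.baseChange_smul]
      rw [← IsLocalRing.ResidueField.algebraMap_eq, algebraMap_smul]
  obtain ⟨g, hg, hgf⟩ := key (f.baseChange (IsLocalRing.ResidueField R)) (by rw [hs]; trivial)
  have hfg : f - g ∈ IsLocalRing.maximalIdeal R • (⊤ : Submodule R (Module.End R V)) := by
    apply mem_smul_top_of_baseChange_eq_zero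
    rw [LinearMap.baseChange_sub, hgf]
    exact sub_self (LinearMap.baseChange (IsLocalRing.ResidueField R) f)
  have : f = g + (f - g) := by abel
  rw [this]
  exact Submodule.add_mem_sup hg hfg

end Nakayama

section TraceKernel

variable {T : Type} [CommRing T] [IsLocalRing T]

/-- Over a local ring, the image of a residually absolutely irreducible representation spans
the whole endomorphism algebra (Burnside + Nakayama). -/
theorem span_range_eq_top (ρ : GaloisRepAdic T) (habs : ρ.residual.IsAbsolutelyIrreducible) :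
    Submodule.span T (Set.range ρ.ρ) = ⊤ := by
  apply span_eq_top_of_residual
  have h := Fermat.Agent.S53.helper3173.span_range_eq_top ρ.residual habs
  have hset : ((fun f : Module.End T ρ.V => f.baseChange (IsLocalRing.ResidueField T)) ''
      Set.range ρ.ρ) = Set.range ρ.residual.ρ := by
    ext F
    constructor
    · rintro ⟨f, ⟨σ, rfl⟩, rfl⟩
      exact ⟨σ, rfl⟩
    · rintro ⟨σ, rfl⟩
      exact ⟨ρ.ρ σ, ⟨σ, rfl⟩, rfl⟩
  exact (congrArg (Submodule.span (IsLocalRing.ResidueField T)) hset).trans h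

/-- **Trace-kernel lemma.** If `ρ` is residually absolutely irreducible and `τ` satisfies
`tr ρ(τ g) = tr ρ(g)` for every `g`, then `ρ τ = 1`. -/
theorem eq_one_of_trace_mul (ρ : GaloisRepAdic T) (habs : ρ.residual.IsAbsolutelyIrreducible)
    (τ : Gal)
    (h : ∀ g : Gal, LinearMap.trace T ρ.V (ρ.ρ (τ * g)) = LinearMap.trace T ρ.V (ρ.ρ g)) :
    ρ.ρ τ = 1 := by
  have hspan := span_range_eq_top ρ habs
  have key : ∀ Y ∈ Submodule.span T (Set.range ρ.ρ),
      LinearMap.trace T ρ.V ((ρ.ρ τ - 1) * Y) = 0 := by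
    intro Y hY
    induction hY using Submodule.span_induction with
    | mem x hx =>
      obtain ⟨g, rfl⟩ := hx
      rw [sub_mul, one_mul, ← map_mul, map_sub, h g, sub_self]
    | zero => rw [mul_zero, map_zero]
    | add x y _ _ hx hy => rw [mul_add, map_add, hx, hy, add_zero]
    | smul a x _ hx => rw [mul_smul_comm, map_smul, hx, smul_zero]
  have h0 : ρ.ρ τ - 1 = 0 :=
    eq_zero_of_trace_mul_eq_zero _ fun Y => key Y (by rw [hspan]; trivial)
  exact sub_eq_zero.mp h0

end TraceKernel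

section Dickson

/-- The Dickson–Lucas sequence `D_a(t, d)`: `D_0 = 2`, `D_1 = t`,
`D_{a+2} = t D_{a+1} - d D_a`.  If `x + y = t` and `x y = d` then `D_a(t, d) = x ^ a + y ^ a`. -/
def dick {R : Type*} [CommRing R] (t d : R) : ℕ → R
  | 0 => 2
  | 1 => t
  | (a + 2) => t * dick t d (a + 1) - d * dick t d a

@[simp] theorem dick_zero {R : Type*} [CommRing R] (t d : R) : dick t d 0 = 2 := rfl

@[simp] theorem dick_one {R : Type*} [CommRing R] (t d : R) : dick t d 1 = t := rfl

theorem dick_add_two {R : Type*} [CommRing R] (t d : R) (a : ℕ) :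
    dick t d (a + 2) = t * dick t d (a + 1) - d * dick t d a := rfl

theorem map_dick {R S : Type*} [CommRing R] [CommRing S] (φ : R →+* S) (t d : R) (a : ℕ) :
    φ (dick t d a) = dick (φ t) (φ d) a := by
  induction a using Nat.twoStepInduction with
  | zero => rw [dick_zero, dick_zero, map_ofNat]
  | one => rw [dick_one, dick_one]
  | more a h1 h2 => rw [dick_add_two, dick_add_two, map_sub, map_mul, map_mul, h1, h2]

variable {R : Type*} [CommRing R] {V : Type*} [AddCommGroup V] [Module R V]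
  [Module.Free R V] [Module.Finite R V]

/-- In rank two, `charpoly f = X² - tr f X + det f`. -/
theorem charpoly_eq_of_finrank_two [Nontrivial R] (hV : Module.finrank R V = 2)
    (f : Module.End R V) :
    f.charpoly = X ^ 2 - C (LinearMap.trace R V f) * X + C (LinearMap.det f) := by
  classical
  let b : Module.Basis (Fin 2) R V := Module.finBasisOfFinrankEq R V hV
  rw [← LinearMap.charpoly_toMatrix f b, Matrix.charpoly_fin_two,
    LinearMap.trace_eq_matrix_trace R b f, LinearMap.det_toMatrix b f]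

/-- Cayley–Hamilton in rank two. -/
theorem mul_self_eq_of_finrank_two [Nontrivial R] (hV : Module.finrank R V = 2)
    (f : Module.End R V) :
    f * f = LinearMap.trace R V f • f - LinearMap.det f • (1 : Module.End R V) := by
  have h := LinearMap.aeval_self_charpoly f
  rw [charpoly_eq_of_finrank_two hV f] at h
  simp only [map_add, map_sub, map_mul, map_pow, aeval_X, aeval_C,
    Algebra.algebraMap_eq_smul_one] at h
  rw [smul_mul_assoc, one_mul, pow_two] at h
  rw [← sub_eq_zero, ← h]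
  abel

/-- If `charpoly f = X² - t X + d` in rank two, then `tr f = t` and `det f = d`. -/
theorem trace_det_of_charpoly [Nontrivial R] (hV : Module.finrank R V = 2)
    (f : Module.End R V) (t d : R) (h : f.charpoly = X ^ 2 - C t * X + C d) :
    LinearMap.trace R V f = t ∧ LinearMap.det f = d := by
  rw [charpoly_eq_of_finrank_two hV f] at h
  have h1 := congrArg (fun P : R[X] => P.coeff 1) h
  have h0 := congrArg (fun P : R[X] => P.coeff 0) h
  simp only [coeff_add, coeff_sub, coeff_X_pow, coeff_C_mul, coeff_X_one, coeff_C_zero,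
    coeff_C_succ, coeff_X_zero] at h1 h0
  norm_num at h1 h0
  exact ⟨h1, h0⟩

/-- In rank two, `tr (f ^ a) = D_a(tr f, det f)`. -/
theorem trace_pow_eq_dick [Nontrivial R] (hV : Module.finrank R V = 2)
    (f : Module.End R V) (a : ℕ) :
    LinearMap.trace R V (f ^ a) = dick (LinearMap.trace R V f) (LinearMap.det f) a := by
  induction a using Nat.twoStepInduction with
  | zero => rw [pow_zero, LinearMap.trace_one, hV, dick_zero]; norm_num
  | one => rw [pow_one, dick_one]
  | more a h1 h2 =>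
    have hpow : f ^ (a + 2) = LinearMap.trace R V f • f ^ (a + 1) -
        LinearMap.det f • f ^ a := by
      rw [pow_add, pow_two, mul_self_eq_of_finrank_two hV f, mul_sub, mul_smul_comm,
        mul_smul_comm, mul_one, ← pow_succ]
    rw [hpow, map_sub, map_smul, map_smul, h1, h2, dick_add_two, smul_eq_mul, smul_eq_mul]

end Dickson

section Galois

variable {T : Type} [CommRing T] [IsLocalRing T]

/-- Adic continuity: traces of two elements agreeing on the level-`n` field are congruent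
modulo `𝔪ⁿ`. -/
theorem sub_trace_mem_of_agree (ρ : GaloisRepAdic T) (n : ℕ)
    (L : IntermediateField ℚ (AlgebraicClosure ℚ))
    (hL : ∀ σ : Gal, (∀ x ∈ L, σ x = x) → ∀ v : ρ.V,
      ρ.ρ σ v - v ∈ (IsLocalRing.maximalIdeal T ^ n) • (⊤ : Submodule T ρ.V))
    (g g' : Gal) (hgg : ∀ x ∈ L, g x = g' x) :
    LinearMap.trace T ρ.V (ρ.ρ g') - LinearMap.trace T ρ.V (ρ.ρ g) ∈
      IsLocalRing.maximalIdeal T ^ n := by
  have hσ : ∀ x ∈ L, (g⁻¹ * g') x = x := by
    intro x hx
    rw [AlgEquiv.mul_apply, ← hgg x hx]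
    exact g.symm_apply_apply x
  have hmul : ρ.ρ g' = ρ.ρ g * ρ.ρ (g⁻¹ * g') := by rw [← map_mul, mul_inv_cancel_left]
  have hsub : ρ.ρ g * ρ.ρ (g⁻¹ * g') - ρ.ρ g = ρ.ρ g * (ρ.ρ (g⁻¹ * g') - 1) := by
    rw [mul_sub, mul_one]
  rw [← map_sub, hmul, hsub]
  apply trace_mem_of_forall_mem_smul_top
  intro v
  rw [Module.End.mul_apply, LinearMap.sub_apply, Module.End.one_apply]
  exact map_mem_smul_top _ _ (hL _ hσ v)

end Galois

/-- **Chebotarev, generator form** (the shape produced by the S29 Chebotarev module): every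
element of a finite level is a power of a Frobenius lift at a prime outside any finite set. -/
def GenCheb : Prop :=
  ∀ (K : IntermediateField ℚ (AlgebraicClosure ℚ)), FiniteDimensional ℚ K →
    ∀ (σ : Gal) (B : Finset ℕ),
      ∃ (ℓ : ℕ) (A : ValuationSubring (AlgebraicClosure ℚ)) (s : Gal) (a : ℕ),
        ℓ.Prime ∧ ℓ ∉ B ∧ A.LiesOverPrime ℓ ∧ A.IsFrobeniusAt s ℓ ∧ ∀ x ∈ K, (s ^ a) x = σ x

/-- **Hecke reciprocity at `q` modulo powers of `p`**: for every `m` there is a finite level `L`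
such that whenever powers `s ^ a`, `s' ^ b` of Frobenius lifts at `ℓ`, `ℓ'` differ on `L` by an
inertia element at `q`, the Hecke elements `D_a(T_ℓ, ℓ)` and `D_b(T_ℓ', ℓ')` are congruent
modulo `p ^ m` (up to a fixed integer `c` prime to `p`). -/
def HeckeReciprocity (N : ℕ) [NeZero N] (S : Set ℕ) (p q : ℕ) : Prop :=
  ∃ c : ℕ, ¬ p ∣ c ∧ ∀ m : ℕ,
    ∃ (L : IntermediateField ℚ (AlgebraicClosure ℚ)) (B : Finset ℕ), FiniteDimensional ℚ L ∧
      ∀ (ℓ ℓ' : ℕ) (hℓ : ℓ.Prime) (hℓN : ¬ ℓ ∣ N) (hℓS : ℓ ∉ S)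
        (hℓ' : ℓ'.Prime) (hℓ'N : ¬ ℓ' ∣ N) (hℓ'S : ℓ' ∉ S), ℓ ∉ B → ℓ' ∉ B →
        ∀ (A A' : ValuationSubring (AlgebraicClosure ℚ)) (s s' : Gal) (a b : ℕ),
          A.LiesOverPrime ℓ → A.IsFrobeniusAt s ℓ → A'.LiesOverPrime ℓ' → A'.IsFrobeniusAt s' ℓ' →
          ∀ P : ValuationSubring (AlgebraicClosure ℚ), P.LiesOverPrime q →
            ∀ τ ∈ P.inertiaSubgroupIn ℚ, (∀ x ∈ L, (s' ^ b) x = τ ((s ^ a) x)) →
            ∃ w : CuspForm.heckeAlgebra N 2 S,
              (c : CuspForm.heckeAlgebra N 2 S) *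
                (dick (CuspForm.heckeAlgebra.T hℓ hℓN hℓS) (ℓ : CuspForm.heckeAlgebra N 2 S) a -
                  dick (CuspForm.heckeAlgebra.T hℓ' hℓ'N hℓ'S)
                    (ℓ' : CuspForm.heckeAlgebra N 2 S) b) =
              (p : CuspForm.heckeAlgebra N 2 S) ^ m * w

section Main

variable {p : ℕ} {N : ℕ} [NeZero N] {S : Finset ℕ}
  {𝒪 : Type} [CommRing 𝒪] [IsDomain 𝒪] [IsDiscreteValuationRing 𝒪]
  [IsAdicComplete (IsLocalRing.maximalIdeal 𝒪) 𝒪]
  {θ : CuspForm.heckeAlgebra N 2 (↑S : Set ℕ) →+* IsLocalRing.ResidueField 𝒪}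
  {T : Type} [CommRing T] [IsLocalRing T] [IsNoetherianRing T]
  [IsAdicComplete (IsLocalRing.maximalIdeal T) T] [Algebra 𝒪 T] [IsLocalHom (algebraMap 𝒪 T)]
  [Module.Finite 𝒪 T] [Module.Free 𝒪 T]

omit [IsNoetherianRing T] [IsAdicComplete (IsLocalRing.maximalIdeal T) T] [Module.Finite 𝒪 T]
  [Module.Free 𝒪 T] [IsDomain 𝒪] [IsDiscreteValuationRing 𝒪]
  [IsAdicComplete (IsLocalRing.maximalIdeal 𝒪) 𝒪] in
/-- `p` lies in the maximal ideal of `T`. -/
theorem natCast_mem_maximalIdeal [IsLocalRing 𝒪] (hp𝒪 : (p : 𝒪) ∈ IsLocalRing.maximalIdeal 𝒪) :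
    (p : T) ∈ IsLocalRing.maximalIdeal T := by
  rw [IsLocalRing.mem_maximalIdeal, mem_nonunits_iff] at hp𝒪 ⊢
  intro hu
  apply hp𝒪
  have : IsUnit (algebraMap 𝒪 T (p : 𝒪)) := by rwa [map_natCast]
  exact isUnit_of_map_unit (algebraMap 𝒪 T) _ this

/-- The trace of a power of a Frobenius lift is a Dickson polynomial in the Hecke operator. -/
theorem trace_frob_pow (H : CuspForm.HeckeGaloisRepDatum N (↑S : Set ℕ) 𝒪 θ T)
    {ℓ : ℕ} (hℓ : ℓ.Prime) (hℓN : ¬ ℓ ∣ N) (hℓS : ℓ ∉ (↑S : Set ℕ))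
    (A : ValuationSubring (AlgebraicClosure ℚ)) (hA : A.LiesOverPrime ℓ) (s : Gal)
    (hs : A.IsFrobeniusAt s ℓ) (a : ℕ) :
    LinearMap.trace T H.ρ.V (H.ρ.ρ (s ^ a)) =
      H.π (dick (CuspForm.heckeAlgebra.T hℓ hℓN hℓS)
        (ℓ : CuspForm.heckeAlgebra N 2 (↑S : Set ℕ)) a) := by
  obtain ⟨h1, h2⟩ := trace_det_of_charpoly H.ρ.finrank_eq (H.ρ.ρ s) _ _
    (H.charpoly_frob ℓ hℓ hℓN hℓS A hA s hs)
  rw [map_pow, trace_pow_eq_dick H.ρ.finrank_eq, h1, h2, map_dick, map_natCast]

/-- **S31 from generator-Chebotarev and Hecke reciprocity.** -/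
theorem result_of (hCheb : GenCheb) (hp : p.Prime)
    (hp𝒪 : (p : 𝒪) ∈ IsLocalRing.maximalIdeal 𝒪) (hpS : p ∈ S)
    (hNS : ∀ q : ℕ, q.Prime → q ∣ N → q ∈ S)
    (H : CuspForm.HeckeGaloisRepDatum N (↑S : Set ℕ) 𝒪 θ T)
    (q : ℕ) (hq : q.Prime) (hqS : q ∉ S)
    (hR : HeckeReciprocity N (↑S : Set ℕ) p q) :
    H.ρ.IsUnramifiedAt q := by
  intro P hP τ hτ
  obtain ⟨c, hc, hR⟩ := hR
  have hpT : (p : T) ∈ IsLocalRing.maximalIdeal T := natCast_mem_maximalIdeal hp𝒪
  -- `c` is a unit of `T`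
  have hcT : IsUnit (c : T) := by
    have hcop : IsCoprime (c : ℤ) (p : ℤ) :=
      (Nat.isCoprime_iff_coprime.mpr ((Nat.Prime.coprime_iff_not_dvd hp).mpr hc)).symm
    obtain ⟨u, v, huv⟩ := hcop
    by_contra hcu
    have hcm : (c : T) ∈ IsLocalRing.maximalIdeal T := by
      rwa [IsLocalRing.mem_maximalIdeal, mem_nonunits_iff]
    have h1 : ((u * c + v * p : ℤ) : T) ∈ IsLocalRing.maximalIdeal T := by
      push_cast
      exact Ideal.add_mem _ (Ideal.mul_mem_left _ _ hcm) (Ideal.mul_mem_left _ _ hpT)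
    rw [huv, Int.cast_one] at h1
    exact (Ideal.ne_top_iff_one _).mp (IsLocalRing.maximalIdeal.isMaximal T).ne_top h1
  apply eq_one_of_trace_mul H.ρ H.residual_absIrr τ
  intro g
  -- it suffices to prove the congruence modulo every power of the maximal ideal
  rw [← sub_eq_zero]
  apply IsHausdorff.haus (IsAdicComplete.toIsHausdorff (I := IsLocalRing.maximalIdeal T) (M := T))
  intro n
  rw [SModEq.zero, smul_eq_mul, Ideal.mul_top]
  obtain ⟨Ln, hLnfin, hLn⟩ := H.ρ.isAdicContinuous n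
  obtain ⟨L, B, hLfin, hrec⟩ := hR n
  have hKfin : FiniteDimensional ℚ (Ln ⊔ L : IntermediateField ℚ (AlgebraicClosure ℚ)) :=
    IntermediateField.finiteDimensional_sup Ln L
  obtain ⟨ℓ, A, s, a, hℓ, hℓB, hA, hs, hsa⟩ := hCheb (Ln ⊔ L) hKfin g (B ∪ S)
  obtain ⟨ℓ', A', s', b, hℓ', hℓ'B, hA', hs', hsb⟩ := hCheb (Ln ⊔ L) hKfin (τ * g) (B ∪ S)
  have hℓS : ℓ ∉ (↑S : Set ℕ) := fun h => hℓB (Finset.mem_union_right _ h)
  have hℓ'S : ℓ' ∉ (↑S : Set ℕ) := fun h => hℓ'B (Finset.mem_union_right _ h)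
  have hℓN : ¬ ℓ ∣ N := fun h => hℓS (hNS ℓ hℓ h)
  have hℓ'N : ¬ ℓ' ∣ N := fun h => hℓ'S (hNS ℓ' hℓ' h)
  have hℓB' : ℓ ∉ B := fun h => hℓB (Finset.mem_union_left _ h)
  have hℓ'B' : ℓ' ∉ B := fun h => hℓ'B (Finset.mem_union_left _ h)
  -- the reciprocity congruence
  obtain ⟨w, hw⟩ := hrec ℓ ℓ' hℓ hℓN hℓS hℓ' hℓ'N hℓ'S hℓB' hℓ'B' A A' s s' a b hA hs hA' hs'
    P hP τ hτ (fun x hx => by
      rw [hsb x (le_sup_right (a := Ln) hx), hsa x (le_sup_right (a := Ln) hx)]
      rfl)
  have hw' := congrArg H.π hw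
  rw [map_mul, map_natCast, map_mul, map_pow, map_natCast, map_sub] at hw'
  have hmem : H.π (dick (CuspForm.heckeAlgebra.T hℓ hℓN hℓS)
      (ℓ : CuspForm.heckeAlgebra N 2 (↑S : Set ℕ)) a) -
      H.π (dick (CuspForm.heckeAlgebra.T hℓ' hℓ'N hℓ'S)
        (ℓ' : CuspForm.heckeAlgebra N 2 (↑S : Set ℕ)) b) ∈ IsLocalRing.maximalIdeal T ^ n := by
    have h1 : (c : T) * (H.π (dick (CuspForm.heckeAlgebra.T hℓ hℓN hℓS)
        (ℓ : CuspForm.heckeAlgebra N 2 (↑S : Set ℕ)) a) -
        H.π (dick (CuspForm.heckeAlgebra.T hℓ' hℓ'N hℓ'S)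
          (ℓ' : CuspForm.heckeAlgebra N 2 (↑S : Set ℕ)) b)) ∈ IsLocalRing.maximalIdeal T ^ n := by
      rw [hw']
      exact Ideal.mul_mem_right _ _ (Ideal.pow_mem_pow hpT n)
    obtain ⟨u, hu⟩ := hcT
    have h2 := Ideal.mul_mem_left _ (↑u⁻¹ : T) h1
    rwa [← hu, ← mul_assoc, Units.inv_mul, one_mul] at h2
  -- traces of `g`, `τ g` versus traces of the Frobenius powers
  have hg := sub_trace_mem_of_agree H.ρ n Ln hLn (s ^ a) g
    (fun x hx => hsa x (le_sup_left (b := L) hx))
  have hτg := sub_trace_mem_of_agree H.ρ n Ln hLn (s' ^ b) (τ * g)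
    (fun x hx => hsb x (le_sup_left (b := L) hx))
  rw [trace_frob_pow H hℓ hℓN hℓS A hA s hs a] at hg
  rw [trace_frob_pow H hℓ' hℓ'N hℓ'S A' hA' s' hs' b] at hτg
  have hfin := Ideal.sub_mem _ (Ideal.sub_mem _ hτg hg) hmem
  convert hfin using 1
  ring

end Main

end Fermat.Agent.S31.helper8458
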