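import Fermat.Agent.Lib.helper74_GenChebQbar
import Fermat.Agent.S31.helper8458_TraceKernel
import Fermat.Agent.S31.helper8024_Core

/-!
# S31: the generator-Chebotarev inputs, unconditional (helper74)

`genCheb_8458 : helper8458.GenCheb` and `genCheb_8024 : helper8024.GenCheb`, from the landed
number-field core `Lib/helper74_GenChebCore` (Frobenius density theorem in existence form)
through `Lib/helper74_GenChebQbar`.
-/

set_option autoImplicit false

namespace Fermat.Agent.S31.helper74

/-- **`GenCheb` of `helper8458_TraceKernel`**, unconditionally. -/
theorem genCheb_8458 : Fermat.Agent.S31.helper8458.GenCheb := by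
  intro K hK σ B
  have : FiniteDimensional ℚ K := hK
  exact Fermat.Agent.Lib.helper74.exists_frobenius_pow_eq K σ B

/-- **`GenCheb` of `helper8024_Core`**, unconditionally. -/
theorem genCheb_8024 : Fermat.Agent.S31.helper8024.GenCheb := by
  intro L hL S g
  have : FiniteDimensional ℚ L := hL
  exact Fermat.Agent.Lib.helper74.exists_frobenius_pow_eq L g S

end Fermat.Agent.S31.helper74
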