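/-
S31-GLUE, concrete half (helper5307, captain S31): the frozen statement S31 from the machine
facts on `JZero N`.

Everything else is discharged INSIDE this file from landed modules:
* generator-Chebotarev            `Fermat.Agent.S31.helper74.genCheb_8024`
* finite level of points          `Fermat.Agent.S29.helper8527.exists_finiteLevel_point`
* Hecke lattice hom (K6)          `Fermat.Agent.S31.helper6356.heckeLatticeHom` (+ injectivity)
* Hecke inputs                    `Fermat.Agent.S37.helper8426.heckeInputsAlong`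
* top                             `Fermat.Agent.S31.helper8024.isUnramifiedAt_of_latticeKill`

REMAINING INPUTS (the only open facts of S31):
* `Stmt_Unr N p`, `Stmt_Frob N p` : inertia at `ℓ ∤ N p` is trivial, and
  `σ² - T_ℓ σ + ℓ = 0` for Frobenius lifts `σ` at `ℓ ∤ N p`, on the `p`-power torsion of
  `JZero N` (operator-wise; `T_ℓ = heckeOperatorBar N ℓ`).  Both follow from the S37 back-end
  `Fermat.Agent.S37.helper8353.Stmt_CoreHom N p` (`result_of_coreHom`).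
* `Stmt_K5 N p` : for every `m` a Hecke-equivariant additive map from the lattice of integral
  parabolic homs to `JZero N [p^m]` with kernel `p^m Λ`.  It follows from the analytic Kummer
  dictionary at modulus `p^m`, `Stmt_Mult N p` (`helper2756.MultSpec N (p^m)`).
-/
import Fermat.Agent.S31.helper5307_Glue
import Fermat.Agent.S31.helper6356_LatticeHom
import Fermat.Agent.S31.helper2756_K5JZero
import Fermat.Agent.S31.helper74_GenCheb
import Fermat.Agent.S29.helper8527_FiniteLevel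
import Fermat.Agent.S29.helper7959_CoreHom
import Fermat.Agent.S37.helper8426_HeckeInputs

set_option autoImplicit false

namespace Fermat.Agent.S31.helper5307

open CuspForm ModularCurve AlgebraicCurve CongruenceSubgroup
open scoped MatrixGroups

local notation "Qb" => AlgebraicClosure ℚ
local notation "GQ" => (AlgebraicClosure ℚ ≃ₐ[ℚ] AlgebraicClosure ℚ)

/-- The lattice of integral parabolic homs of `Γ₀(N)`. -/
abbrev LamZ (N : ℕ) : Type := ↥(Period.parabolicHoms ℤ (Gamma0 N) ℤ)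

/-- **(UN)** inertia at primes `ℓ ∤ N p` acts trivially on the `p`-power torsion of `JZero N`
(the shape of `hUN` in `Fermat.Agent.S29.helper405.eig_of_operatorwise`). -/
def Stmt_Unr (N p : ℕ) [NeZero N] : Prop :=
  ∀ ℓ : ℕ, ℓ.Prime → ¬ ℓ ∣ N * p →
    ∀ A : ValuationSubring Qb, A.LiesOverPrime ℓ →
      ∀ σ ∈ A.inertiaSubgroupIn ℚ, ∀ x : JZero N, (∃ k : ℕ, p ^ k • x = 0) → σ • x = x

/-- **(FQ)** the Eichler–Shimura relation `σ² - T_ℓ σ + ℓ = 0` on the `p`-power torsion of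
`JZero N`, for every Frobenius lift `σ` at a prime `ℓ ∤ N p` (the shape of `hFQ` in
`Fermat.Agent.S29.helper405.eig_of_operatorwise`). -/
def Stmt_Frob (N p : ℕ) [NeZero N] : Prop :=
  ∀ ℓ : ℕ, (hℓ : ℓ.Prime) → ¬ ℓ ∣ N * p →
    ∀ A : ValuationSubring Qb, A.LiesOverPrime ℓ →
      ∀ σ : GQ, A.IsFrobeniusAt σ ℓ → ∀ x : JZero N, (∃ k : ℕ, p ^ k • x = 0) →
        σ • σ • x - heckeOperatorBar N ⟨ℓ, hℓ⟩ (σ • x) + ℓ • x = 0

/-- **(K5)** for every `m` a Hecke-equivariant additive map `Λ → JZero N [p^m]` with kernel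
inside `p^m Λ` (the conclusion of `Fermat.Agent.S31.helper2756.exists_k5` at `n = p^m`, with
the Hecke inputs discharged). -/
def Stmt_K5 (N p : ℕ) [NeZero N] : Prop :=
  ∀ m : ℕ, ∃ ι : LamZ N →+ JZero N,
    (∀ ψ, p ^ m • ι ψ = 0) ∧
    (∀ ψ, ι ψ = 0 → ∃ φ : LamZ N, ψ = (p ^ m) • φ) ∧
    (∀ (ℓ : ℕ) (hℓ : ℓ.Prime) (hℓN : ¬ ℓ ∣ N) (ψ ψ' : LamZ N),
      (ψ' : Additive (Gamma0 N) →+ ℤ) =
        (haveI : Fact ℓ.Prime := ⟨hℓ⟩;
          Fermat.Agent.S16.helper2138.heckeHomT N ℓ hℓN ℤ (ψ : Additive (Gamma0 N) →+ ℤ)) →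
      ι ψ' = heckeOperatorBar N ⟨ℓ, hℓ⟩ (ι ψ))

/-- **(MULT)** the analytic Kummer dictionary at every modulus `p^m`
(`Fermat.Agent.S31.helper2756.MultSpec`: TH2–TH5 of the S29 analytic block at `n = p^m`). -/
def Stmt_Mult (N p : ℕ) [NeZero N] : Prop :=
  ∀ m : ℕ, ∃ Mult : modularFunctionFieldBar N → (Additive (Gamma0 N) →+ ℤ) → Prop,
    Fermat.Agent.S31.helper2756.MultSpec N (p ^ m) Mult

/-- (MULT) ⟹ (K5). -/
theorem stmt_K5_of_mult {N p : ℕ} [NeZero N] (hp : p ≠ 0) (h : Stmt_Mult N p) : Stmt_K5 N p := by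
  intro m
  obtain ⟨Mult, hM⟩ := h m
  obtain ⟨ι, h1, h2, h3⟩ := Fermat.Agent.S31.helper2756.exists_k5 (pow_ne_zero m hp) hM
  refine ⟨ι, h1, fun ψ hψ => (h2 ψ).mp hψ, fun ℓ hℓ hℓN ψ ψ' hψ' => ?_⟩
  haveI : NeZero ℓ := ⟨hℓ.ne_zero⟩
  exact h3 ℓ hℓ hℓN (Fermat.Agent.S37.helper8426.heckeInputsAlong N ℓ) ψ ψ' hψ'

/-- The S37 back-end ⟹ (UN). -/
theorem stmt_Unr_of_coreHom {N p : ℕ} [NeZero N]
    (h : Fermat.Agent.S37.helper8353.Stmt_CoreHom N p) : Stmt_Unr N p :=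
  fun _ hℓ hℓNp _ hA _ hσ _ hx =>
    Fermat.Agent.S29.helper7959.inertia_smul_eq_of_coreHom h hℓ hℓNp hA hσ hx

/-- The S37 back-end ⟹ (FQ). -/
theorem stmt_Frob_of_coreHom {N p : ℕ} [NeZero N]
    (h : Fermat.Agent.S37.helper8353.Stmt_CoreHom N p) : Stmt_Frob N p :=
  fun _ hℓ hℓNp _ hA _ hσ _ hx =>
    Fermat.Agent.S29.helper7959.es_of_coreHom h hℓ hℓNp hA hσ hx

section Main

variable {p : ℕ} {N : ℕ} [NeZero N] {S : Finset ℕ}
  {𝒪 : Type} [CommRing 𝒪] [IsDomain 𝒪] [IsDiscreteValuationRing 𝒪]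
  [IsAdicComplete (IsLocalRing.maximalIdeal 𝒪) 𝒪]
  {θ : CuspForm.heckeAlgebra N 2 (↑S : Set ℕ) →+* IsLocalRing.ResidueField 𝒪}
  {T : Type} [CommRing T] [IsLocalRing T] [IsNoetherianRing T]
  [IsAdicComplete (IsLocalRing.maximalIdeal T) T] [Algebra 𝒪 T] [IsLocalHom (algebraMap 𝒪 T)]
  [Module.Finite 𝒪 T] [Module.Free 𝒪 T]

/-- **S31 from (UN), (FQ), (K5).** -/
theorem result_of_k5 (hUN : Stmt_Unr N p) (hFQ : Stmt_Frob N p) (hK5 : Stmt_K5 N p)
    (hp : p.Prime) (hp𝒪 : (p : 𝒪) ∈ IsLocalRing.maximalIdeal 𝒪) (hpS : p ∈ S)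
    (hNS : ∀ q : ℕ, q.Prime → q ∣ N → q ∈ S)
    (H : CuspForm.HeckeGaloisRepDatum N (↑S : Set ℕ) 𝒪 θ T)
    (q : ℕ) (hq : q.Prime) (hqS : q ∉ S) :
    H.ρ.IsUnramifiedAt q := by
  have hqN : ¬ q ∣ N := fun h => hqS (hNS q hq h)
  refine Fermat.Agent.S31.helper8024.isUnramifiedAt_of_latticeKill hp hp𝒪
    Fermat.Agent.S31.helper74.genCheb_8024 H q
    (Fermat.Agent.S31.helper6356.heckeLatticeHom N (↑S : Set ℕ))
    (Fermat.Agent.S31.helper6356.heckeLatticeHom_injective N (↑S : Set ℕ)) ?_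
  intro P hP τ hτ
  refine latticeKill_of_machine hp hq hpS hqS hqN (heckeOperatorBar N)
    (Fermat.Agent.S29.helper8527.exists_finiteLevel_point N) hUN hFQ
    (Fermat.Agent.S31.helper6356.heckeLatticeHom N (↑S : Set ℕ)) ?_ P hP τ hτ
  intro m
  obtain ⟨ι, h1, h2, h3⟩ := hK5 m
  refine ⟨ι, h1, fun ℓ hℓ hℓN hℓS v => ?_, fun v hv => ?_⟩
  · exact h3 ℓ hℓ hℓN v _
      (Fermat.Agent.S31.helper6356.coe_heckeLatticeHom_T N (↑S : Set ℕ) hℓ hℓN hℓS v)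
  · obtain ⟨φ, hφ⟩ := h2 v hv
    refine ⟨φ, ?_⟩
    rw [hφ, ← natCast_zsmul, Nat.cast_pow]

/-- **S31 from (UN), (FQ) and the analytic Kummer dictionary at `p^m`.** -/
theorem result_of_machine (hUN : Stmt_Unr N p) (hFQ : Stmt_Frob N p) (hMult : Stmt_Mult N p)
    (hp : p.Prime) (hp𝒪 : (p : 𝒪) ∈ IsLocalRing.maximalIdeal 𝒪) (hpS : p ∈ S)
    (hNS : ∀ q : ℕ, q.Prime → q ∣ N → q ∈ S)
    (H : CuspForm.HeckeGaloisRepDatum N (↑S : Set ℕ) 𝒪 θ T)
    (q : ℕ) (hq : q.Prime) (hqS : q ∉ S) :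
    H.ρ.IsUnramifiedAt q :=
  result_of_k5 hUN hFQ (stmt_K5_of_mult hp.ne_zero hMult) hp hp𝒪 hpS hNS H q hq hqS

/-- **S31 from the S37 back-end and the analytic Kummer dictionary at `p^m`.** -/
theorem result_of_coreHom (hCore : Fermat.Agent.S37.helper8353.Stmt_CoreHom N p)
    (hMult : Stmt_Mult N p)
    (hp : p.Prime) (hp𝒪 : (p : 𝒪) ∈ IsLocalRing.maximalIdeal 𝒪) (hpS : p ∈ S)
    (hNS : ∀ q : ℕ, q.Prime → q ∣ N → q ∈ S)
    (H : CuspForm.HeckeGaloisRepDatum N (↑S : Set ℕ) 𝒪 θ T)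
    (q : ℕ) (hq : q.Prime) (hqS : q ∉ S) :
    H.ρ.IsUnramifiedAt q :=
  result_of_machine (stmt_Unr_of_coreHom hCore) (stmt_Frob_of_coreHom hCore) hMult
    hp hp𝒪 hpS hNS H q hq hqS

end Main

end Fermat.Agent.S31.helper5307
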