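import Fermat.Agent.S31.helper2756_K5JZero
import Fermat.Agent.S29.helper288_FinTorsion
import Fermat.Agent.S29.helper2122_MerBridge
import Fermat.Agent.S29.helper2982_MultHeckeMer
import Fermat.Agent.S29.helper36_FunctionFieldL
import Fermat.Agent.S29.helper2122_SurjAsm
import Fermat.Agent.S29.helper1832_NormForms
import Fermat.Agent.S29.helper6324_AnDiv
import Fermat.Agent.S29.helper288_RatioInFC
import Fermat.Agent.S29.helper3932_DescC
import Fermat.Agent.S37.helper5162_HeckeInputsModular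

/-!
# S31 (g3): the concrete multiplier relation `MultMer` and `MultSpecW N n (MultMer N n ζ)`

`MultMer N n ζ u ψ` : the function `u ∈ F_N = ℚ̄(X₀(N))` has a meromorphic `n`-th root `W` on `ℍ`
(in the landed field `S24.helper580.Mer`, through the landed evaluation `S29.helper288.evMer`)
whose multiplier under `Γ₀(N)` is `γ ↦ ζ ^ ψ γ`:

    W ^ n = evMer N u   and   pull γ W = (ζ ^ ψ γ) • W   for all γ ∈ Γ₀(N).

For every modulus `n ≠ 0` and every primitive `n`-th root of unity `ζ : ℂˣ` the four algebraic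
fields `mul`, `inv`, `one`, `triv` of `MultSpecW` are proved here unconditionally; `hecke` (TH5ₙ)
is reduced to the analytic norm formula in `Mer` form (`NormMer`, = NORMQ (A)); `surj` (TH4ₙ) is
the field verbatim.  Hence `multSpecW_multMer : TH4ₙ → NORMQ → MultSpecW N n (MultMer N n ζ)`.
-/

set_option autoImplicit false

namespace Fermat.Agent.S31.helper2756

open ModularCurve AlgebraicCurve CongruenceSubgroup UpperHalfPlane
open Fermat.Agent.S24 Fermat.Agent.S24.helper24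
open Fermat.Agent.S29.helper8217 Fermat.Agent.S16.helper2138
open scoped MatrixGroups

section Concrete

variable (N n : ℕ) (ζ : ℂˣ)

/-- **The concrete multiplier relation.**  `u` has a meromorphic `n`-th root on `ℍ` with
multiplier `γ ↦ ζ ^ ψ γ` under `Γ₀(N)`. -/
def MultMer (u : FN N) (ψ : Additive (Gamma0 N) →+ ℤ) : Prop :=
  ∃ W : helper580.Mer, W ^ n = Fermat.Agent.S29.helper288.evMer N u ∧
    ∀ γ : Gamma0 N, helper580.pull (γ : SL(2, ℤ)) W
      = algebraMap ℂ helper580.Mer (((ζ ^ ψ (Additive.ofMul γ) : ℂˣ) : ℂ)) * W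

variable {N n ζ}

theorem multMer_one : MultMer N n ζ 1 0 :=
  ⟨1, by rw [one_pow, map_one], fun γ => by
    rw [map_one, AddMonoidHom.zero_apply, zpow_zero, Units.val_one, map_one, one_mul]⟩

theorem MultMer.mul {u u' : FN N} {ψ ψ' : Additive (Gamma0 N) →+ ℤ}
    (h : MultMer N n ζ u ψ) (h' : MultMer N n ζ u' ψ') : MultMer N n ζ (u * u') (ψ + ψ') := by
  obtain ⟨W, hW, hγ⟩ := h
  obtain ⟨W', hW', hγ'⟩ := h'
  refine ⟨W * W', by rw [mul_pow, hW, hW', map_mul], fun γ => ?_⟩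
  rw [map_mul, hγ γ, hγ' γ, AddMonoidHom.add_apply, zpow_add, Units.val_mul, map_mul]
  ring

theorem MultMer.inv {u : FN N} {ψ : Additive (Gamma0 N) →+ ℤ}
    (h : MultMer N n ζ u ψ) : MultMer N n ζ u⁻¹ (-ψ) := by
  obtain ⟨W, hW, hγ⟩ := h
  refine ⟨W⁻¹, by rw [inv_pow, hW, map_inv₀], fun γ => ?_⟩
  rw [map_inv₀, hγ γ, AddMonoidHom.neg_apply, zpow_neg, Units.val_inv_eq_inv_val, map_inv₀,
    mul_inv]

/-- A function with a *constant times `n`-th power* shape has trivial multiplier. -/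
theorem MultMer.dvd_of_eq_mul_pow [NeZero N] (hn : n ≠ 0) (hζ : IsPrimitiveRoot ζ n)
    {w c : FN N} {ψ : Additive (Gamma0 N) →+ ℤ} (hw : w ≠ 0) (hc : c ≠ 0)
    (hcv : ∀ v : Place Kbar (FN N), v.ord c = 0)
    (h : MultMer N n ζ (c * w ^ n) ψ) (γ : Additive (Gamma0 N)) : (n : ℤ) ∣ ψ γ := by
  obtain ⟨W, hW, hγ⟩ := h
  obtain ⟨a, rfl⟩ := Fermat.Agent.S29.helper36.exists_algebraMap_eq_of_ord_eq_zero Kbar N hcv
  have ha : a ≠ 0 := by
    rintro rfl
    exact hc (map_zero _)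
  obtain ⟨d, hd⟩ := IsAlgClosed.exists_pow_nat_eq a (Nat.pos_of_ne_zero hn)
  have hd0 : d ≠ 0 := by
    rintro rfl
    rw [zero_pow hn] at hd
    exact ha hd.symm
  set t : FN N := algebraMap Kbar (FN N) d * w with ht
  have ht0 : t ≠ 0 := mul_ne_zero ((map_ne_zero _).mpr hd0) hw
  have hu : algebraMap Kbar (FN N) a * w ^ n = t ^ n := by
    rw [ht, mul_pow, ← map_pow, hd]
  have htm : Fermat.Agent.S29.helper288.evMer N t ≠ 0 :=
    (map_ne_zero (Fermat.Agent.S29.helper288.evMer N)).mpr ht0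
  have hpow : W ^ n = Fermat.Agent.S29.helper288.evMer N t ^ n := by
    rw [hW, hu, map_pow]
  obtain ⟨ζ', -, hWζ⟩ := Fermat.Agent.S29.helper2122.exists_const_mul_of_pow_eq
    (Nat.pos_of_ne_zero hn) htm hpow
  have hW0 : W ≠ 0 := by
    rintro rfl
    rw [zero_pow hn] at hpow
    exact pow_ne_zero n htm hpow.symm
  obtain ⟨g, rfl⟩ : ∃ g : Gamma0 N, Additive.ofMul g = γ := ⟨Additive.toMul γ, rfl⟩
  have hinv : helper580.pull (g : SL(2, ℤ)) W = W := by
    rw [hWζ, map_mul, AlgEquiv.commutes,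
      Fermat.Agent.S29.helper288.pull_evMer N (g : SL(2, ℤ)) g.2 t]
  have h1 := hγ g
  rw [hinv] at h1
  have h2 : algebraMap ℂ helper580.Mer (((ζ ^ ψ (Additive.ofMul g) : ℂˣ) : ℂ)) = 1 := by
    have h3 : (algebraMap ℂ helper580.Mer (((ζ ^ ψ (Additive.ofMul g) : ℂˣ) : ℂ)) - 1) * W = 0 := by
      rw [sub_mul, one_mul, ← h1, sub_self]
    rcases mul_eq_zero.mp h3 with h4 | h4
    · exact sub_eq_zero.mp h4
    · exact absurd h4 hW0
  have h5 : (((ζ ^ ψ (Additive.ofMul g) : ℂˣ) : ℂ)) = 1 := by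
    apply (algebraMap ℂ helper580.Mer).injective
    rw [h2, map_one]
  have h6 : ζ ^ ψ (Additive.ofMul g) = 1 := Units.ext h5
  exact (hζ.zpow_eq_one_iff_dvd _).mp h6

end Concrete

section Hecke

variable (N n : ℕ) [NeZero N] (ζ : ℂˣ)

/-- **(NORMQ, `Mer` form)** the analytic norm formula for `T_ℓ`: the evaluation of
`heckeFun N ℓ u = Norm_{F_{Nℓ}/F_N} (u(q^ℓ))` is the coset product
`z ↦ ev u (ℓ z) · ∏_{j mod ℓ} ev u ((z + j)/ℓ)` of the evaluation of `u`. -/
def NormMer (ℓ : ℕ) [Fact ℓ.Prime] [NeZero ℓ] (hℓN : ¬ ℓ ∣ N) (u : FN N) : Prop :=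
  Fermat.Agent.S29.helper2122.merEquiv.symm
      (Fermat.Agent.S29.helper288.evMer N (heckeFun (L := Kbar) N ℓ u))
    = Fermat.Agent.S29.helper2982.cpMerT N ℓ hℓN
        (Fermat.Agent.S29.helper2122.merEquiv.symm (Fermat.Agent.S29.helper288.evMer N u))

variable {N n ζ}

/-- **(TH5ₙ) from the analytic norm formula.** -/
theorem MultMer.hecke (ℓ : ℕ) [Fact ℓ.Prime] [NeZero ℓ] (hℓN : ¬ ℓ ∣ N)
    {u : FN N} {ψ : Additive (Gamma0 N) →+ ℤ} (hNorm : NormMer N ℓ hℓN u)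
    (h : MultMer N n ζ u ψ) :
    MultMer N n ζ (heckeFun (L := Kbar) N ℓ u) (heckeHomT N ℓ hℓN ℤ ψ) := by
  obtain ⟨W, hW, hγ⟩ := h
  set e := Fermat.Agent.S29.helper2122.merEquiv with he
  have hχ : ∀ γ : Gamma0 N, helper182.pullMer (γ : SL(2, ℤ)) (e.symm W)
      = Fermat.Agent.S29.helper3343.constM
          (((Fermat.Agent.S29.helper2982.zpowChar ζ ψ γ : ℂˣ)) : ℂ) * e.symm W := by
    intro γ
    rw [← Fermat.Agent.S29.helper2122.merEquiv_symm_pull, hγ γ, map_mul,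
      Fermat.Agent.S29.helper2122.merEquiv_symm_algebraMap_complex]
    rfl
  have hpow : e.symm W ^ n = e.symm (Fermat.Agent.S29.helper288.evMer N u) := by
    rw [← map_pow, hW]
  have hT := Fermat.Agent.S29.helper2982.pullMer_cpMerT N ℓ hℓN hχ
  rw [Fermat.Agent.S29.helper2982.transferT_zpowChar] at hT
  refine ⟨e (Fermat.Agent.S29.helper2982.cpMerT N ℓ hℓN (e.symm W)), ?_, fun γ => ?_⟩
  · rw [← map_pow, ← map_pow, hpow, ← hNorm, RingEquiv.apply_symm_apply]
  · rw [← Fermat.Agent.S29.helper2122.merEquiv_pullMer, hT γ, map_mul,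
      Fermat.Agent.S29.helper2122.merEquiv_constM]
    rfl

/-- **(g3)** `MultSpecW N n (MultMer N n ζ)` for every modulus `n ≠ 0` and every primitive `n`-th
root of unity `ζ`, from (TH4ₙ) (`surj`, verbatim) and the analytic norm formula (NORMQ). -/
theorem multSpecW_multMer
    [HasPrincipalDivisors (AlgebraicClosure ℚ) (modularFunctionFieldBar N)] (hn : n ≠ 0)
    (hζ : IsPrimitiveRoot ζ n)
    (hTH4 : ∀ ψ ∈ Period.parabolicHoms ℤ (Gamma0 N) ℤ,
      ∃ u : FN N, IsKummer Kbar n u ∧ MultMer N n ζ u ψ)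
    (hNorm : ∀ (ℓ : ℕ) [Fact ℓ.Prime] [NeZero ℓ] (hℓN : ¬ ℓ ∣ N) (u : FN N),
      IsKummer Kbar n u → NormMer N ℓ hℓN u) :
    MultSpecW N n (MultMer N n ζ) :=
  MultSpecW.of_fun hn hTH4 (fun _ _ h h' => h.mul h') (fun _ h => h.inv) multMer_one
    (fun hw hc hcv h => h.dvd_of_eq_mul_pow hn hζ hw hc hcv)
    (fun ℓ _ _ hℓN _ _ hu h => h.hecke ℓ hℓN (hNorm ℓ hℓN _ hu))

end Hecke

section Adapters

open scoped Manifold

variable {N n : ℕ} {ζ : ℂˣ}

/-- **Pair form ⟹ `MultMer`.**  A pair `(A, B)` of holomorphic functions on `ℍ` with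
`A ^ n * ev b = B ^ n * ev a` and `A(γτ) B(τ) = ζ ^ ψ γ * A(τ) B(γτ)` realises the multiplier
`ζ ^ ψ` on `u = a / b` (root `W = A / B`).  `hroot` is verbatim the `hroot` of the landed
`helper1736.dvd_ord_finite_ev` / `helper3126.exists_pow_eq_of_pair`. -/
theorem multMer_of_pair (a b : helper3176.AN N) (hb : (b : FN N) ≠ 0)
    {ψ : Additive (Gamma0 N) →+ ℤ} (A B : ℍ → ℂ)
    (hA : MDifferentiable 𝓘(ℂ) 𝓘(ℂ) A) (hB : MDifferentiable 𝓘(ℂ) 𝓘(ℂ) B) (hB0 : B ≠ 0)
    (hroot : ∀ τ : ℍ, A τ ^ n * helper6180.ev N b τ = B τ ^ n * helper6180.ev N a τ)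
    (hmult : ∀ (γ : Gamma0 N) (τ : ℍ), A ((γ : SL(2, ℤ)) • τ) * B τ
        = ((ζ ^ ψ (Additive.ofMul γ) : ℂˣ) : ℂ) * (A τ * B ((γ : SL(2, ℤ)) • τ))) :
    MultMer N n ζ ((a : FN N) / (b : FN N)) ψ := by
  set Ah : helper580.Hol := ⟨A, hA⟩ with hAh
  set Bh : helper580.Hol := ⟨B, hB⟩ with hBh
  have hBh0 : Bh ≠ 0 := fun h => hB0 (congrArg Subtype.val h)
  have hinj := IsFractionRing.injective helper580.Hol helper580.Mer
  have hBm : algebraMap helper580.Hol helper580.Mer Bh ≠ 0 :=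
    (map_ne_zero_iff _ hinj).mpr hBh0
  have hbm := Fermat.Agent.S29.helper288.evMer_coe_ne_zero N hb
  refine ⟨algebraMap helper580.Hol helper580.Mer Ah / algebraMap helper580.Hol helper580.Mer Bh,
    ?_, fun γ => ?_⟩
  · rw [map_div₀, div_pow, div_eq_div_iff (pow_ne_zero n hBm) hbm,
      Fermat.Agent.S29.helper288.evMer_coe, Fermat.Agent.S29.helper288.evMer_coe,
      ← map_pow, ← map_pow, ← map_mul, ← map_mul]
    congr 1
    refine helper580.Hol.ext fun τ => ?_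
    show A τ ^ n * helper6180.ev N b τ = helper6180.ev N a τ * B τ ^ n
    rw [hroot τ, mul_comm]
  · have hpB : algebraMap helper580.Hol helper580.Mer (helper580.pullHol (γ : SL(2, ℤ)) Bh) ≠ 0 :=
      (map_ne_zero_iff _ hinj).mpr
        ((map_ne_zero_iff _ (helper580.pullHol (γ : SL(2, ℤ))).injective).mpr hBh0)
    rw [map_div₀, helper580.pull_algebraMap, helper580.pull_algebraMap,
      IsScalarTower.algebraMap_apply ℂ helper580.Hol helper580.Mer, ← mul_div_assoc, ← map_mul,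
      div_eq_div_iff hpB hBm, ← map_mul, ← map_mul]
    congr 1
    refine helper580.Hol.ext fun τ => ?_
    show A ((γ : SL(2, ℤ)) • τ) * B τ
      = ((ζ ^ ψ (Additive.ofMul γ) : ℂˣ) : ℂ) * A τ * B ((γ : SL(2, ℤ)) • τ)
    rw [hmult γ τ, mul_assoc]

/-- **NORMQ (A) ⟹ `NormMer`.**  The analytic norm formula in the cross-multiplied function-level
shape `ev c · CP(ev b) = ev d · CP(ev a)` (`u = a / b`, `heckeFun N ℓ u = c / d`,
`CP = helper2982.tmulT ℓ`). -/
theorem normMer_of_cross [NeZero N] (ℓ : ℕ) [Fact ℓ.Prime] [NeZero ℓ] (hℓN : ¬ ℓ ∣ N)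
    (a b c d : helper3176.AN N) (hb : (b : FN N) ≠ 0) (hd : (d : FN N) ≠ 0)
    (hT : heckeFun (L := Kbar) N ℓ ((a : FN N) / (b : FN N)) = (c : FN N) / (d : FN N))
    (hcross : ∀ z : ℍ, helper6180.ev N c z * Fermat.Agent.S29.helper2982.tmulT ℓ (helper6180.ev N b) z
        = helper6180.ev N d z * Fermat.Agent.S29.helper2982.tmulT ℓ (helper6180.ev N a) z) :
    NormMer N ℓ hℓN ((a : FN N) / (b : FN N)) := by
  have hne : ∀ {x : helper3176.AN N}, (x : FN N) ≠ 0 →
      Fermat.Agent.S29.helper2122.holEquiv.symm (Fermat.Agent.S29.helper288.holA N x) ≠ 0 := by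
    intro x hx h0
    have h1 : Fermat.Agent.S29.helper288.holA N x = 0 := by
      rw [← Fermat.Agent.S29.helper2122.holEquiv.apply_symm_apply
        (Fermat.Agent.S29.helper288.holA N x), h0, map_zero]
    have h2 : Fermat.Agent.S29.helper288.holHom N x = 0 := h1
    have h3 : x = 0 := Fermat.Agent.S29.helper288.holHom_injective N (by rw [h2, map_zero])
    exact hx (by rw [h3]; rfl)
  have key : ∀ x y : helper3176.AN N,
      Fermat.Agent.S29.helper2122.merEquiv.symm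
          (Fermat.Agent.S29.helper288.evMer N ((x : FN N) / (y : FN N)))
        = algebraMap _ _ (Fermat.Agent.S29.helper2122.holEquiv.symm
              (Fermat.Agent.S29.helper288.holA N x))
          / algebraMap _ _ (Fermat.Agent.S29.helper2122.holEquiv.symm
              (Fermat.Agent.S29.helper288.holA N y)) := by
    intro x y
    rw [map_div₀, map_div₀, Fermat.Agent.S29.helper288.evMer_coe,
      Fermat.Agent.S29.helper288.evMer_coe,
      Fermat.Agent.S29.helper2122.merEquiv_symm_algebraMap,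
      Fermat.Agent.S29.helper2122.merEquiv_symm_algebraMap]
  unfold NormMer
  rw [hT, key, key]
  exact (Fermat.Agent.S29.helper2982.cpMerT_eq_of_cross N ℓ hℓN _ _ _ _ (hne hb) (hne hd)
    (fun z => hcross z)).symm

end Adapters

section Canonical

/-- `ζ_n = exp (2πi / n)` as a unit of `ℂ`. -/
noncomputable def zetaU (n : ℕ) : ℂˣ :=
  Units.mk0 (Complex.exp (2 * Real.pi * Complex.I / n)) (Complex.exp_ne_zero _)

theorem coe_zetaU (n : ℕ) : ((zetaU n : ℂˣ) : ℂ) = Complex.exp (2 * Real.pi * Complex.I / n) := rfl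

theorem zetaU_isPrimitiveRoot {n : ℕ} (hn : n ≠ 0) : IsPrimitiveRoot (zetaU n) n :=
  IsPrimitiveRoot.coe_units_iff.mp (Complex.isPrimitiveRoot_exp n hn)

/-- Existential form of (g3), for the consumer `∀ m, ∃ Mult, MultSpecW N (p ^ m) Mult`. -/
theorem exists_multSpecW {N n : ℕ} [NeZero N]
    [HasPrincipalDivisors (AlgebraicClosure ℚ) (modularFunctionFieldBar N)] (hn : n ≠ 0)
    (hTH4 : ∀ ψ ∈ Period.parabolicHoms ℤ (Gamma0 N) ℤ,
      ∃ u : FN N, IsKummer Kbar n u ∧ MultMer N n (zetaU n) u ψ)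
    (hNorm : ∀ (ℓ : ℕ) [Fact ℓ.Prime] [NeZero ℓ] (hℓN : ¬ ℓ ∣ N) (u : FN N),
      IsKummer Kbar n u → NormMer N ℓ hℓN u) :
    ∃ Mult : modularFunctionFieldBar N → (Additive (Gamma0 N) →+ ℤ) → Prop,
      MultSpecW N n Mult :=
  ⟨MultMer N n (zetaU n), multSpecW_multMer hn (zetaU_isPrimitiveRoot hn) hTH4 hNorm⟩

end Canonical

section Strong

variable {N n : ℕ} [NeZero N] {ζ : ℂˣ}

/-- **(TH3ₙ) for `MultMer`** (from the landed `helper288.exists_evMer_eq_of_invariant`): a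
multiplier of the form `ζ ^ (n • φ)` is trivial, so `u` is an `n`-th power in `F_N`. -/
theorem MultMer.exists_eq_pow (hn : n ≠ 0) (hζ : IsPrimitiveRoot ζ n)
    {u : FN N} {φ : Additive (Gamma0 N) →+ ℤ} (hu : u ≠ 0) (h : MultMer N n ζ u (n • φ)) :
    ∃ t : FN N, t ≠ 0 ∧ u = t ^ n := by
  obtain ⟨W, hW, hγ⟩ := h
  have hinv : ∀ γ ∈ Gamma0 N, helper580.pull γ W = W := by
    intro γ hγm
    have h1 := hγ ⟨γ, hγm⟩
    have h2 : ζ ^ (n • φ) (Additive.ofMul (⟨γ, hγm⟩ : Gamma0 N)) = 1 := by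
      rw [AddMonoidHom.smul_apply, nsmul_eq_mul, zpow_mul, zpow_natCast, hζ.pow_eq_one, one_zpow]
    rw [h2, Units.val_one, map_one, one_mul] at h1
    exact h1
  obtain ⟨t, ht⟩ := Fermat.Agent.S29.helper288.exists_evMer_eq_of_invariant N hn W hinv u hW
  have hut : u = t ^ n := by
    apply (Fermat.Agent.S29.helper288.evMer N).injective
    rw [map_pow, ← ht, hW]
  refine ⟨t, ?_, hut⟩
  rintro rfl
  rw [zero_pow hn] at hut
  exact hu hut

/-- **(g3), strong form**: `MultSpec N n (MultMer N n ζ)` (with (TH3ₙ)), from (TH4ₙ) and the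
analytic norm formula.  This is the input of the S29/S30 occurrence hubs
(`∃ Mult, MultSpec N n Mult`). -/
theorem multSpec_multMer
    [HasPrincipalDivisors (AlgebraicClosure ℚ) (modularFunctionFieldBar N)] (hn : n ≠ 0)
    (hζ : IsPrimitiveRoot ζ n)
    (hTH4 : ∀ ψ ∈ Period.parabolicHoms ℤ (Gamma0 N) ℤ,
      ∃ u : FN N, IsKummer Kbar n u ∧ MultMer N n ζ u ψ)
    (hNorm : ∀ (ℓ : ℕ) [Fact ℓ.Prime] [NeZero ℓ] (hℓN : ¬ ℓ ∣ N) (u : FN N),
      IsKummer Kbar n u → NormMer N ℓ hℓN u) :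
    MultSpec N n (MultMer N n ζ) :=
  MultSpec.of_fun hn hTH4 (fun _ _ h h' => h.mul h')
    (fun hu h => by
      obtain ⟨t, ht0, ht⟩ := h.exists_eq_pow hn hζ hu.ne_zero
      exact ⟨t, 1, ht0, one_ne_zero, fun v => v.ord_one, by rw [one_mul, ht]⟩)
    (fun hw hc hcv h => h.dvd_of_eq_mul_pow hn hζ hw hc hcv)
    (fun ℓ _ _ hℓN _ _ hu h => h.hecke ℓ hℓN (hNorm ℓ hℓN _ hu))

/-- Existential strong form, canonical `ζ_n`. -/
theorem exists_multSpec
    [HasPrincipalDivisors (AlgebraicClosure ℚ) (modularFunctionFieldBar N)] (hn : n ≠ 0)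
    (hTH4 : ∀ ψ ∈ Period.parabolicHoms ℤ (Gamma0 N) ℤ,
      ∃ u : FN N, IsKummer Kbar n u ∧ MultMer N n (zetaU n) u ψ)
    (hNorm : ∀ (ℓ : ℕ) [Fact ℓ.Prime] [NeZero ℓ] (hℓN : ¬ ℓ ∣ N) (u : FN N),
      IsKummer Kbar n u → NormMer N ℓ hℓN u) :
    ∃ Mult : modularFunctionFieldBar N → (Additive (Gamma0 N) →+ ℤ) → Prop,
      MultSpec N n Mult :=
  ⟨MultMer N n (zetaU n), multSpec_multMer hn (zetaU_isPrimitiveRoot hn) hTH4 hNorm⟩

end Strong

section Bridges

variable {N n : ℕ} {ζ : ℂˣ}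

/-- The landed evaluation `helper288.evMer` is `evC ∘ baseChangeC` (the `ℂ`-side evaluation of
`helper580_CPlace`). -/
theorem evMer_eq_evC_baseChangeC (u : FN N) :
    Fermat.Agent.S29.helper288.evMer N u
      = Fermat.Agent.S29.helper580.evC N (Fermat.Agent.S29.helper580.baseChangeC N u) := by
  have h := Fermat.Agent.S29.helper580.eq_evC_comp_baseChangeC N
    (Fermat.Agent.S29.helper288.evMer N)
    (fun a => Fermat.Agent.S29.helper288.evMer_coe N a)
  exact congrArg (fun φ : FN N →+* helper580.Mer => φ u) h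

/-- **TH4 (relation form of `helper2122_SurjAsm`) ⟹ `MultMer`.** -/
theorem multMer_of_surjAt [NeZero N] {ψ : Additive (Gamma0 N) →+ ℤ}
    (h : Fermat.Agent.S29.helper2122.SurjAt N n (Fermat.Agent.S29.helper2122.chiOf N ζ ψ)) :
    ∃ u : FN N, IsKummer Kbar n u ∧ MultMer N n ζ u ψ := by
  obtain ⟨u, hu0, hdvd, W, hW, hγ⟩ := h
  exact ⟨u, ⟨hu0, hdvd⟩, W, by rw [hW, evMer_eq_evC_baseChangeC], fun γ => hγ γ⟩

/-- **(g3) from the three open Props of TH4-ASM and the analytic norm formula**, strong form. -/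
theorem multSpec_of_surjAsm [NeZero N]
    [HasPrincipalDivisors (AlgebraicClosure ℚ) (modularFunctionFieldBar N)] (hn : n ≠ 0)
    (hζ : IsPrimitiveRoot ζ n)
    (hRC : Fermat.Agent.S29.helper2122.RatioInFC N)
    (hDC : Fermat.Agent.S29.helper2122.DescC N n)
    (hAD : Fermat.Agent.S29.helper2122.AnDiv N n)
    (hNorm : ∀ (ℓ : ℕ) [Fact ℓ.Prime] [NeZero ℓ] (hℓN : ¬ ℓ ∣ N) (u : FN N),
      IsKummer Kbar n u → NormMer N ℓ hℓN u) :
    MultSpec N n (MultMer N n ζ) :=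
  multSpec_multMer hn hζ
    (fun ψ hψ => multMer_of_surjAt
      (Fermat.Agent.S29.helper2122.surjAt_chiOf hRC hDC hAD (Nat.pos_of_ne_zero hn) ζ
        hζ.pow_eq_one ψ hψ))
    hNorm

/-- The same, weak form (no (TH3ₙ) needed by the consumer). -/
theorem multSpecW_of_surjAsm [NeZero N]
    [HasPrincipalDivisors (AlgebraicClosure ℚ) (modularFunctionFieldBar N)] (hn : n ≠ 0)
    (hζ : IsPrimitiveRoot ζ n)
    (hRC : Fermat.Agent.S29.helper2122.RatioInFC N)
    (hDC : Fermat.Agent.S29.helper2122.DescC N n)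
    (hAD : Fermat.Agent.S29.helper2122.AnDiv N n)
    (hNorm : ∀ (ℓ : ℕ) [Fact ℓ.Prime] [NeZero ℓ] (hℓN : ¬ ℓ ∣ N) (u : FN N),
      IsKummer Kbar n u → NormMer N ℓ hℓN u) :
    MultSpecW N n (MultMer N n ζ) :=
  multSpecW_multMer hn hζ
    (fun ψ hψ => multMer_of_surjAt
      (Fermat.Agent.S29.helper2122.surjAt_chiOf hRC hDC hAD (Nat.pos_of_ne_zero hn) ζ
        hζ.pow_eq_one ψ hψ))
    hNorm

end Bridges

section Tower

variable {N : ℕ}

/-- The canonical roots of unity form a compatible system: `ζ_{n m} ^ m = ζ_n`. -/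
theorem zetaU_mul_pow (n : ℕ) {m : ℕ} (hm : m ≠ 0) : zetaU (n * m) ^ m = zetaU n := by
  apply Units.ext
  rw [Units.val_pow_eq_pow_val, coe_zetaU, coe_zetaU, ← Complex.exp_nat_mul]
  congr 1
  have hm' : (m : ℂ) ≠ 0 := Nat.cast_ne_zero.mpr hm
  by_cases hn : n = 0
  · subst hn
    simp
  have hn' : (n : ℂ) ≠ 0 := Nat.cast_ne_zero.mpr hn
  push_cast
  field_simp

/-- **Cross-level rule (down).** A multiplier at modulus `n * m` is a multiplier at modulus `n`
(replace the root `W` by `W ^ m`). -/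
theorem MultMer.down {n m : ℕ} (hm : m ≠ 0) {u : FN N} {ψ : Additive (Gamma0 N) →+ ℤ}
    (h : MultMer N (n * m) (zetaU (n * m)) u ψ) : MultMer N n (zetaU n) u ψ := by
  obtain ⟨W, hW, hγ⟩ := h
  refine ⟨W ^ m, by rw [← pow_mul, mul_comm, hW], fun γ => ?_⟩
  rw [map_pow, hγ γ, mul_pow, ← map_pow, ← Units.val_pow_eq_pow_val, ← zpow_natCast
    (zetaU (n * m) ^ ψ (Additive.ofMul γ)) m, ← zpow_mul, mul_comm (ψ (Additive.ofMul γ)) (m : ℤ),
    zpow_mul, zpow_natCast, zetaU_mul_pow n hm]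

/-- `p`-power tower form of `down`. -/
theorem MultMer.down_pow {p k : ℕ} (hp : p ≠ 0) {u : FN N} {ψ : Additive (Gamma0 N) →+ ℤ}
    (h : MultMer N (p ^ (k + 1)) (zetaU (p ^ (k + 1))) u ψ) :
    MultMer N (p ^ k) (zetaU (p ^ k)) u ψ := by
  rw [pow_succ] at h
  exact h.down hp

end Tower

section Closed

variable {N n : ℕ} [NeZero N] {ζ : ℂˣ}

/-- **NORMQ is closed**: the analytic norm formula `NormMer` holds for every prime `ℓ ∤ N` and
every `u` (from the landed `helper1832.norm_cpMerT_of_evDatum`). -/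
theorem normMer_all (ℓ : ℕ) [Fact ℓ.Prime] [NeZero ℓ] (hℓN : ¬ ℓ ∣ N) (u : FN N) :
    NormMer N ℓ hℓN u := by
  unfold NormMer
  exact Fermat.Agent.S29.helper1832.norm_cpMerT_of_evDatum hℓN
    (Fermat.Agent.S29.helper1832.evDatum_6180 N)
    (Fermat.Agent.S29.helper1832.evDatum_6180 (N * ℓ))
    ((Fermat.Agent.S29.helper2122.merEquiv.symm : helper580.Mer →+* helper182.Mer).comp
      (Fermat.Agent.S29.helper288.evMer N))
    (fun a => by
      rw [RingHom.comp_apply, Fermat.Agent.S29.helper288.evMer_coe, RingHom.coe_coe,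
        Fermat.Agent.S29.helper2122.merEquiv_symm_algebraMap]
      rfl) u

/-- **(TH5ₙ), unconditional**: Hecke-equivariance of the multiplier relation. -/
theorem MultMer.hecke_all (ℓ : ℕ) [Fact ℓ.Prime] [NeZero ℓ] (hℓN : ¬ ℓ ∣ N)
    {u : FN N} {ψ : Additive (Gamma0 N) →+ ℤ} (h : MultMer N n ζ u ψ) :
    MultMer N n ζ (heckeFun (L := Kbar) N ℓ u) (heckeHomT N ℓ hℓN ℤ ψ) :=
  h.hecke ℓ hℓN (normMer_all ℓ hℓN u)

/-- **(g3) from (TH4ₙ) alone**, weak form (the S31 input). -/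
theorem multSpecW_of_th4
    [HasPrincipalDivisors (AlgebraicClosure ℚ) (modularFunctionFieldBar N)] (hn : n ≠ 0)
    (hζ : IsPrimitiveRoot ζ n)
    (hTH4 : ∀ ψ ∈ Period.parabolicHoms ℤ (Gamma0 N) ℤ,
      ∃ u : FN N, IsKummer Kbar n u ∧ MultMer N n ζ u ψ) :
    MultSpecW N n (MultMer N n ζ) :=
  multSpecW_multMer hn hζ hTH4 (fun ℓ _ _ hℓN u _ => normMer_all ℓ hℓN u)

/-- **(g3) from (TH4ₙ) alone**, strong form (the S29 / S30 input). -/
theorem multSpec_of_th4
    [HasPrincipalDivisors (AlgebraicClosure ℚ) (modularFunctionFieldBar N)] (hn : n ≠ 0)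
    (hζ : IsPrimitiveRoot ζ n)
    (hTH4 : ∀ ψ ∈ Period.parabolicHoms ℤ (Gamma0 N) ℤ,
      ∃ u : FN N, IsKummer Kbar n u ∧ MultMer N n ζ u ψ) :
    MultSpec N n (MultMer N n ζ) :=
  multSpec_multMer hn hζ hTH4 (fun ℓ _ _ hℓN u _ => normMer_all ℓ hℓN u)

/-- (ANDIV) of `helper2122_SurjAsm` is the landed `helper6324.dvd_ord_of_analytic_root`. -/
theorem anDiv_all (N n : ℕ) [NeZero N] : Fermat.Agent.S29.helper2122.AnDiv N n :=
  fun a b ha hb A B hA hB hB0 h1 h2 h3 h4 v =>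
    Fermat.Agent.S29.helper6324.dvd_ord_of_analytic_root N n a b ha hb A B hA hB hB0 h1 h2 h3 h4 v

/-- **(g3) from the two remaining Props of TH4-ASM** (`RatioInFC N`, `DescC N n`), strong form. -/
theorem multSpec_of_desc
    [HasPrincipalDivisors (AlgebraicClosure ℚ) (modularFunctionFieldBar N)] (hn : n ≠ 0)
    (hζ : IsPrimitiveRoot ζ n)
    (hRC : Fermat.Agent.S29.helper2122.RatioInFC N)
    (hDC : Fermat.Agent.S29.helper2122.DescC N n) :
    MultSpec N n (MultMer N n ζ) :=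
  multSpec_of_surjAsm hn hζ hRC hDC (anDiv_all N n) (fun ℓ _ _ hℓN u _ => normMer_all ℓ hℓN u)

/-- The same, weak form. -/
theorem multSpecW_of_desc
    [HasPrincipalDivisors (AlgebraicClosure ℚ) (modularFunctionFieldBar N)] (hn : n ≠ 0)
    (hζ : IsPrimitiveRoot ζ n)
    (hRC : Fermat.Agent.S29.helper2122.RatioInFC N)
    (hDC : Fermat.Agent.S29.helper2122.DescC N n) :
    MultSpecW N n (MultMer N n ζ) :=
  multSpecW_of_surjAsm hn hζ hRC hDC (anDiv_all N n) (fun ℓ _ _ hℓN u _ => normMer_all ℓ hℓN u)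

/-- Existential forms for the consumers (`ζ = ζ_n = exp (2πi/n)`). -/
theorem exists_multSpec_of_desc
    [HasPrincipalDivisors (AlgebraicClosure ℚ) (modularFunctionFieldBar N)] (hn : n ≠ 0)
    (hRC : Fermat.Agent.S29.helper2122.RatioInFC N)
    (hDC : Fermat.Agent.S29.helper2122.DescC N n) :
    ∃ Mult : modularFunctionFieldBar N → (Additive (Gamma0 N) →+ ℤ) → Prop,
      MultSpec N n Mult :=
  ⟨MultMer N n (zetaU n), multSpec_of_desc hn (zetaU_isPrimitiveRoot hn) hRC hDC⟩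

theorem exists_multSpecW_of_desc
    [HasPrincipalDivisors (AlgebraicClosure ℚ) (modularFunctionFieldBar N)] (hn : n ≠ 0)
    (hRC : Fermat.Agent.S29.helper2122.RatioInFC N)
    (hDC : Fermat.Agent.S29.helper2122.DescC N n) :
    ∃ Mult : modularFunctionFieldBar N → (Additive (Gamma0 N) →+ ℤ) → Prop,
      MultSpecW N n Mult :=
  ⟨MultMer N n (zetaU n), multSpecW_of_desc hn (zetaU_isPrimitiveRoot hn) hRC hDC⟩

end Closed

section Unconditional

variable {N n : ℕ} [NeZero N] {ζ : ℂˣ}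

/-- **(TH4ₙ), unconditional, in `MultMer` form**: every integral parabolic homomorphism `ψ` is
the multiplier of an analytic `n`-th root of an `n`-Kummer function over `ℚ̄`. -/
theorem exists_multMer (hn : n ≠ 0) (hζ : ζ ^ n = 1) (ψ : Additive (Gamma0 N) →+ ℤ)
    (hψ : ψ ∈ Period.parabolicHoms ℤ (Gamma0 N) ℤ) :
    ∃ u : FN N, IsKummer Kbar n u ∧ MultMer N n ζ u ψ :=
  multMer_of_surjAt
    (Fermat.Agent.S29.helper2122.surjAt_chiOf (Fermat.Agent.S29.helper288.ratioInFC N)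
      (Fermat.Agent.S29.helper3932.descC N n) (anDiv_all N n) (Nat.pos_of_ne_zero hn) ζ hζ ψ hψ)

/-- **(g3), UNCONDITIONAL, strong form.**  For every level `N ≠ 0`, every modulus `n ≠ 0` and
every primitive `n`-th root of unity `ζ`, the concrete multiplier relation `MultMer N n ζ`
satisfies `MultSpec` (TH2ₙ–TH5ₙ). -/
theorem multSpec_all
    [HasPrincipalDivisors (AlgebraicClosure ℚ) (modularFunctionFieldBar N)] (hn : n ≠ 0)
    (hζ : IsPrimitiveRoot ζ n) : MultSpec N n (MultMer N n ζ) :=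
  multSpec_of_desc hn hζ (Fermat.Agent.S29.helper288.ratioInFC N)
    (Fermat.Agent.S29.helper3932.descC N n)

/-- **(g3), UNCONDITIONAL, weak form.** -/
theorem multSpecW_all
    [HasPrincipalDivisors (AlgebraicClosure ℚ) (modularFunctionFieldBar N)] (hn : n ≠ 0)
    (hζ : IsPrimitiveRoot ζ n) : MultSpecW N n (MultMer N n ζ) :=
  multSpecW_of_desc hn hζ (Fermat.Agent.S29.helper288.ratioInFC N)
    (Fermat.Agent.S29.helper3932.descC N n)

/-- **The analytic Kummer dictionary exists at every level and every modulus** (strong form;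
the input of S29 at `n = p`, of S30 at `n = p ^ (k + 1)`, of `helper5307.Stmt_Mult`). -/
theorem exists_multSpec_all (N : ℕ) [NeZero N] {n : ℕ} (hn : n ≠ 0) :
    ∃ Mult : modularFunctionFieldBar N → (Additive (Gamma0 N) →+ ℤ) → Prop,
      MultSpec N n Mult :=
  ⟨MultMer N n (zetaU n), multSpec_all hn (zetaU_isPrimitiveRoot hn)⟩

/-- Weak form (the input of S31 through `helper5402.result_of_machine`). -/
theorem exists_multSpecW_all (N : ℕ) [NeZero N] {n : ℕ} (hn : n ≠ 0) :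
    ∃ Mult : modularFunctionFieldBar N → (Additive (Gamma0 N) →+ ℤ) → Prop,
      MultSpecW N n Mult :=
  ⟨MultMer N n (zetaU n), multSpecW_all hn (zetaU_isPrimitiveRoot hn)⟩

end Unconditional

end Fermat.Agent.S31.helper2756
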