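import Fermat.Agent.S31.helper8458_TraceKernel
import Fermat.Agent.S31.helper5402_RecGen
import Fermat.Agent.S31.helper74_GenCheb
import Fermat.Agent.S31.helper6356_LatticeHom
import Fermat.Agent.S31.helper2756_K5JZero
import Fermat.Agent.S29.helper288_FinTorsion
import Fermat.Agent.S29.helper8527_FiniteLevel
import Fermat.Agent.S37.helper8426_HeckeInputs

/-!
# S31, glue (helper5402): the middle layer `helper5402_RecGen` feeds the landed top
`helper8458_TraceKernel`; instance at `JZero N`.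

* `dick_eq_dickson_eval`: the Dickson–Lucas sequence of the top is Mathlib's Dickson polynomial.
* `heckeReciprocity_of_stmt_RecGen`: `Stmt_RecGen ⟹ helper8458.HeckeReciprocity`.
* `isUnramifiedAt_of_relFacts` / `isUnramifiedAt_of_opFacts`: the frozen S31 conclusion from
  generator-Chebotarev and operator-wise machine facts on an abstract `J` (inertia,
  Eichler–Shimura relation, finite level, faithful lattice, Kummer correspondence mod `p ^ m`).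
* `result_of_machine`: the frozen S31 conclusion from the three machine facts on `JZero N` that
  are not yet unconditional: (UN) inertia acts trivially on `p`-power torsion, (FQ) the
  Eichler–Shimura quadratic relation on `p`-power torsion (both in the S29 shapes), and the
  multiplier dictionary `MultSpecW N (p ^ m)` for every `m`.  Everything else (generator
  Chebotarev, finite level, finiteness of torsion, the faithful Hecke action on the integral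
  parabolic lattice, the Hecke inputs) is taken from landed unconditional modules.
-/

set_option autoImplicit false

namespace Fermat.Agent.S31.helper5402

local notation "Qb" => AlgebraicClosure ℚ
local notation "GQ" => (AlgebraicClosure ℚ ≃ₐ[ℚ] AlgebraicClosure ℚ)

open CuspForm ModularCurve

/-- The Dickson–Lucas sequence `helper8458.dick` is the value of Mathlib's Dickson polynomial of
the first kind. -/
theorem dick_eq_dickson_eval {R : Type*} [CommRing R] (t d : R) (a : ℕ) :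
    Fermat.Agent.S31.helper8458.dick t d a = (Polynomial.dickson 1 d a).eval t := by
  induction a using Nat.twoStepInduction with
  | zero =>
    rw [Fermat.Agent.S31.helper8458.dick_zero, Polynomial.dickson_zero]
    simp
    norm_num
  | one =>
    rw [Fermat.Agent.S31.helper8458.dick_one, Polynomial.dickson_one, Polynomial.eval_X]
  | more a h1 h2 =>
    rw [Fermat.Agent.S31.helper8458.dick_add_two, Polynomial.dickson_add_two, h1, h2,
      Polynomial.eval_sub, Polynomial.eval_mul, Polynomial.eval_mul, Polynomial.eval_X,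
      Polynomial.eval_C]

/-- The general reciprocity statement gives the reciprocity hypothesis of the landed top
`helper8458.result_of` (with constant `c = 1`). -/
theorem heckeReciprocity_of_stmt_RecGen {N : ℕ} [NeZero N] {S : Set ℕ} {B : Finset ℕ} {p q : ℕ}
    (hp : p.Prime) (h : Stmt_RecGen N S (↑B : Set ℕ) p q) :
    Fermat.Agent.S31.helper8458.HeckeReciprocity N S p q := by
  refine ⟨1, fun h1 => hp.one_lt.ne' (Nat.dvd_one.mp h1), fun m => ?_⟩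
  obtain ⟨K, hK, hrec⟩ := h m
  refine ⟨K, B, hK, ?_⟩
  intro ℓ ℓ' hℓ hℓN hℓS hℓ' hℓ'N hℓ'S hℓB hℓ'B A A' s s' a b hA hs hA' hs' P hP τ hτ hrel
  obtain ⟨y, hy⟩ := hrec P P hP hP τ hτ 1 (one_mem_inertiaSubgroupIn P) (s ^ a) ℓ ℓ' hℓ hℓ'
    hℓN hℓ'N hℓS hℓ'S (fun hh => hℓB (Finset.mem_coe.mp hh))
    (fun hh => hℓ'B (Finset.mem_coe.mp hh)) A A' s s' hA hA' hs hs' a b (fun x _ => rfl)
    (fun x hx => by rw [mul_one, AlgEquiv.mul_apply]; exact hrel x hx)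
  refine ⟨y, ?_⟩
  rw [Nat.cast_one, one_mul, dick_eq_dickson_eval, dick_eq_dickson_eval]
  exact hy

section Main

variable {p : ℕ} {N : ℕ} [NeZero N] {S : Finset ℕ}
  {𝒪 : Type} [CommRing 𝒪] [IsDomain 𝒪] [IsDiscreteValuationRing 𝒪]
  [IsAdicComplete (IsLocalRing.maximalIdeal 𝒪) 𝒪]
  {θ : CuspForm.heckeAlgebra N 2 (↑S : Set ℕ) →+* IsLocalRing.ResidueField 𝒪}
  {T : Type} [CommRing T] [IsLocalRing T] [IsNoetherianRing T]
  [IsAdicComplete (IsLocalRing.maximalIdeal T) T] [Algebra 𝒪 T] [IsLocalHom (algebraMap 𝒪 T)]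
  [Module.Finite 𝒪 T] [Module.Free 𝒪 T]

/-- **Frozen S31 conclusion from generator-Chebotarev and operator-wise machine facts, relation
form.**  In the application `J = JZero N`, `TJ = heckeOperatorBar N`, `Λ` = integral parabolic
homs of `Γ₀(N)`, `t` = coset-transfer operators, `Φ` = `helper6356.heckeLatticeHom`, `R` = the
Kummer correspondence, `B` = any finite set of primes to be avoided. -/
theorem isUnramifiedAt_of_relFacts (hCheb : Fermat.Agent.S31.helper8458.GenCheb) (hp : p.Prime)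
    (hp𝒪 : (p : 𝒪) ∈ IsLocalRing.maximalIdeal 𝒪) (hpS : p ∈ S)
    (hNS : ∀ q : ℕ, q.Prime → q ∣ N → q ∈ S)
    (H : CuspForm.HeckeGaloisRepDatum N (↑S : Set ℕ) 𝒪 θ T)
    (q : ℕ) (hq : q.Prime) (hqS : q ∉ S) (B : Finset ℕ)
    {J : Type*} [AddCommGroup J] [DistribMulAction GQ J]
    (TJ : Nat.Primes → Module.End ℤ J)
    (hUnr : ∀ P : ValuationSubring Qb, P.LiesOverPrime q → ∀ τ ∈ P.inertiaSubgroupIn ℚ,
      ∀ x : J, (∃ n : ℕ, p ^ n • x = 0) → τ • x = x)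
    (hFrob : ∀ (ℓ : ℕ) (hℓ : ℓ.Prime), ¬ ℓ ∣ N → ℓ ∉ (↑S : Set ℕ) → ℓ ∉ (↑B : Set ℕ) →
      ∀ A : ValuationSubring Qb, A.LiesOverPrime ℓ → ∀ σ : GQ, A.IsFrobeniusAt σ ℓ →
      ∀ x : J, (∃ n : ℕ, p ^ n • x = 0) →
        σ • σ • x - TJ (⟨ℓ, hℓ⟩ : Nat.Primes) (σ • x) + ℓ • x = 0)
    (hK1 : ∀ m : ℕ, ∃ L : IntermediateField ℚ Qb, FiniteDimensional ℚ L ∧
      ∀ σ : GQ, (∀ x ∈ L, σ x = x) → ∀ x : J, p ^ m • x = 0 → σ • x = x)
    {Λ : Type*} [AddCommGroup Λ] [Module.Finite ℤ Λ] [Module.Free ℤ Λ]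
    (t : Nat.Primes → Module.End ℤ Λ)
    (Φ : heckeAlgebra N 2 (↑S : Set ℕ) →+* Module.End ℤ Λ) (hΦ : Function.Injective Φ)
    (hΦT : ∀ (ℓ : ℕ) (hℓ : ℓ.Prime) (hℓN : ¬ ℓ ∣ N) (hℓS : ℓ ∉ (↑S : Set ℕ)),
      Φ (heckeAlgebra.T hℓ hℓN hℓS) = t (⟨ℓ, hℓ⟩ : Nat.Primes))
    (hK5 : ∀ m : ℕ, ∃ R : Λ → J → Prop, (∀ v, ∃ y, R v y) ∧
      (∀ v v' y y', R v y → R v' y' → R (v + v') (y + y')) ∧
      (∀ v y, R v y → R (-v) (-y)) ∧ R 0 0 ∧
      (∀ v y, R v y → p ^ m • y = 0) ∧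
      (∀ ℓ : Nat.Primes, ¬ (ℓ : ℕ) ∣ N → (ℓ : ℕ) ∉ (↑S : Set ℕ) → (ℓ : ℕ) ∉ (↑B : Set ℕ) →
        ∀ v y, R v y → R (t ℓ v) (TJ ℓ y)) ∧
      (∀ v, R v 0 → ∃ w, v = ((p ^ m : ℕ) : ℤ) • w)) :
    H.ρ.IsUnramifiedAt q :=
  Fermat.Agent.S31.helper8458.result_of hCheb hp hp𝒪 hpS hNS H q hq hqS
    (heckeReciprocity_of_stmt_RecGen hp
      (stmt_RecGen_of_relFacts (B := (↑B : Set ℕ)) hp hq (Finset.mem_coe.mpr hpS)
        (fun h => hqS (Finset.mem_coe.mp h)) TJ hUnr hFrob hK1 t Φ hΦ hΦT hK5))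

/-- **Frozen S31 conclusion from generator-Chebotarev and operator-wise machine facts, map
form** (the Kummer correspondence given as an additive map `ι : Λ → J[p ^ m]`). -/
theorem isUnramifiedAt_of_opFacts (hCheb : Fermat.Agent.S31.helper8458.GenCheb) (hp : p.Prime)
    (hp𝒪 : (p : 𝒪) ∈ IsLocalRing.maximalIdeal 𝒪) (hpS : p ∈ S)
    (hNS : ∀ q : ℕ, q.Prime → q ∣ N → q ∈ S)
    (H : CuspForm.HeckeGaloisRepDatum N (↑S : Set ℕ) 𝒪 θ T)
    (q : ℕ) (hq : q.Prime) (hqS : q ∉ S) (B : Finset ℕ)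
    {J : Type*} [AddCommGroup J] [DistribMulAction GQ J]
    (TJ : Nat.Primes → Module.End ℤ J)
    (hUnr : ∀ P : ValuationSubring Qb, P.LiesOverPrime q → ∀ τ ∈ P.inertiaSubgroupIn ℚ,
      ∀ x : J, (∃ n : ℕ, p ^ n • x = 0) → τ • x = x)
    (hFrob : ∀ (ℓ : ℕ) (hℓ : ℓ.Prime), ¬ ℓ ∣ N → ℓ ∉ (↑S : Set ℕ) → ℓ ∉ (↑B : Set ℕ) →
      ∀ A : ValuationSubring Qb, A.LiesOverPrime ℓ → ∀ σ : GQ, A.IsFrobeniusAt σ ℓ →
      ∀ x : J, (∃ n : ℕ, p ^ n • x = 0) →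
        σ • σ • x - TJ (⟨ℓ, hℓ⟩ : Nat.Primes) (σ • x) + ℓ • x = 0)
    (hK1 : ∀ m : ℕ, ∃ L : IntermediateField ℚ Qb, FiniteDimensional ℚ L ∧
      ∀ σ : GQ, (∀ x ∈ L, σ x = x) → ∀ x : J, p ^ m • x = 0 → σ • x = x)
    {Λ : Type*} [AddCommGroup Λ] [Module.Finite ℤ Λ] [Module.Free ℤ Λ]
    (t : Nat.Primes → Module.End ℤ Λ)
    (Φ : heckeAlgebra N 2 (↑S : Set ℕ) →+* Module.End ℤ Λ) (hΦ : Function.Injective Φ)
    (hΦT : ∀ (ℓ : ℕ) (hℓ : ℓ.Prime) (hℓN : ¬ ℓ ∣ N) (hℓS : ℓ ∉ (↑S : Set ℕ)),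
      Φ (heckeAlgebra.T hℓ hℓN hℓS) = t (⟨ℓ, hℓ⟩ : Nat.Primes))
    (hK5 : ∀ m : ℕ, ∃ ι : Λ →+ J, (∀ v, p ^ m • ι v = 0) ∧
      (∀ ℓ : Nat.Primes, ¬ (ℓ : ℕ) ∣ N → (ℓ : ℕ) ∉ (↑S : Set ℕ) → (ℓ : ℕ) ∉ (↑B : Set ℕ) →
        ∀ v, ι (t ℓ v) = TJ ℓ (ι v)) ∧
      (∀ v, ι v = 0 → ∃ w, v = ((p ^ m : ℕ) : ℤ) • w)) :
    H.ρ.IsUnramifiedAt q :=
  Fermat.Agent.S31.helper8458.result_of hCheb hp hp𝒪 hpS hNS H q hq hqS
    (heckeReciprocity_of_stmt_RecGen hp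
      (stmt_RecGen_of_opFacts (B := (↑B : Set ℕ)) hp hq (Finset.mem_coe.mpr hpS)
        (fun h => hqS (Finset.mem_coe.mp h)) TJ hUnr hFrob hK1 t Φ hΦ hΦT hK5))

/-! ### The instance at `JZero N` -/

open Fermat.Agent.S31.helper6356 Fermat.Agent.S31.helper2756 CongruenceSubgroup

variable (N) in
/-- The coset-transfer Hecke operators on the integral parabolic lattice, indexed by all primes
(zero at the primes dividing `N`, which are never used). -/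
noncomputable def latOp (ℓ : Nat.Primes) : Module.End ℤ (Lam N) :=
  if h : (ℓ : ℕ) ∣ N then 0 else (haveI : Fact (ℓ : ℕ).Prime := ⟨ℓ.2⟩; latT N (ℓ : ℕ) h)

theorem latOp_of_not_dvd {ℓ : ℕ} (hℓ : ℓ.Prime) (hℓN : ¬ ℓ ∣ N) :
    latOp N (⟨ℓ, hℓ⟩ : Nat.Primes) = (haveI : Fact ℓ.Prime := ⟨hℓ⟩; latT N ℓ hℓN) :=
  dif_neg hℓN

/-- **Frozen S31 conclusion from the machine facts on `JZero N`** that are not yet
unconditional: (UN), (FQ) in the S29 shapes (`helper405.eig_of_operatorwise`), and the weak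
multiplier dictionary `helper2756.MultSpecW N (p ^ m)` for every `m`. -/
theorem result_of_machine (hp : p.Prime)
    (hp𝒪 : (p : 𝒪) ∈ IsLocalRing.maximalIdeal 𝒪) (hpS : p ∈ S)
    (hNS : ∀ q : ℕ, q.Prime → q ∣ N → q ∈ S)
    (H : CuspForm.HeckeGaloisRepDatum N (↑S : Set ℕ) 𝒪 θ T)
    (q : ℕ) (hq : q.Prime) (hqS : q ∉ S)
    (hUN : ∀ ℓ : ℕ, ℓ.Prime → ¬ ℓ ∣ N * p →
      ∀ A : ValuationSubring Qb, A.LiesOverPrime ℓ →
        ∀ σ ∈ A.inertiaSubgroupIn ℚ, ∀ x : JZero N, (∃ k : ℕ, p ^ k • x = 0) → σ • x = x)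
    (hFQ : ∀ ℓ : ℕ, (hℓ : ℓ.Prime) → ¬ ℓ ∣ N * p →
      ∀ A : ValuationSubring Qb, A.LiesOverPrime ℓ →
        ∀ σ : GQ, A.IsFrobeniusAt σ ℓ → ∀ x : JZero N, (∃ k : ℕ, p ^ k • x = 0) →
          σ • σ • x - heckeOperatorBar N ⟨ℓ, hℓ⟩ (σ • x) + ℓ • x = 0)
    (hMult : ∀ m : ℕ, ∃ Mult : modularFunctionFieldBar N → (Additive (Gamma0 N) →+ ℤ) → Prop,
      MultSpecW N (p ^ m) Mult) :
    H.ρ.IsUnramifiedAt q := by
  have hqp : q ≠ p := fun h => hqS (h ▸ hpS)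
  have hqN : ¬ q ∣ N := fun h => hqS (hNS q hq h)
  have hqNp : ¬ q ∣ N * p := fun h => (hq.dvd_mul.mp h).elim hqN
    (fun h' => hqp ((Nat.prime_dvd_prime_iff_eq hq hp).mp h'))
  refine isUnramifiedAt_of_relFacts Fermat.Agent.S31.helper74.genCheb_8458 hp hp𝒪 hpS hNS H q hq
    hqS ∅ (J := JZero N) (heckeOperatorBar N)
    (fun P hP τ hτ x hx => hUN q hq hqNp P hP τ hτ x hx) ?_ ?_ (Λ := Lam N) (latOp N)
    (heckeLatticeHom N (↑S : Set ℕ)) (heckeLatticeHom_injective N (↑S : Set ℕ)) ?_ ?_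
  · -- (FQ)
    intro ℓ hℓ hℓN hℓS _ A hA σ hσ x hx
    have hℓp : ℓ ≠ p := fun h => hℓS (h ▸ Finset.mem_coe.mpr hpS)
    have hℓNp : ¬ ℓ ∣ N * p := fun h => (hℓ.dvd_mul.mp h).elim hℓN
      (fun h' => hℓp ((Nat.prime_dvd_prime_iff_eq hℓ hp).mp h'))
    exact hFQ ℓ hℓ hℓNp A hA σ hσ x hx
  · -- uniform finite level of the `p ^ m`-torsion
    intro m
    obtain ⟨L, hL, hσ⟩ := Fermat.Agent.S29.helper8527.exists_finiteLevel_of_finite N
      (Fermat.Agent.S29.helper288.finite_torsion_JZero N (pow_ne_zero m hp.ne_zero))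
    exact ⟨L, hL, fun σ hσL x hx => hσ σ hσL x hx⟩
  · -- (K6)
    intro ℓ hℓ hℓN hℓS
    rw [latOp_of_not_dvd hℓ hℓN]
    have : Fact ℓ.Prime := ⟨hℓ⟩
    exact heckeLatticeHom_T N (↑S : Set ℕ) hℓN hℓS
  · -- (K5), relation form
    intro m
    obtain ⟨Mult, hM⟩ := hMult m
    have hn : p ^ m ≠ 0 := pow_ne_zero m hp.ne_zero
    have hR := kummerRel_JZero hn hM
    refine ⟨RelJ (N := N) (p ^ m) Mult, hR.total, fun v v' y y' h h' => hR.add h h',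
      fun v y h => hR.neg h, hR.zero, fun v y h => hR.tors h, ?_, ?_⟩
    · intro ℓ hℓN _ _ v y hvy
      have : NeZero (ℓ : ℕ) := ⟨ℓ.2.ne_zero⟩
      have hI := Fermat.Agent.S37.helper8426.heckeInputsAlong N (ℓ : ℕ)
      have hc := relCompat_hecke hn hM (ℓ : ℕ) ℓ.2 hℓN hI (latOp N ℓ) (fun ψ => by
        rw [show latOp N ℓ = (haveI : Fact (ℓ : ℕ).Prime := ⟨ℓ.2⟩; latT N (ℓ : ℕ) hℓN) from
          dif_neg hℓN]
        rfl)
      exact hc v y hvy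
    · intro v hv
      obtain ⟨φ, hφ⟩ := hR.ker hv
      exact ⟨φ, by rw [hφ, natCast_zsmul]⟩

end Main

end Fermat.Agent.S31.helper5402
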