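/-
S31 (captain helper5307): the frozen S31 conclusion from the S18 export (KF0) ALONE.

Every other input of the S31 chain is a theorem on main:

* (UN), (FQ) on `J₀(N)[p^∞]`     : `S29.helper405.stmt_UMod_of_kf0`, `stmt_ESMod_of_kf0`
                                   (the `(U)/(ES)` seam, closed modulo (KF0));
* the multiplier dictionary        : `S31.helper2756.exists_multSpecW_of_desc` with
                                   `S29.helper288.ratioInFC`, `S29.helper3932.descC`
                                   (TH4 at every modulus) and NORMQ inside;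
* the S31 back end                 : `S31.helper5402.result_of_machine`
                                   (trace-kernel top `helper8458`, generator-Chebotarev
                                   `helper74`, Hecke lattice hom `helper6356`, K5 `helper2756`).

So `Fermat/Agent/S31.lean` is `result_of_kf0 <the S18 theorem of type Stmt_KF0All> ..`.
-/
import Fermat.Agent.S31.helper5402_Assemble
import Fermat.Agent.S31.helper2756_MultMer
import Fermat.Agent.S29.helper405_ESFinal
import Fermat.Agent.S29.helper288_RatioInFC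
import Fermat.Agent.S29.helper3932_DescC
import Fermat.Agent.S37.helper5162_HeckeInputsModular

set_option autoImplicit false

namespace Fermat.Agent.S31.helper5307

open CuspForm CuspForm.HeckeGaloisRepDatum ModularCurve

variable {p : ℕ} {N : ℕ} [NeZero N] {S : Finset ℕ}
  {𝒪 : Type} [CommRing 𝒪] [IsDomain 𝒪] [IsDiscreteValuationRing 𝒪]
  [IsAdicComplete (IsLocalRing.maximalIdeal 𝒪) 𝒪]
  {θ : CuspForm.heckeAlgebra N 2 (↑S : Set ℕ) →+* IsLocalRing.ResidueField 𝒪}
  {T : Type} [CommRing T] [IsLocalRing T] [IsNoetherianRing T]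
  [IsAdicComplete (IsLocalRing.maximalIdeal T) T] [Algebra 𝒪 T] [IsLocalHom (algebraMap 𝒪 T)]
  [Module.Finite 𝒪 T] [Module.Free 𝒪 T]

/-- A point killed by a power of `p` and a prime `ℓ ∤ N * p`: the modulus `p ^ k` is prime
to `ℓ`. -/
theorem not_dvd_pow_of_not_dvd_mul {ℓ p N : ℕ} (hℓ : ℓ.Prime) (h : ¬ ℓ ∣ N * p) (k : ℕ) :
    ¬ ℓ ∣ p ^ k := fun hd => h (Dvd.dvd.mul_left (hℓ.dvd_of_dvd_pow hd) N)

/-- **Frozen S31 from the S18 export (KF0) alone.** -/
theorem result_of_kf0 (hKF : Fermat.Agent.S29.helper405.Stmt_KF0All) (hp : p.Prime)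
    (hp𝒪 : (p : 𝒪) ∈ IsLocalRing.maximalIdeal 𝒪) (hpS : p ∈ S)
    (hNS : ∀ q : ℕ, q.Prime → q ∣ N → q ∈ S)
    (H : CuspForm.HeckeGaloisRepDatum N (↑S : Set ℕ) 𝒪 θ T)
    (q : ℕ) (hq : q.Prime) (hqS : q ∉ S) :
    H.ρ.IsUnramifiedAt q := by
  have := Fermat.Agent.S37.helper5162.hasPrincipalDivisors_FN N
  refine Fermat.Agent.S31.helper5402.result_of_machine hp hp𝒪 hpS hNS H q hq hqS ?_ ?_ ?_
  · -- (UN)
    rintro ℓ hℓ hℓNp A hA σ hσ x ⟨k, hk⟩
    exact Fermat.Agent.S29.helper405.stmt_UMod_of_kf0 hKF N (p ^ k) ℓ hℓ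
      (fun hd => hℓNp (Dvd.dvd.mul_right hd p)) (not_dvd_pow_of_not_dvd_mul hℓ hℓNp k)
      A hA σ hσ x hk
  · -- (FQ)
    rintro ℓ hℓ hℓNp A hA σ hσ x ⟨k, hk⟩
    exact Fermat.Agent.S29.helper405.stmt_ESMod_of_kf0 hKF N (p ^ k) ℓ hℓ
      (fun hd => hℓNp (Dvd.dvd.mul_right hd p)) (not_dvd_pow_of_not_dvd_mul hℓ hℓNp k)
      A hA σ hσ x hk
  · -- the multiplier dictionary at every `p ^ m`
    intro m
    exact Fermat.Agent.S31.helper2756.exists_multSpecW_of_desc (pow_ne_zero m hp.ne_zero)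
      (Fermat.Agent.S29.helper288.ratioInFC N) (Fermat.Agent.S29.helper3932.descC N (p ^ m))

end Fermat.Agent.S31.helper5307
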