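import Mathlib

/-!
# S31, machine fact (K5): the Hecke-equivariant embedding `Λ / n → J[n]` (abstract assembly)

Route #2283 for S31 consumes, for every modulus `n = p ^ m`, an additive map
`ι_n : Λ → J[n]` (`Λ` = integral parabolic homomorphisms `Γ₀(N) → ℤ`, `J = J₀(N)(ℚ̄)`) which is
Hecke-equivariant and has kernel exactly `n • Λ`.  It is produced by the analytic Kummer
dictionary: a function `u` with `n ∣ div u` has an analytic `n`-th root whose multiplier is a
character `Γ₀(N) → μ_n`; the class of `div u / n` in `J[n]` and the character determine each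
other.

This file contains the assembly in a definition-agnostic form.  The dictionary enters only
through a relation `R ψ x` ("the class `x` has multiplier `ζ ^ ψ`") satisfying four closed
properties (`KummerCorr`):

* `total`  : every `ψ ∈ Λ` occurs                               (surjectivity, twisted Eisenstein);
* `add`    : `R` is additive                                    (multiplicativity of multipliers);
* `zero_of_nsmul` : multiplier `ζ ^ (n • φ) = 1` forces class `0` (injectivity of the multiplier map);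
* `ker`    : class `0` forces `ψ ∈ n • Λ`                        (`u = c * w ^ n` has multiplier `1`).

From these we construct `ι`, prove `ι ψ = 0 ↔ ψ ∈ n • Λ`, `n • ι ψ = 0`, equivariance for every
pair of operators respecting `R`, and the consumer statement: an operator on `Λ` whose partner on
`J` kills the `n`-torsion maps `Λ` into `n • Λ`.  Everything holds for every `n : ℕ`.
-/

namespace Fermat.Agent.S31.helper2756

open Polynomial

section Abstract

variable {Lam J : Type*} [AddCommGroup Lam] [AddCommGroup J]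

/-- Abstract Kummer correspondence at modulus `n` between a lattice `Lam` of homomorphisms and a
group `J` of divisor classes: `R ψ x` reads "the class `x` has multiplier `ζ ^ ψ`". -/
structure KummerCorr (n : ℕ) (R : Lam → J → Prop) : Prop where
  /-- every `ψ` is the multiplier of some class -/
  total : ∀ ψ : Lam, ∃ x : J, R ψ x
  /-- multipliers and classes add up -/
  add : ∀ {ψ ψ' : Lam} {x x' : J}, R ψ x → R ψ' x' → R (ψ + ψ') (x + x')
  /-- a class with trivial multiplier `ζ ^ (n • φ) = 1` vanishes -/
  zero_of_nsmul : ∀ {φ : Lam} {x : J}, R (n • φ) x → x = 0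
  /-- the multiplier of the zero class is trivial, i.e. `ψ ∈ n • Lam` -/
  ker : ∀ {ψ : Lam}, R ψ 0 → ∃ φ : Lam, ψ = n • φ

namespace KummerCorr

variable {n : ℕ} {R : Lam → J → Prop}

theorem eq_zero_of_zero (h : KummerCorr n R) {x : J} (hx : R 0 x) : x = 0 :=
  h.zero_of_nsmul (φ := 0) (by rwa [nsmul_zero])

/-- The class with a given multiplier is unique. -/
theorem unique (h : KummerCorr n R) {ψ : Lam} {x x' : J} (hx : R ψ x) (hx' : R ψ x') :
    x = x' := by
  obtain ⟨y, hy⟩ := h.total (-ψ)
  have h1 := h.add hx hy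
  have h2 := h.add hx' hy
  rw [add_neg_cancel] at h1 h2
  exact add_right_cancel ((h.eq_zero_of_zero h1).trans (h.eq_zero_of_zero h2).symm)

/-- The map `ψ ↦ (the class with multiplier ζ ^ ψ)`. -/
noncomputable def iota (h : KummerCorr n R) : Lam →+ J where
  toFun ψ := (h.total ψ).choose
  map_zero' := h.eq_zero_of_zero (h.total 0).choose_spec
  map_add' ψ ψ' :=
    h.unique (h.total (ψ + ψ')).choose_spec
      (h.add (h.total ψ).choose_spec (h.total ψ').choose_spec)

theorem iota_spec (h : KummerCorr n R) (ψ : Lam) : R ψ (h.iota ψ) :=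
  (h.total ψ).choose_spec

theorem iota_eq_of (h : KummerCorr n R) {ψ : Lam} {x : J} (hx : R ψ x) : h.iota ψ = x :=
  h.unique (h.iota_spec ψ) hx

/-- **Kernel of `ι`**: exactly `n • Lam`. -/
theorem iota_eq_zero_iff (h : KummerCorr n R) (ψ : Lam) :
    h.iota ψ = 0 ↔ ∃ φ : Lam, ψ = n • φ := by
  constructor
  · intro h0
    have := h.iota_spec ψ
    rw [h0] at this
    exact h.ker this
  · rintro ⟨φ, rfl⟩
    exact h.zero_of_nsmul (h.iota_spec (n • φ))

/-- `ι` takes values in the `n`-torsion. -/
theorem nsmul_iota (h : KummerCorr n R) (ψ : Lam) : n • h.iota ψ = 0 := by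
  rw [← map_nsmul]
  exact (h.iota_eq_zero_iff _).2 ⟨ψ, rfl⟩

theorem iota_mem_torsion (h : KummerCorr n R) (ψ : Lam) :
    h.iota ψ ∈ (Submodule.torsionBy ℤ J (n : ℤ)) := by
  rw [Submodule.mem_torsionBy_iff, natCast_zsmul]
  exact h.nsmul_iota ψ

/-- **Equivariance**: a pair of maps respecting the correspondence commutes with `ι`. -/
theorem iota_equivariant (h : KummerCorr n R) (t : Lam → Lam) (T : J → J)
    (hT : ∀ (ψ : Lam) (x : J), R ψ x → R (t ψ) (T x)) (ψ : Lam) :
    h.iota (t ψ) = T (h.iota ψ) :=
  h.iota_eq_of (hT ψ _ (h.iota_spec ψ))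

/-- `ι` is injective modulo `n`: `ι ψ = ι ψ'` iff `ψ - ψ' ∈ n • Lam`. -/
theorem iota_eq_iota_iff (h : KummerCorr n R) (ψ ψ' : Lam) :
    h.iota ψ = h.iota ψ' ↔ ∃ φ : Lam, ψ - ψ' = n • φ := by
  rw [← sub_eq_zero, ← map_sub, h.iota_eq_zero_iff]

/-! ### Compatible pairs of operators -/

/-- A pair of endomorphisms `(x, X)` of `Lam` and `J` is *compatible* if `ι ∘ x = X ∘ ι`. -/
def Compat (h : KummerCorr n R) (x : Module.End ℤ Lam) (X : Module.End ℤ J) : Prop :=
  ∀ ψ : Lam, h.iota (x ψ) = X (h.iota ψ)

theorem compat_of_rel (h : KummerCorr n R) (x : Module.End ℤ Lam) (X : Module.End ℤ J)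
    (hT : ∀ (ψ : Lam) (y : J), R ψ y → R (x ψ) (X y)) : h.Compat x X :=
  fun ψ => h.iota_equivariant x X hT ψ

theorem compat_zero (h : KummerCorr n R) : h.Compat 0 0 := fun ψ => by simp

theorem compat_one (h : KummerCorr n R) : h.Compat 1 1 := fun ψ => by simp

theorem Compat.add {h : KummerCorr n R} {x x' : Module.End ℤ Lam} {X X' : Module.End ℤ J}
    (hx : h.Compat x X) (hx' : h.Compat x' X') : h.Compat (x + x') (X + X') := fun ψ => by
  rw [LinearMap.add_apply, LinearMap.add_apply, map_add, hx ψ, hx' ψ]

theorem Compat.neg {h : KummerCorr n R} {x : Module.End ℤ Lam} {X : Module.End ℤ J}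
    (hx : h.Compat x X) : h.Compat (-x) (-X) := fun ψ => by
  rw [LinearMap.neg_apply, LinearMap.neg_apply, map_neg, hx ψ]

theorem Compat.sub {h : KummerCorr n R} {x x' : Module.End ℤ Lam} {X X' : Module.End ℤ J}
    (hx : h.Compat x X) (hx' : h.Compat x' X') : h.Compat (x - x') (X - X') := fun ψ => by
  rw [LinearMap.sub_apply, LinearMap.sub_apply, map_sub, hx ψ, hx' ψ]

theorem Compat.mul {h : KummerCorr n R} {x x' : Module.End ℤ Lam} {X X' : Module.End ℤ J}
    (hx : h.Compat x X) (hx' : h.Compat x' X') : h.Compat (x * x') (X * X') := fun ψ => by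
  rw [Module.End.mul_apply, Module.End.mul_apply, hx (x' ψ), hx' ψ]

theorem Compat.zsmul {h : KummerCorr n R} {x : Module.End ℤ Lam} {X : Module.End ℤ J}
    (hx : h.Compat x X) (a : ℤ) : h.Compat (a • x) (a • X) := fun ψ => by
  rw [LinearMap.smul_apply, LinearMap.smul_apply, map_zsmul, hx ψ]

theorem compat_intCast (h : KummerCorr n R) (a : ℤ) :
    h.Compat (a : Module.End ℤ Lam) (a : Module.End ℤ J) := fun ψ => by
  rw [Module.End.intCast_apply, Module.End.intCast_apply, map_zsmul]

theorem compat_natCast (h : KummerCorr n R) (a : ℕ) :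
    h.Compat (a : Module.End ℤ Lam) (a : Module.End ℤ J) := by
  have := h.compat_intCast (a : ℤ)
  rwa [Int.cast_natCast, Int.cast_natCast] at this

theorem Compat.pow {h : KummerCorr n R} {x : Module.End ℤ Lam} {X : Module.End ℤ J}
    (hx : h.Compat x X) (k : ℕ) : h.Compat (x ^ k) (X ^ k) := by
  induction k with
  | zero => simpa using h.compat_one
  | succ k ih => rw [pow_succ, pow_succ]; exact ih.mul hx

/-- Compatibility passes to integer polynomials in a compatible pair. -/
theorem Compat.aeval {h : KummerCorr n R} {x : Module.End ℤ Lam} {X : Module.End ℤ J}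
    (hx : h.Compat x X) (P : ℤ[X]) : h.Compat (Polynomial.aeval x P) (Polynomial.aeval X P) := by
  induction P using Polynomial.induction_on' with
  | add P Q hP hQ => rw [map_add, map_add]; exact hP.add hQ
  | monomial k a =>
    rw [Polynomial.aeval_monomial, Polynomial.aeval_monomial]
    have h1 : (algebraMap ℤ (Module.End ℤ Lam)) a = (a : Module.End ℤ Lam) := by
      simp
    have h2 : (algebraMap ℤ (Module.End ℤ J)) a = (a : Module.End ℤ J) := by
      simp
    rw [h1, h2]
    exact (h.compat_intCast a).mul (hx.pow k)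

/-- **Consumer form of (K5).**  If `(x, X)` is a compatible pair and `X` kills the `n`-torsion of
`J`, then `x` maps `Lam` into `n • Lam`. -/
theorem exists_eq_nsmul_of_compat (h : KummerCorr n R) {x : Module.End ℤ Lam}
    {X : Module.End ℤ J} (hx : h.Compat x X) (hkill : ∀ y : J, n • y = 0 → X y = 0)
    (ψ : Lam) : ∃ φ : Lam, x ψ = n • φ := by
  rw [← h.iota_eq_zero_iff, hx ψ]
  exact hkill _ (h.nsmul_iota ψ)

/-- Variant: it is enough that `X` kills the image of `ι`. -/
theorem exists_eq_nsmul_of_compat' (h : KummerCorr n R) {x : Module.End ℤ Lam}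
    {X : Module.End ℤ J} (hx : h.Compat x X) (hkill : ∀ ψ : Lam, X (h.iota ψ) = 0)
    (ψ : Lam) : ∃ φ : Lam, x ψ = n • φ := by
  rw [← h.iota_eq_zero_iff, hx ψ]
  exact hkill ψ

end KummerCorr

/-- **(K5), existential packaging.**  From a Kummer correspondence at modulus `n` we get an
additive map `ι : Lam →+ J` with `n`-torsion values, kernel `n • Lam`, and equivariant for every
pair of maps respecting the correspondence. -/
theorem exists_iota_of_kummerCorr {n : ℕ} {R : Lam → J → Prop} (h : KummerCorr n R) :
    ∃ ι : Lam →+ J, (∀ ψ, R ψ (ι ψ)) ∧ (∀ ψ, n • ι ψ = 0) ∧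
      (∀ ψ, ι ψ = 0 ↔ ∃ φ : Lam, ψ = n • φ) ∧
      (∀ (t : Lam → Lam) (T : J → J), (∀ ψ x, R ψ x → R (t ψ) (T x)) →
        ∀ ψ, ι (t ψ) = T (ι ψ)) :=
  ⟨h.iota, h.iota_spec, h.nsmul_iota, h.iota_eq_zero_iff, h.iota_equivariant⟩

/-! ### The weak (relation) form: no injectivity of the multiplier map needed

For the consumer statement of (K5) the correspondence need not be a map: a *relation*
`R ⊆ Lam × J[n]` which is a subgroup, projects onto `Lam`, and whose fibre over the zero class
lies in `n • Lam`, is enough.  This drops the hypothesis "trivial multiplier ⇒ class `0`"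
(`KummerCorr.zero_of_nsmul`, the hard half of the injectivity of the multiplier map). -/

/-- Weak Kummer correspondence at modulus `n`: an additive relation between `Lam` and the
`n`-torsion of `J`, onto `Lam`, with `R ψ 0 → ψ ∈ n • Lam`. -/
structure KummerRel (n : ℕ) (R : Lam → J → Prop) : Prop where
  /-- every `ψ` is the multiplier of some class -/
  total : ∀ ψ : Lam, ∃ x : J, R ψ x
  /-- multipliers and classes add up -/
  add : ∀ {ψ ψ' : Lam} {x x' : J}, R ψ x → R ψ' x' → R (ψ + ψ') (x + x')
  /-- inverses -/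
  neg : ∀ {ψ : Lam} {x : J}, R ψ x → R (-ψ) (-x)
  /-- the trivial pair -/
  zero : R 0 0
  /-- the classes are `n`-torsion -/
  tors : ∀ {ψ : Lam} {x : J}, R ψ x → n • x = 0
  /-- the multiplier of the zero class is trivial, i.e. `ψ ∈ n • Lam` -/
  ker : ∀ {ψ : Lam}, R ψ 0 → ∃ φ : Lam, ψ = n • φ

/-- A pair of endomorphisms `(x, X)` of `Lam` and `J` *respects* the relation `R`. -/
def RelCompat (R : Lam → J → Prop) (x : Module.End ℤ Lam) (X : Module.End ℤ J) : Prop :=
  ∀ (ψ : Lam) (y : J), R ψ y → R (x ψ) (X y)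

/-- A strong correspondence is a weak one. -/
theorem KummerCorr.toKummerRel {n : ℕ} {R : Lam → J → Prop} (h : KummerCorr n R) :
    KummerRel n R where
  total := h.total
  add := h.add
  neg := by
    intro ψ x hx
    have h1 : h.iota (-ψ) = -x := by rw [map_neg, h.iota_eq_of hx]
    rw [← h1]
    exact h.iota_spec (-ψ)
  zero := by
    have h1 := h.iota_spec 0
    rwa [map_zero] at h1
  tors := by
    intro ψ x hx
    rw [← h.iota_eq_of hx]
    exact h.nsmul_iota ψ
  ker := h.ker

namespace KummerRel

variable {n : ℕ} {R : Lam → J → Prop}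

theorem relCompat_zero (h : KummerRel n R) : RelCompat R 0 0 := fun _ _ _ => by
  simpa using h.zero

theorem relCompat_one (_h : KummerRel n R) : RelCompat R 1 1 := fun _ _ hy => by
  simpa using hy

theorem relCompat_add (h : KummerRel n R) {x x' : Module.End ℤ Lam} {X X' : Module.End ℤ J}
    (hx : RelCompat R x X) (hx' : RelCompat R x' X') : RelCompat R (x + x') (X + X') :=
  fun ψ y hy => by
    rw [LinearMap.add_apply, LinearMap.add_apply]
    exact h.add (hx ψ y hy) (hx' ψ y hy)

theorem relCompat_neg (h : KummerRel n R) {x : Module.End ℤ Lam} {X : Module.End ℤ J}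
    (hx : RelCompat R x X) : RelCompat R (-x) (-X) :=
  fun ψ y hy => by
    rw [LinearMap.neg_apply, LinearMap.neg_apply]
    exact h.neg (hx ψ y hy)

theorem relCompat_sub (h : KummerRel n R) {x x' : Module.End ℤ Lam} {X X' : Module.End ℤ J}
    (hx : RelCompat R x X) (hx' : RelCompat R x' X') : RelCompat R (x - x') (X - X') := by
  rw [sub_eq_add_neg, sub_eq_add_neg]
  exact h.relCompat_add hx (h.relCompat_neg hx')

theorem relCompat_mul (_h : KummerRel n R) {x x' : Module.End ℤ Lam} {X X' : Module.End ℤ J}
    (hx : RelCompat R x X) (hx' : RelCompat R x' X') : RelCompat R (x * x') (X * X') :=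
  fun ψ y hy => by
    rw [Module.End.mul_apply, Module.End.mul_apply]
    exact hx _ _ (hx' ψ y hy)

theorem relCompat_natCast (h : KummerRel n R) (a : ℕ) :
    RelCompat R (a : Module.End ℤ Lam) (a : Module.End ℤ J) := by
  induction a with
  | zero => simpa using h.relCompat_zero
  | succ a ih =>
    rw [Nat.cast_succ, Nat.cast_succ]
    exact h.relCompat_add ih h.relCompat_one

theorem relCompat_intCast (h : KummerRel n R) (a : ℤ) :
    RelCompat R (a : Module.End ℤ Lam) (a : Module.End ℤ J) := by
  obtain ⟨k, rfl | rfl⟩ := Int.eq_nat_or_neg a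
  · rw [Int.cast_natCast, Int.cast_natCast]
    exact h.relCompat_natCast k
  · rw [Int.cast_neg, Int.cast_neg, Int.cast_natCast, Int.cast_natCast]
    exact h.relCompat_neg (h.relCompat_natCast k)

theorem relCompat_pow (h : KummerRel n R) {x : Module.End ℤ Lam} {X : Module.End ℤ J}
    (hx : RelCompat R x X) (k : ℕ) : RelCompat R (x ^ k) (X ^ k) := by
  induction k with
  | zero => simpa using h.relCompat_one
  | succ k ih => rw [pow_succ, pow_succ]; exact h.relCompat_mul ih hx

/-- Compatibility with the relation passes to integer polynomials. -/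
theorem relCompat_aeval (h : KummerRel n R) {x : Module.End ℤ Lam} {X : Module.End ℤ J}
    (hx : RelCompat R x X) (P : ℤ[X]) :
    RelCompat R (Polynomial.aeval x P) (Polynomial.aeval X P) := by
  induction P using Polynomial.induction_on' with
  | add P Q hP hQ => rw [map_add, map_add]; exact h.relCompat_add hP hQ
  | monomial k a =>
    rw [Polynomial.aeval_monomial, Polynomial.aeval_monomial]
    have h1 : (algebraMap ℤ (Module.End ℤ Lam)) a = (a : Module.End ℤ Lam) := by
      simp
    have h2 : (algebraMap ℤ (Module.End ℤ J)) a = (a : Module.End ℤ J) := by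
      simp
    rw [h1, h2]
    exact h.relCompat_mul (h.relCompat_intCast a) (h.relCompat_pow hx k)

/-- **Pointwise consumer form.**  If `(x, X)` respects `R`, `R ψ y` and `X y = 0`, then
`x ψ ∈ n • Lam`. -/
theorem exists_eq_nsmul_of_apply_eq_zero (h : KummerRel n R) {x : Module.End ℤ Lam}
    {X : Module.End ℤ J} (hx : RelCompat R x X) {ψ : Lam} {y : J} (hy : R ψ y)
    (hX : X y = 0) : ∃ φ : Lam, x ψ = n • φ := by
  have h1 := hx ψ y hy
  rw [hX] at h1
  exact h.ker h1

/-- **Consumer form of (K5), weak version.**  If `(x, X)` respects `R` and `X` kills the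
`n`-torsion of `J`, then `x` maps `Lam` into `n • Lam`. -/
theorem exists_eq_nsmul_of_relCompat (h : KummerRel n R) {x : Module.End ℤ Lam}
    {X : Module.End ℤ J} (hx : RelCompat R x X) (hkill : ∀ y : J, n • y = 0 → X y = 0)
    (ψ : Lam) : ∃ φ : Lam, x ψ = n • φ := by
  obtain ⟨y, hy⟩ := h.total ψ
  exact h.exists_eq_nsmul_of_apply_eq_zero hx hy (hkill y (h.tors hy))

/-- **Finite test set.**  If `Lam` is finitely generated there is a FINITE set `F` of
`n`-torsion points of `J` such that every pair `(x, X)` respecting `R` with `X = 0` on `F`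
maps `Lam` into `n • Lam`.  (So a consumer only needs to control finitely many points, e.g.
their fields of definition.) -/
theorem exists_finset_test [Module.Finite ℤ Lam] (h : KummerRel n R) :
    ∃ F : Finset J, (∀ y ∈ F, n • y = 0) ∧
      ∀ (x : Module.End ℤ Lam) (X : Module.End ℤ J), RelCompat R x X →
        (∀ y ∈ F, X y = 0) → ∀ ψ : Lam, ∃ φ : Lam, x ψ = n • φ := by
  classical
  obtain ⟨s, hs⟩ := (Module.Finite.fg_top : (⊤ : Submodule ℤ Lam).FG)
  choose c hc using h.total
  refine ⟨s.image c, ?_, ?_⟩
  · intro y hy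
    obtain ⟨g, -, rfl⟩ := Finset.mem_image.mp hy
    exact h.tors (hc g)
  · intro x X hx hX ψ
    -- every `ψ` is related to a point killed by `X`
    have key : ∀ ψ : Lam, ∃ y : J, R ψ y ∧ X y = 0 := by
      intro ψ
      have hψ : ψ ∈ Submodule.span ℤ (s : Set Lam) := by rw [hs]; exact Submodule.mem_top
      induction hψ using Submodule.span_induction with
      | mem g hg => exact ⟨c g, hc g, hX _ (Finset.mem_image_of_mem c hg)⟩
      | zero => exact ⟨0, h.zero, map_zero X⟩
      | add ψ₁ ψ₂ _ _ h₁ h₂ =>
        obtain ⟨y₁, hy₁, hX₁⟩ := h₁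
        obtain ⟨y₂, hy₂, hX₂⟩ := h₂
        exact ⟨y₁ + y₂, h.add hy₁ hy₂, by rw [map_add, hX₁, hX₂, add_zero]⟩
      | smul a ψ₁ _ h₁ =>
        obtain ⟨y₁, hy₁, hX₁⟩ := h₁
        refine ⟨a • y₁, ?_, by rw [map_zsmul, hX₁, smul_zero]⟩
        have := h.relCompat_intCast a ψ₁ y₁ hy₁
        rwa [Module.End.intCast_apply, Module.End.intCast_apply] at this
    obtain ⟨y, hy, hXy⟩ := key ψ
    exact h.exists_eq_nsmul_of_apply_eq_zero hx hy hXy

end KummerRel

end Abstract

end Fermat.Agent.S31.helper2756
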