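import Mathlib
import Fermat.Prelude.Def_CuspForm_HeckeGaloisRepDatum
import Fermat.Agent.S53.helper3173_Burnside

/-!
# S31, geometry-free top layer (helper517)

* `span_range_eq_top`   : residually absolutely irreducible `ρ : GaloisRepAdic A`
                          ⟹ the `A`-span of `ρ(G)` is all of `End_A V` (Burnside + Nakayama).
* `eq_one_of_trace_sub_mem` : **trace-kernel lemma**, Krull form.
* `eq_one_of_trace_mul`     : trace-kernel lemma, exact form.
* `exists_field_trace_sub_mem` : continuity of the trace.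
* `isUnramifiedAt_of_frobeniusPairs` : the frozen S31 conclusion from the
  Frobenius-pair reciprocity statement `FrobeniusPairs`.
-/

set_option autoImplicit false

namespace Fermat.Agent.S31.helper517

open scoped TensorProduct
open IsLocalRing

/-- The absolute Galois group of `ℚ`. -/
abbrev GQ : Type := AlgebraicClosure ℚ ≃ₐ[ℚ] AlgebraicClosure ℚ

section Matrix

variable {A : Type} [CommRing A] [IsLocalRing A]

omit [IsLocalRing A] in
/-- A matrix all of whose entries lie in an ideal `I` lies in `I • ⊤`. -/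
theorem matrix_mem_smul_top {n : Type} [Fintype n] [DecidableEq n] (I : Ideal A)
    (Z : Matrix n n A) (hZ : ∀ i j, Z i j ∈ I) :
    Z ∈ I • (⊤ : Submodule A (Matrix n n A)) := by
  rw [Matrix.matrix_eq_sum_single Z]
  refine Submodule.sum_mem _ fun i _ => Submodule.sum_mem _ fun j _ => ?_
  have : Matrix.single i j (Z i j) = Z i j • Matrix.single i j (1 : A) := by
    rw [Matrix.smul_single, smul_eq_mul, mul_one]
  rw [this]
  exact Submodule.smul_mem_smul (hZ i j) Submodule.mem_top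

/-- **Nakayama for matrix spans.** If the reductions of a family of `2 × 2` matrices span
`M₂(k)` over the residue field, the family spans `M₂(A)` over `A`. -/
theorem span_matrix_eq_top {ι : Type} (r : ι → Matrix (Fin 2) (Fin 2) A)
    (h : Submodule.span (ResidueField A)
      (Set.range fun i => (r i).map (algebraMap A (ResidueField A))) = ⊤) :
    Submodule.span A (Set.range r) = ⊤ := by
  classical
  rw [eq_top_iff]
  refine Submodule.le_of_le_smul_of_le_jacobson_bot (I := maximalIdeal A)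
    Module.Finite.fg_top (maximalIdeal_le_jacobson _) ?_
  intro Y _
  have hY : Y.map (algebraMap A (ResidueField A)) ∈ Submodule.span (ResidueField A)
      (Set.range fun i => (r i).map (algebraMap A (ResidueField A))) := by
    rw [h]; exact Submodule.mem_top
  obtain ⟨c, hc⟩ := Finsupp.mem_span_range_iff_exists_finsupp.mp hY
  -- lift the coefficients
  have hlift : ∀ x : ResidueField A, ∃ a : A, algebraMap A (ResidueField A) a = x :=
    fun x => IsLocalRing.residue_surjective x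
  choose lift hliftspec using hlift
  set Y' : Matrix (Fin 2) (Fin 2) A := ∑ i ∈ c.support, lift (c i) • r i with hY'
  have hY'mem : Y' ∈ Submodule.span A (Set.range r) :=
    Submodule.sum_mem _ fun i _ => Submodule.smul_mem _ _ (Submodule.subset_span ⟨i, rfl⟩)
  have hdiff : ∀ a b, (Y - Y') a b ∈ maximalIdeal A := by
    intro a b
    rw [← IsLocalRing.residue_eq_zero_iff]
    have h1 : IsLocalRing.residue A (Y a b) = (Y.map (algebraMap A (ResidueField A))) a b := rfl
    have h2 : IsLocalRing.residue A (Y' a b) =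
        (c.sum fun i x => x • (r i).map (algebraMap A (ResidueField A))) a b := by
      rw [hY', Finsupp.sum, Matrix.sum_apply, Matrix.sum_apply, map_sum]
      refine Finset.sum_congr rfl fun i _ => ?_
      rw [Matrix.smul_apply, Matrix.smul_apply, smul_eq_mul, smul_eq_mul, map_mul]
      congr 1
      exact hliftspec (c i)
    rw [Matrix.sub_apply, map_sub, h1, h2, hc, sub_self]
  have : Y = Y' + (Y - Y') := by abel
  rw [this]
  exact Submodule.add_mem_sup hY'mem (matrix_mem_smul_top _ _ hdiff)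

end Matrix

section TraceKernel

variable {A : Type} [CommRing A] [IsLocalRing A]

/-- A basis of the underlying module of a `GaloisRepAdic`. -/
noncomputable def stdBasis (ρ : GaloisRepAdic A) : Module.Basis (Fin 2) A ρ.V :=
  Module.finBasisOfFinrankEq A ρ.V ρ.finrank_eq

/-- The matrices of `ρ` in the standard basis. -/
noncomputable def mat (ρ : GaloisRepAdic A) (σ : GQ) : Matrix (Fin 2) (Fin 2) A :=
  LinearMap.toMatrix (stdBasis ρ) (stdBasis ρ) (ρ.ρ σ)

theorem mat_mul (ρ : GaloisRepAdic A) (σ τ : GQ) : mat ρ (σ * τ) = mat ρ σ * mat ρ τ := by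
  unfold mat
  rw [map_mul, Module.End.mul_eq_comp, LinearMap.toMatrix_comp (stdBasis ρ) (stdBasis ρ)]

theorem trace_eq_mat_trace (ρ : GaloisRepAdic A) (σ : GQ) :
    ρ.trace σ = (mat ρ σ).trace := by
  unfold GaloisRepAdic.trace mat
  exact LinearMap.trace_eq_matrix_trace A (stdBasis ρ) _

/-- The matrices of the residual representation in the base-changed basis are the reductions
of the matrices of `ρ`. -/
theorem residual_toMatrix (ρ : GaloisRepAdic A) (σ : GQ) :
    LinearMap.toMatrix (Algebra.TensorProduct.basis (ResidueField A) (stdBasis ρ))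
      (Algebra.TensorProduct.basis (ResidueField A) (stdBasis ρ)) (ρ.residual.ρ σ) =
      (mat ρ σ).map (algebraMap A (ResidueField A)) := by
  have : ρ.residual.ρ σ = (ρ.ρ σ).baseChange (ResidueField A) := rfl
  rw [this]
  exact LinearMap.toMatrix_baseChange (ResidueField A) (ρ.ρ σ) (stdBasis ρ) (stdBasis ρ)

/-- **Burnside + Nakayama, matrix form**: the matrices of a residually absolutely irreducible
representation span `M₂(A)`. -/
theorem span_range_mat_eq_top (ρ : GaloisRepAdic A)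
    (habs : ρ.residual.IsAbsolutelyIrreducible) :
    Submodule.span A (Set.range (mat ρ)) = ⊤ := by
  apply span_matrix_eq_top
  have h := Fermat.Agent.S53.helper3173.span_range_toMatrix_eq_top ρ.residual habs
    (Algebra.TensorProduct.basis (ResidueField A) (stdBasis ρ))
  rw [← h]
  congr 1
  ext M
  constructor
  · rintro ⟨σ, rfl⟩
    exact ⟨σ, residual_toMatrix ρ σ⟩
  · rintro ⟨σ, rfl⟩
    exact ⟨σ, (residual_toMatrix ρ σ).symm⟩

/-- **Burnside + Nakayama**: the `A`-span of the image of a residually absolutely irreducible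
representation is the whole endomorphism ring. -/
theorem span_range_eq_top (ρ : GaloisRepAdic A)
    (habs : ρ.residual.IsAbsolutelyIrreducible) :
    Submodule.span A (Set.range ρ.ρ) = ⊤ := by
  have h := span_range_mat_eq_top ρ habs
  have h2 := congrArg (Submodule.map
    (LinearMap.toMatrix (stdBasis ρ) (stdBasis ρ)).symm.toLinearMap) h
  rw [Submodule.map_span, Submodule.map_top, LinearMap.range_eq_top.mpr
    (LinearMap.toMatrix (stdBasis ρ) (stdBasis ρ)).symm.surjective, ← Set.range_comp] at h2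
  rw [← h2]
  congr 1
  ext f
  constructor
  · rintro ⟨σ, rfl⟩
    exact ⟨σ, by simp [mat]⟩
  · rintro ⟨σ, rfl⟩
    exact ⟨σ, by simp [mat]⟩

/-- Matrix core of the trace-kernel lemma: if `tr(X · ρ(g))` lies in an ideal `I` for every
`g`, then every entry of `X` lies in `I`. -/
theorem entries_mem_of_trace_mul_mem (ρ : GaloisRepAdic A)
    (habs : ρ.residual.IsAbsolutelyIrreducible) (I : Ideal A)
    (X : Matrix (Fin 2) (Fin 2) A) (h : ∀ g : GQ, (X * mat ρ g).trace ∈ I) :
    ∀ i j, X i j ∈ I := by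
  classical
  -- the submodule of all `Y` with `tr(X Y) ∈ I`
  let N : Submodule A (Matrix (Fin 2) (Fin 2) A) :=
    { carrier := {Y | (X * Y).trace ∈ I}
      add_mem' := by
        intro Y Z hY hZ
        change (X * Y).trace ∈ I at hY; change (X * Z).trace ∈ I at hZ; change (X * (Y + Z)).trace ∈ I
        rw [mul_add, Matrix.trace_add]
        exact I.add_mem hY hZ
      zero_mem' := by simp
      smul_mem' := by
        intro a Y hY
        change (X * Y).trace ∈ I at hY; change (X * (a • Y)).trace ∈ I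
        rw [Matrix.mul_smul, Matrix.trace_smul]
        exact I.mul_mem_left a hY }
  have hN : N = ⊤ := by
    rw [eq_top_iff, ← span_range_mat_eq_top ρ habs, Submodule.span_le]
    rintro _ ⟨g, rfl⟩
    exact h g
  intro i j
  have hmem : Matrix.single j i (1 : A) ∈ N := by rw [hN]; exact Submodule.mem_top
  have htr : (X * Matrix.single j i (1 : A)).trace = X i j := by
    rw [Matrix.trace_mul_comm, Matrix.trace_single_mul, one_smul]
  have : (X * Matrix.single j i (1 : A)).trace ∈ I := hmem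
  rwa [htr] at this

/-- `tr ρ(τ g) - tr ρ(g) = tr((ρ(τ) - 1) ρ(g))` in matrix form. -/
theorem trace_mul_sub (ρ : GaloisRepAdic A) (τ g : GQ) :
    ρ.trace (τ * g) - ρ.trace g = ((mat ρ τ - 1) * mat ρ g).trace := by
  rw [trace_eq_mat_trace, trace_eq_mat_trace, mat_mul, sub_mul, one_mul, Matrix.trace_sub]

/-- **Trace-kernel lemma, Krull form.** Let `ρ` be a residually absolutely irreducible
representation over a noetherian local ring. If `tr ρ(τ g) ≡ tr ρ(g)` modulo every power of the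
maximal ideal, for all `g`, then `ρ(τ) = 1`. -/
theorem eq_one_of_trace_sub_mem [IsNoetherianRing A] (ρ : GaloisRepAdic A)
    (habs : ρ.residual.IsAbsolutelyIrreducible) (τ : GQ)
    (h : ∀ (n : ℕ) (g : GQ), ρ.trace (τ * g) - ρ.trace g ∈ maximalIdeal A ^ n) :
    ρ.ρ τ = 1 := by
  have hX : mat ρ τ - 1 = 0 := by
    ext i j
    have hmem : ∀ n : ℕ, (mat ρ τ - 1) i j ∈ maximalIdeal A ^ n := by
      intro n
      refine entries_mem_of_trace_mul_mem ρ habs _ _ (fun g => ?_) i j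
      rw [← trace_mul_sub]
      exact h n g
    have hbot : (mat ρ τ - 1) i j ∈ (⨅ n : ℕ, maximalIdeal A ^ n : Ideal A) :=
      (Submodule.mem_iInf _).mpr hmem
    rw [Ideal.iInf_pow_eq_bot_of_isLocalRing _ (maximalIdeal.isMaximal A).ne_top] at hbot
    simpa using hbot
  have hmat : mat ρ τ = 1 := sub_eq_zero.mp hX
  apply (LinearMap.toMatrix (stdBasis ρ) (stdBasis ρ)).injective
  rw [LinearMap.toMatrix_one]
  exact hmat

/-- **Trace-kernel lemma, exact form** (no noetherian hypothesis). -/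
theorem eq_one_of_trace_mul (ρ : GaloisRepAdic A)
    (habs : ρ.residual.IsAbsolutelyIrreducible) (τ : GQ)
    (h : ∀ g : GQ, ρ.trace (τ * g) = ρ.trace g) :
    ρ.ρ τ = 1 := by
  have hX : mat ρ τ - 1 = 0 := by
    ext i j
    have := entries_mem_of_trace_mul_mem ρ habs ⊥ (mat ρ τ - 1) (fun g => by
      rw [← trace_mul_sub, h g, sub_self]; exact Submodule.zero_mem _) i j
    simpa using this
  have hmat : mat ρ τ = 1 := sub_eq_zero.mp hX
  apply (LinearMap.toMatrix (stdBasis ρ) (stdBasis ρ)).injective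
  rw [LinearMap.toMatrix_one]
  exact hmat

end TraceKernel

section Continuity

variable {A : Type} [CommRing A] [IsLocalRing A]

omit [IsLocalRing A] in
/-- Coordinates of an element of `I • ⊤` lie in `I`. -/
theorem repr_mem_of_mem_smul_top {ι : Type} {V : Type} [AddCommGroup V] [Module A V]
    (b : Module.Basis ι A V) (I : Ideal A) (w : V) (hw : w ∈ I • (⊤ : Submodule A V)) (i : ι) :
    b.repr w i ∈ I := by
  refine Submodule.smul_induction_on (p := fun w => b.repr w i ∈ I) hw ?_ ?_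
  · intro a ha v _
    rw [map_smul, Finsupp.smul_apply, smul_eq_mul]
    exact I.mul_mem_right _ ha
  · intro x y hx hy
    rw [map_add, Finsupp.add_apply]
    exact I.add_mem hx hy

/-- The trace of an endomorphism with image in `I • ⊤` lies in `I`. -/
theorem trace_mem_of_forall_mem_smul_top (ρ : GaloisRepAdic A) (I : Ideal A)
    (f : Module.End A ρ.V) (hf : ∀ v, f v ∈ I • (⊤ : Submodule A ρ.V)) :
    LinearMap.trace A ρ.V f ∈ I := by
  rw [LinearMap.trace_eq_matrix_trace A (stdBasis ρ) f, Matrix.trace]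
  refine I.sum_mem fun i _ => ?_
  rw [Matrix.diag_apply, LinearMap.toMatrix_apply]
  exact repr_mem_of_mem_smul_top _ _ _ (hf _) i

/-- **Continuity of the trace.** For every `n` there is a finite extension `L/ℚ` such that
the traces of two Galois elements agreeing on `L` are congruent modulo `𝔪ⁿ`. -/
theorem exists_field_trace_sub_mem (ρ : GaloisRepAdic A) (n : ℕ) :
    ∃ L : IntermediateField ℚ (AlgebraicClosure ℚ), FiniteDimensional ℚ L ∧
      ∀ g s : GQ, (∀ x ∈ L, s x = g x) → ρ.trace s - ρ.trace g ∈ maximalIdeal A ^ n := by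
  obtain ⟨L, hL, h1⟩ := ρ.isAdicContinuous n
  refine ⟨L, hL, fun g s hgs => ?_⟩
  have hσ : ∀ x ∈ L, (g⁻¹ * s) x = x := by
    intro x hx
    rw [AlgEquiv.mul_apply, hgs x hx]
    exact AlgEquiv.symm_apply_apply g x
  have hs : s = g * (g⁻¹ * s) := by group
  have htr : ρ.trace s - ρ.trace g =
      LinearMap.trace A ρ.V (ρ.ρ g * (ρ.ρ (g⁻¹ * s) - 1)) := by
    unfold GaloisRepAdic.trace
    rw [mul_sub, mul_one, map_sub, ← map_mul, ← hs]
  rw [htr]
  apply trace_mem_of_forall_mem_smul_top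
  intro v
  have hv := h1 (g⁻¹ * s) hσ v
  have hmap := Submodule.mem_map_of_mem (f := ρ.ρ g) hv
  rw [Submodule.map_smul''] at hmap
  have hle : maximalIdeal A ^ n • Submodule.map (ρ.ρ g) (⊤ : Submodule A ρ.V) ≤
      maximalIdeal A ^ n • (⊤ : Submodule A ρ.V) := Submodule.smul_mono le_rfl le_top
  have h3 := hle hmap
  have h4 : (ρ.ρ g * (ρ.ρ (g⁻¹ * s) - 1)) v = (ρ.ρ g) ((ρ.ρ (g⁻¹ * s)) v - v) := by
    rw [Module.End.mul_apply, LinearMap.sub_apply, Module.End.one_apply]
  rw [h4]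
  exact h3

/-- Unramifiedness from trace congruences on inertia (any `GaloisRepAdic`). -/
theorem isUnramifiedAt_of_trace_sub_mem [IsNoetherianRing A] (ρ : GaloisRepAdic A)
    (habs : ρ.residual.IsAbsolutelyIrreducible) (q : ℕ)
    (h : ∀ P : ValuationSubring (AlgebraicClosure ℚ), P.LiesOverPrime q →
      ∀ τ ∈ P.inertiaSubgroupIn ℚ, ∀ (n : ℕ) (g : GQ),
        ρ.trace (τ * g) - ρ.trace g ∈ maximalIdeal A ^ n) :
    ρ.IsUnramifiedAt q :=
  fun P hP τ hτ => eq_one_of_trace_sub_mem ρ habs τ (h P hP τ hτ)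

end Continuity

section Lucas

variable {R : Type} [CommRing R]

/-- The Lucas sequence `V_a(t, d)`: `V₀ = 2`, `V₁ = t`, `V_{a+2} = t V_{a+1} - d V_a`.
It computes `tr(Mᵃ)` for a `2 × 2` matrix with trace `t` and determinant `d`. -/
def lucasV (t d : R) : ℕ → R
  | 0 => 2
  | 1 => t
  | (a + 2) => t * lucasV t d (a + 1) - d * lucasV t d a

@[simp] theorem lucasV_zero (t d : R) : lucasV t d 0 = 2 := rfl
@[simp] theorem lucasV_one (t d : R) : lucasV t d 1 = t := rfl
theorem lucasV_add_two (t d : R) (a : ℕ) :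
    lucasV t d (a + 2) = t * lucasV t d (a + 1) - d * lucasV t d a := rfl

/-- Cayley–Hamilton for `2 × 2` matrices. -/
theorem matrix_sq_eq (M : Matrix (Fin 2) (Fin 2) R) :
    M ^ 2 = M.trace • M - M.det • (1 : Matrix (Fin 2) (Fin 2) R) := by
  ext i j
  fin_cases i <;> fin_cases j <;>
    simp [pow_two, Matrix.mul_apply, Fin.sum_univ_two, Matrix.trace, Matrix.det_fin_two] <;> ring

/-- `tr(Mᵃ) = V_a(tr M, det M)` for `2 × 2` matrices. -/
theorem trace_pow_eq_lucasV (M : Matrix (Fin 2) (Fin 2) R) (a : ℕ) :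
    (M ^ a).trace = lucasV M.trace M.det a := by
  induction a using Nat.strong_induction_on with
  | _ a ih =>
    match a with
    | 0 => simp [Matrix.trace, Fin.sum_univ_two]
    | 1 => simp
    | (b + 2) =>
      have h : M ^ (b + 2) = M.trace • M ^ (b + 1) - M.det • M ^ b := by
        rw [pow_add, matrix_sq_eq, mul_sub, Matrix.mul_smul, Matrix.mul_smul, mul_one, ← pow_succ]
      rw [h, Matrix.trace_sub, Matrix.trace_smul, Matrix.trace_smul, smul_eq_mul, smul_eq_mul,
        ih (b + 1) (by omega), ih b (by omega), lucasV_add_two]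

end Lucas

section S31

variable {N : ℕ} [NeZero N] {S : Finset ℕ}
  {𝒪 : Type} [CommRing 𝒪] [IsDomain 𝒪] [IsDiscreteValuationRing 𝒪]
  [IsAdicComplete (IsLocalRing.maximalIdeal 𝒪) 𝒪]
  {θ : CuspForm.heckeAlgebra N 2 (↑S : Set ℕ) →+* IsLocalRing.ResidueField 𝒪}
  {T : Type} [CommRing T] [IsLocalRing T] [IsNoetherianRing T]
  [IsAdicComplete (IsLocalRing.maximalIdeal T) T] [Algebra 𝒪 T] [IsLocalHom (algebraMap 𝒪 T)]
  [Module.Finite 𝒪 T] [Module.Free 𝒪 T]

/-- In a Hecke–Galois datum the trace of every Frobenius lift at a good prime `ℓ ∉ S` is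
`π(T_ℓ)`. -/
theorem trace_frob (H : CuspForm.HeckeGaloisRepDatum N (↑S : Set ℕ) 𝒪 θ T) {ℓ : ℕ}
    (hℓ : ℓ.Prime) (hℓN : ¬ ℓ ∣ N) (hℓS : ℓ ∉ (↑S : Set ℕ))
    (B : ValuationSubring (AlgebraicClosure ℚ)) (hB : B.LiesOverPrime ℓ) (s : GQ)
    (hs : B.IsFrobeniusAt s ℓ) :
    H.ρ.trace s = H.π (CuspForm.heckeAlgebra.T hℓ hℓN hℓS) := by
  have h := H.charpoly_frob ℓ hℓ hℓN hℓS B hB s hs
  rw [trace_eq_mat_trace, Matrix.trace_eq_neg_charpoly_coeff]
  unfold mat
  rw [LinearMap.charpoly_toMatrix, h]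
  simp [Polynomial.coeff_X_pow, Polynomial.coeff_C]

/-- In a Hecke–Galois datum the determinant of every Frobenius lift at a good prime `ℓ ∉ S`
is `ℓ`. -/
theorem det_frob (H : CuspForm.HeckeGaloisRepDatum N (↑S : Set ℕ) 𝒪 θ T) {ℓ : ℕ}
    (hℓ : ℓ.Prime) (hℓN : ¬ ℓ ∣ N) (hℓS : ℓ ∉ (↑S : Set ℕ))
    (B : ValuationSubring (AlgebraicClosure ℚ)) (hB : B.LiesOverPrime ℓ) (s : GQ)
    (hs : B.IsFrobeniusAt s ℓ) :
    (mat H.ρ s).det = (ℓ : T) := by
  have h := H.charpoly_frob ℓ hℓ hℓN hℓS B hB s hs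
  rw [Matrix.det_eq_sign_charpoly_coeff]
  unfold mat
  rw [LinearMap.charpoly_toMatrix, h]
  simp [Polynomial.coeff_X_pow, Polynomial.coeff_C]

/-- Trace of a power of a Frobenius lift: `tr ρ(sᵃ) = V_a(π(T_ℓ), ℓ)`. -/
theorem trace_frob_pow (H : CuspForm.HeckeGaloisRepDatum N (↑S : Set ℕ) 𝒪 θ T) {ℓ : ℕ}
    (hℓ : ℓ.Prime) (hℓN : ¬ ℓ ∣ N) (hℓS : ℓ ∉ (↑S : Set ℕ))
    (B : ValuationSubring (AlgebraicClosure ℚ)) (hB : B.LiesOverPrime ℓ) (s : GQ)
    (hs : B.IsFrobeniusAt s ℓ) (a : ℕ) :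
    H.ρ.trace (s ^ a) = lucasV (H.π (CuspForm.heckeAlgebra.T hℓ hℓN hℓS)) (ℓ : T) a := by
  have hpow : mat H.ρ (s ^ a) = mat H.ρ s ^ a := by
    induction a with
    | zero =>
      rw [pow_zero, pow_zero]
      unfold mat
      rw [map_one, LinearMap.toMatrix_one]
    | succ k ih => rw [pow_succ, pow_succ, mat_mul, ih]
  rw [trace_eq_mat_trace, hpow, trace_pow_eq_lucasV, ← trace_eq_mat_trace,
    trace_frob H hℓ hℓN hℓS B hB s hs, det_frob H hℓ hℓN hℓS B hB s hs]

/-- **Frobenius-pair reciprocity statement `(B*)` at `q`** (existence form): for every level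
`n`, every finite `L/ℚ`, every inertia element `τ` at `q` and every `g`, there are good primes
`ℓ, ℓ'` outside `S` with Frobenius lifts `s, s'` such that `s = g` and `s' = τ g` on `L`, and
`π(T_ℓ) ≡ π(T_ℓ')` modulo `𝔪_Tⁿ`. -/
def FrobeniusPairs (H : CuspForm.HeckeGaloisRepDatum N (↑S : Set ℕ) 𝒪 θ T) (q : ℕ) : Prop :=
  ∀ (n : ℕ) (L : IntermediateField ℚ (AlgebraicClosure ℚ)), FiniteDimensional ℚ L →
    ∀ P : ValuationSubring (AlgebraicClosure ℚ), P.LiesOverPrime q →
      ∀ τ ∈ P.inertiaSubgroupIn ℚ, ∀ g : GQ,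
        ∃ (ℓ ℓ' : ℕ) (hℓ : ℓ.Prime) (hℓN : ¬ ℓ ∣ N) (hℓS : ℓ ∉ (↑S : Set ℕ))
          (hℓ' : ℓ'.Prime) (hℓ'N : ¬ ℓ' ∣ N) (hℓ'S : ℓ' ∉ (↑S : Set ℕ))
          (B B' : ValuationSubring (AlgebraicClosure ℚ)) (s s' : GQ),
          B.LiesOverPrime ℓ ∧ B.IsFrobeniusAt s ℓ ∧ B'.LiesOverPrime ℓ' ∧
          B'.IsFrobeniusAt s' ℓ' ∧ (∀ x ∈ L, s x = g x) ∧ (∀ x ∈ L, s' x = (τ * g) x) ∧
          H.π (CuspForm.heckeAlgebra.T hℓ hℓN hℓS) - H.π (CuspForm.heckeAlgebra.T hℓ' hℓ'N hℓ'S)
            ∈ IsLocalRing.maximalIdeal T ^ n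

/-- **Generator form of `(B*)`**: as `FrobeniusPairs`, but only powers of the Frobenius lifts
are required to match `g` and `τ g` on `L`; the congruence is between the Lucas values
`V_a(π(T_ℓ), ℓ)` and `V_b(π(T_ℓ'), ℓ')`. -/
def FrobeniusPowerPairs (H : CuspForm.HeckeGaloisRepDatum N (↑S : Set ℕ) 𝒪 θ T) (q : ℕ) :
    Prop :=
  ∀ (n : ℕ) (L : IntermediateField ℚ (AlgebraicClosure ℚ)), FiniteDimensional ℚ L →
    ∀ P : ValuationSubring (AlgebraicClosure ℚ), P.LiesOverPrime q →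
      ∀ τ ∈ P.inertiaSubgroupIn ℚ, ∀ g : GQ,
        ∃ (ℓ ℓ' : ℕ) (hℓ : ℓ.Prime) (hℓN : ¬ ℓ ∣ N) (hℓS : ℓ ∉ (↑S : Set ℕ))
          (hℓ' : ℓ'.Prime) (hℓ'N : ¬ ℓ' ∣ N) (hℓ'S : ℓ' ∉ (↑S : Set ℕ))
          (B B' : ValuationSubring (AlgebraicClosure ℚ)) (s s' : GQ) (a b : ℕ),
          B.LiesOverPrime ℓ ∧ B.IsFrobeniusAt s ℓ ∧ B'.LiesOverPrime ℓ' ∧
          B'.IsFrobeniusAt s' ℓ' ∧ (∀ x ∈ L, (s ^ a) x = g x) ∧
          (∀ x ∈ L, (s' ^ b) x = (τ * g) x) ∧
          lucasV (H.π (CuspForm.heckeAlgebra.T hℓ hℓN hℓS)) (ℓ : T) a -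
            lucasV (H.π (CuspForm.heckeAlgebra.T hℓ' hℓ'N hℓ'S)) (ℓ' : T) b
            ∈ IsLocalRing.maximalIdeal T ^ n

theorem FrobeniusPairs.powerPairs {H : CuspForm.HeckeGaloisRepDatum N (↑S : Set ℕ) 𝒪 θ T}
    {q : ℕ} (h : FrobeniusPairs H q) : FrobeniusPowerPairs H q := by
  intro n L hL P hP τ hτ g
  obtain ⟨ℓ, ℓ', hℓ, hℓN, hℓS, hℓ', hℓ'N, hℓ'S, B, B', s, s', h1, h2, h3, h4, h5, h6, h7⟩ :=
    h n L hL P hP τ hτ g
  exact ⟨ℓ, ℓ', hℓ, hℓN, hℓS, hℓ', hℓ'N, hℓ'S, B, B', s, s', 1, 1, h1, h2, h3, h4,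
    by simpa using h5, by simpa using h6, by simpa using h7⟩

/-- **S31 from the generator form of `(B*)`.** -/
theorem isUnramifiedAt_of_frobeniusPowerPairs
    (H : CuspForm.HeckeGaloisRepDatum N (↑S : Set ℕ) 𝒪 θ T) (q : ℕ)
    (hB : FrobeniusPowerPairs H q) : H.ρ.IsUnramifiedAt q := by
  intro P hP τ hτ
  refine eq_one_of_trace_sub_mem H.ρ H.residual_absIrr τ (fun n g => ?_)
  obtain ⟨L, hL, hcont⟩ := exists_field_trace_sub_mem H.ρ n
  obtain ⟨ℓ, ℓ', hℓ, hℓN, hℓS, hℓ', hℓ'N, hℓ'S, B, B', s, s', a, b, h1, h2, h3, h4, hs, hs',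
    hπ⟩ := hB n L hL P hP τ hτ g
  have e1 := hcont g (s ^ a) hs
  have e2 := hcont (τ * g) (s' ^ b) hs'
  rw [trace_frob_pow H hℓ hℓN hℓS B h1 s h2] at e1
  rw [trace_frob_pow H hℓ' hℓ'N hℓ'S B' h3 s' h4] at e2
  have hkey : H.ρ.trace (τ * g) - H.ρ.trace g =
      (lucasV (H.π (CuspForm.heckeAlgebra.T hℓ hℓN hℓS)) (ℓ : T) a - H.ρ.trace g) -
      (lucasV (H.π (CuspForm.heckeAlgebra.T hℓ' hℓ'N hℓ'S)) (ℓ' : T) b - H.ρ.trace (τ * g)) -
      (lucasV (H.π (CuspForm.heckeAlgebra.T hℓ hℓN hℓS)) (ℓ : T) a -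
        lucasV (H.π (CuspForm.heckeAlgebra.T hℓ' hℓ'N hℓ'S)) (ℓ' : T) b) := by ring
  rw [hkey]
  exact Ideal.sub_mem _ (Ideal.sub_mem _ e1 e2) hπ

/-- **S31 from the Frobenius-pair reciprocity statement `(B*)`.** This is the frozen S31
conclusion; the hypotheses `hp`, `hpS`, `hNS`, `hq`, `hqS` of the frozen statement are only
needed to *prove* `FrobeniusPairs H q`. -/
theorem isUnramifiedAt_of_frobeniusPairs
    (H : CuspForm.HeckeGaloisRepDatum N (↑S : Set ℕ) 𝒪 θ T) (q : ℕ)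
    (hB : FrobeniusPairs H q) : H.ρ.IsUnramifiedAt q :=
  isUnramifiedAt_of_frobeniusPowerPairs H q hB.powerPairs

end S31

end Fermat.Agent.S31.helper517
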